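import Fermat.Agent.Hauptmodul.ListSeries
import Fermat.Prelude.Def_ModularCurve_X0
import Mathlib.RingTheory.PowerSeries.Order
import Fermat.Agent.ModularFunctionField.EtaProduct

/-!
# Soundness of the truncated list arithmetic

`Rep K p l` says that the list `l` gives the coefficients of `p` below degree `K`. The list
operations respect it, so identities between initial coefficients can be checked by `decide`.
-/

set_option autoImplicit false

noncomputable section

open PowerSeries

namespace Fermat.Agent.Hauptmodul.LS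

/-- The power series with coefficient list `l`. -/
def toPS (l : List ℤ) : PowerSeries ℤ := PowerSeries.mk fun n => l.getD n 0

/-- `l` gives the coefficients of `p` below degree `K`. -/
def Rep (K : ℕ) (p : PowerSeries ℤ) (l : List ℤ) : Prop := (X : PowerSeries ℤ) ^ K ∣ p - toPS l

theorem coeff_toPS (l : List ℤ) (n : ℕ) : coeff n (toPS l) = l.getD n 0 := by simp [toPS]

/-- The empty list represents `0`. -/
theorem toPS_nil : toPS [] = 0 := by ext n; simp [coeff_toPS]

theorem toPS_cons (a : ℤ) (l : List ℤ) : toPS (a :: l) = C a + X * toPS l := by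
  ext n
  rcases n with _ | n <;> simp [coeff_toPS, -eq_intCast, -map_intCast]

theorem toPS_addL (a b : List ℤ) : toPS (addL a b) = toPS a + toPS b := by
  induction a generalizing b with
  | nil => simp [addL, toPS_nil]
  | cons x xs ih =>
    cases b with
    | nil => simp [addL, toPS_nil]
    | cons y ys => simp only [addL, toPS_cons, ih, map_add]; ring

theorem toPS_map_mul (c : ℤ) (l : List ℤ) : toPS (l.map (c * ·)) = C c * toPS l := by
  induction l with
  | nil => simp [toPS_nil]
  | cons x xs ih => simp only [List.map_cons, toPS_cons, ih, map_mul]; ring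

theorem rep_take (K : ℕ) (l : List ℤ) : Rep K (toPS l) (l.take K) := by
  rw [Rep, X_pow_dvd_iff]
  intro n hn
  simp [coeff_toPS, List.getD_eq_getElem?_getD, hn]

theorem Rep.refl (K : ℕ) (l : List ℤ) : Rep K (toPS l) l := by simp [Rep]

/-- Truncations add. -/
theorem Rep.add {K : ℕ} {p q : PowerSeries ℤ} {a b : List ℤ} (hp : Rep K p a) (hq : Rep K q b) :
    Rep K (p + q) (addL a b) := by
  rw [Rep, toPS_addL, add_sub_add_comm]
  exact dvd_add hp hq

/-- Truncations scale. -/
theorem Rep.smul {K : ℕ} {p : PowerSeries ℤ} {a : List ℤ} (c : ℤ) (hp : Rep K p a) :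
    Rep K (C c * p) (a.map (c * ·)) := by
  rw [Rep, toPS_map_mul, ← mul_sub]
  exact hp.mul_left _

theorem rep_mulL (K : ℕ) (a b : List ℤ) : Rep K (toPS a * toPS b) (mulL K a b) := by
  induction a with
  | nil => simp [Rep, mulL, toPS_nil]
  | cons x xs ih =>
    have h := rep_take K (addL (b.map (x * ·)) (0 :: mulL K xs b))
    rw [Rep, toPS_addL, toPS_map_mul, toPS_cons, map_zero, zero_add] at h
    rw [Rep, mulL, toPS_cons]
    have h2 := dvd_add h (ih.mul_left X)
    convert h2 using 1
    ring

/-- Truncations multiply. -/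
theorem Rep.mul {K : ℕ} {p q : PowerSeries ℤ} {a b : List ℤ} (hp : Rep K p a) (hq : Rep K q b) :
    Rep K (p * q) (mulL K a b) := by
  have h := dvd_add (dvd_add (hp.mul_right q) (hq.mul_left (toPS a))) (rep_mulL K a b)
  rw [Rep]
  convert h using 1
  ring

theorem rep_one (K : ℕ) : Rep K 1 [1] := by simp [Rep, toPS_cons, toPS_nil]

/-- Truncations of powers. -/
theorem Rep.pow {K : ℕ} {p : PowerSeries ℤ} {a : List ℤ} (hp : Rep K p a) :
    ∀ n : ℕ, Rep K (p ^ n) (powL K a n)
  | 0 => by simpa [powL] using rep_one K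
  | n + 1 => by rw [pow_succ]; exact (hp.pow n).mul hp

theorem toPS_xPowL (n : ℕ) : toPS (xPowL n) = X ^ n := by
  induction n with
  | zero => simp [xPowL, toPS_cons, toPS_nil]
  | succ n ih =>
    rw [show xPowL (n + 1) = 0 :: xPowL n from rfl, toPS_cons, ih, map_zero, zero_add, pow_succ']

/-- The truncation of `X^n`. -/
theorem rep_X_pow (K n : ℕ) : Rep K (X ^ n) (xPowL n) := by simp [Rep, toPS_xPowL]

/-- A truncation gives the coefficients below degree `K`. -/
theorem Rep.coeff_eq {K : ℕ} {p : PowerSeries ℤ} {a : List ℤ} (hp : Rep K p a) {n : ℕ}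
    (hn : n < K) : coeff n p = a.getD n 0 := by
  have := (X_pow_dvd_iff.1 hp) n hn
  rwa [map_sub, sub_eq_zero, coeff_toPS] at this

/-- Truncated inversion. -/
theorem Rep.of_mul_eq_one {K : ℕ} {p q : PowerSeries ℤ} {a b : List ℤ} (hp : Rep K p a)
    (hpq : p * q = 1) (hab : mulL K a b = 1 :: List.replicate (K - 1) 0) : Rep K q b := by
  have h := (hp.mul (Rep.refl K b))
  rw [hab] at h
  have h1 : toPS (1 :: List.replicate (K - 1) 0) = 1 := by
    rw [toPS_cons]
    have : toPS (List.replicate (K - 1) 0) = 0 := by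
      ext n; simp [coeff_toPS, List.getElem?_replicate]; split_ifs <;> rfl
    simp [this]
  rw [Rep, h1] at h
  rw [Rep]
  convert (h.mul_left (-q)) using 1
  linear_combination (toPS b) * hpq

/-- Substitution `X ↦ X^r` on power series. -/
def expandPS (r : ℕ) (p : PowerSeries ℤ) : PowerSeries ℤ :=
  PowerSeries.mk fun n => if r ∣ n then coeff (n / r) p else 0

/-- Truncations of `p(X^r)`. -/
theorem Rep.expand {K r : ℕ} {p : PowerSeries ℤ} {a : List ℤ} (hp : Rep K p a) :
    Rep K (expandPS r p) (expandL K r a) := by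
  rw [Rep, X_pow_dvd_iff]
  intro n hn
  rw [map_sub, coeff_toPS, expandPS, coeff_mk, expandL, List.getD_eq_getElem?_getD,
    List.getElem?_map, List.getElem?_range hn, Option.map_some, Option.getD_some]
  split_ifs with h
  · rw [hp.coeff_eq ((Nat.div_le_self n r).trans_lt hn), sub_self]
  · rw [sub_self]

theorem rep_prod_range (K n : ℕ) :
    Rep K (∏ i ∈ Finset.range n, (1 - X ^ (i + 1) : PowerSeries ℤ)) (etaL K n) := by
  induction n with
  | zero => simpa [etaL] using rep_one K
  | succ n ih =>
    rw [Finset.prod_range_succ, etaL]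
    refine ih.mul ?_
    have h := (rep_one K).add ((rep_X_pow K (n + 1)).smul (-1))
    simpa [sub_eq_add_neg] using h

/-- The truncation of the Euler product. -/
theorem rep_etaProd (K : ℕ) : Rep K ModularCurve.etaProd (etaL K K) := by
  have hr := rep_prod_range K K
  rw [Rep] at hr ⊢
  refine (show (X : PowerSeries ℤ) ^ K ∣ ModularCurve.etaProd -
      ∏ i ∈ Finset.range K, (1 - X ^ (i + 1)) from ?_).trans dvd_rfl |> fun h => by
    simpa using dvd_add h hr
  rw [X_pow_dvd_iff]
  intro m hm
  obtain ⟨s, hs, hs'⟩ := (((ModularFunctionField.eventually_coeff_prod_eq m).and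
    (Filter.eventually_ge_atTop (Finset.range K)))).exists
  rw [map_sub, sub_eq_zero, ← hs, ← Finset.prod_sdiff hs']
  have h1 : (X : PowerSeries ℤ) ^ K ∣
      (∏ i ∈ s \ Finset.range K, (1 - X ^ (i + 1) : PowerSeries ℤ)) - 1 := by
    have : ∀ t : Finset ℕ, (∀ i ∈ t, K ≤ i) →
        (X : PowerSeries ℤ) ^ K ∣ (∏ i ∈ t, (1 - X ^ (i + 1) : PowerSeries ℤ)) - 1 := by
      intro t
      induction t using Finset.induction_on with
      | empty => simp
      | insert i t hi ih =>
        intro h
        rw [Finset.prod_insert hi]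
        have e : (1 - X ^ (i + 1) : PowerSeries ℤ) * ∏ j ∈ t, (1 - X ^ (j + 1)) - 1 =
            ((∏ j ∈ t, (1 - X ^ (j + 1) : PowerSeries ℤ)) - 1) -
              X ^ (i + 1) * ∏ j ∈ t, (1 - X ^ (j + 1) : PowerSeries ℤ) := by ring
        rw [e]
        exact dvd_sub (ih fun j hj => h j (Finset.mem_insert_of_mem hj))
          ((pow_dvd_pow _ (by have := h i (Finset.mem_insert_self i t); omega)).mul_right _)
    exact this _ fun i hi => by
      simpa using (Finset.mem_sdiff.1 hi).2
  have h2 := (X_pow_dvd_iff.1 (h1.mul_right (∏ i ∈ Finset.range K, (1 - X ^ (i + 1))))) m hm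
  rwa [sub_mul, one_mul, map_sub, sub_eq_zero] at h2

/-- The first coefficients of `1/∏(1-qⁿ)`: the partition numbers. -/
def etaInvL : List ℤ := [1, 1, 2, 3, 5, 7, 11, 15, 22, 30, 42, 56, 77, 101, 135, 176, 231, 297, 385, 490, 627, 792, 1002, 1255, 1575]

/-- The first coefficients of `E₄`. -/
def e4L : List ℤ :=
  (List.range 25).map fun n => if n = 0 then 1 else
    240 * (((List.range (n + 1)).filter fun d => d ≠ 0 && n % d = 0).map fun d => (d : ℤ) ^ 3).sum

/-- The truncation of `E₄`. -/
theorem rep_eisenstein4 {K : ℕ} (hK : K ≤ 25) : Rep K ModularCurve.eisenstein4 e4L := by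
  rw [Rep, X_pow_dvd_iff]
  intro n hn
  rw [map_sub, coeff_toPS, sub_eq_zero, ModularCurve.eisenstein4, coeff_mk]
  have : ∀ m : ℕ, m < 25 →
      (if m = 0 then (1 : ℤ) else 240 * ∑ d ∈ Nat.divisors m, ((d : ℕ) : ℤ) ^ 3) = e4L.getD m 0 := by
    decide +kernel
  exact this n (lt_of_lt_of_le hn hK)

end Fermat.Agent.Hauptmodul.LS
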