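import Fermat.Agent.Hauptmodul.Principle
import Fermat.Agent.Hauptmodul.TruncSeries
import Fermat.Agent.Gamma0Cosets.Index
import Fermat.Prelude.Thm_ModularForm_sturm_bound_Gamma0

/-!
# `j · B(u) = A(u)³` and `(θu)⁶ = U(u) Δ`

The expression of `j` in the Hauptmodul `u` of level `r = 4, 9`: the weight `12` form
`E₄³ B(u) - Δ A(u)³` on `Γ₀(r)` has enough vanishing coefficients at `∞` to vanish.
-/

set_option autoImplicit false

noncomputable section

open Filter Complex ModularCurve
open UpperHalfPlane hiding I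
open scoped Topology MatrixGroups Manifold ModularForm
open Fermat.Agent.ModularFunctionField

namespace Fermat.Agent.Hauptmodul

local notation "Δ" => ModularForm.discriminant

variable {r : ℕ} {R : Type*} [CommRing R]

/-- `j = A(u)³ / B(u)`: the numerator. -/
def polyA (r : ℕ) (x : R) : R :=
  if r = 4 then x ^ 2 + 256 * x + 4096
  else x ^ 4 + 252 * x ^ 3 + 4374 * x ^ 2 + 26244 * x + 59049

/-- `j = A(u)³ / B(u)`: the denominator. -/
def polyB (r : ℕ) (x : R) : R :=
  if r = 4 then x ^ 4 * (x + 16) else x ^ 9 * (x ^ 2 + 9 * x + 27)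

/-- The coefficients of `polyA`, highest first. -/
def listA (r : ℕ) : List ℤ := if r = 4 then [1, 256, 4096] else [1, 252, 4374, 26244, 59049]

/-- The coefficients of `polyB`, highest first. -/
def listB (r : ℕ) : List ℤ :=
  if r = 4 then [1, 16, 0, 0, 0, 0] else [1, 9, 27, 0, 0, 0, 0, 0, 0, 0, 0, 0]

/-- The degree of `B` plus one. -/
def deg3 (r : ℕ) : ℕ := if r = 4 then 6 else 12

/-- `A` commutes with ring maps. -/
theorem polyA_map {S : Type*} [CommRing S] (f : R →+* S) (r : ℕ) (x : R) :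
    f (polyA r x) = polyA r (f x) := by
  unfold polyA; split_ifs <;> simp only [map_add, map_mul, map_pow, map_ofNat]

/-- `B` commutes with ring maps. -/
theorem polyB_map {S : Type*} [CommRing S] (f : R →+* S) (r : ℕ) (x : R) :
    f (polyB r x) = polyB r (f x) := by
  unfold polyB; split_ifs <;> simp only [map_add, map_mul, map_pow, map_ofNat]

/-- Homogeneous evaluation on power series, as in `LS.homL`. -/
def homPS (W : PowerSeries ℤ) : List ℤ → PowerSeries ℤ → ℕ → PowerSeries ℤ
  | [], S, _ => S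
  | c :: cs, S, i => homPS W cs (S * W + PowerSeries.C c * PowerSeries.X ^ i) (i + 1)

theorem rep_homPS {K : ℕ} {W : PowerSeries ℤ} {w : List ℤ} (hW : LS.Rep K W w) :
    ∀ (cs : List ℤ) {S : PowerSeries ℤ} {s : List ℤ} (i : ℕ), LS.Rep K S s →
      LS.Rep K (homPS W cs S i) (LS.homL K w cs s i)
  | [], _, _, _, hS => hS
  | c :: cs, _, _, i, hS =>
    rep_homPS hW cs (i + 1) ((hS.mul hW).add ((LS.rep_X_pow K i).smul c))

/-- The series `q u`. -/
def uPS (r : ℕ) : PowerSeries ℤ :=
  etaProd ^ expo r * LS.expandPS r (etaInv ^ expo r)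

theorem intSeries_expandPS (R : Type*) [CommRing R] (r : ℕ) [NeZero r] (p : PowerSeries ℤ) :
    intSeries R (LS.expandPS r p) = qExpand R r (intSeries R p) := by
  ext n
  have hr : (0 : ℤ) < r := by exact_mod_cast NeZero.pos r
  by_cases hd : (r : ℤ) ∣ n
  · obtain ⟨m, rfl⟩ := hd
    rw [qExpand_coeff_mul]
    rcases lt_or_ge m 0 with hm | hm
    · rw [intSeries_coeff_of_neg _ _ hm, intSeries_coeff_of_neg _ _ (mul_neg_of_pos_of_neg hr hm)]
    · lift m to ℕ using hm
      rw [← Nat.cast_mul, intSeries_coeff_natCast, intSeries_coeff_natCast, LS.expandPS,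
        PowerSeries.coeff_mk, if_pos (dvd_mul_right r m), Nat.mul_div_cancel_left m (NeZero.pos r)]
  · rw [qExpand_coeff_of_not_dvd _ _ hd]
    rcases lt_or_ge n 0 with hn | hn
    · exact intSeries_coeff_of_neg _ _ hn
    · lift n to ℕ using hn
      rw [intSeries_coeff_natCast, LS.expandPS, PowerSeries.coeff_mk,
        if_neg fun h => hd (Int.natCast_dvd_natCast.2 h), Int.cast_zero]

theorem intSeries_uPS (R : Type*) [CommRing R] (r : ℕ) [NeZero r] :
    intSeries R (uPS r) = HahnSeries.single (1 : ℤ) 1 * uC R r := by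
  rw [uC, ← mul_assoc, HahnSeries.single_mul_single, add_neg_cancel, mul_one,
    HahnSeries.single_zero_one, one_mul, uPS, map_mul, intSeries_expandPS]

theorem intSeries_X (R : Type*) [CommRing R] :
    intSeries R PowerSeries.X = HahnSeries.single (1 : ℤ) 1 := by
  simp [intSeries]

/-- `q^n Δ (j B(u) - A(u)³)` as a power series over `ℤ`. -/
def testPS (r : ℕ) : PowerSeries ℤ :=
  eisenstein4 ^ 3 * (PowerSeries.X ^ 1 * homPS (uPS r) (listB r) 0 0) +
    PowerSeries.C (-1) * ((PowerSeries.X ^ 1 * etaProd ^ 24) * homPS (uPS r) (listA r) 0 0 ^ 3)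

/-- The truncation of `testPS`. -/
def testL (K r e : ℕ) : List ℤ :=
  let W := LS.mulL K (LS.powL K (LS.etaL K K) e) (LS.expandL K r (LS.powL K (LS.etaInvL.take K) e))
  LS.addL (LS.mulL K (LS.powL K LS.e4L 3) (LS.mulL K (LS.xPowL 1) (LS.homL K W (listB r) [] 0)))
    ((LS.mulL K (LS.mulL K (LS.xPowL 1) (LS.powL K (LS.etaL K K) 24))
      (LS.powL K (LS.homL K W (listA r) [] 0) 3)).map (-1 * ·))

theorem getD_replicate_zero (K n : ℕ) : (List.replicate K (0 : ℤ)).getD n 0 = 0 := by
  simp [List.getElem?_replicate]; split_ifs <;> rfl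

theorem coeff_testPS (hr : r = 4 ∨ r = 9) {n : ℕ} (hn : n ≤ 2 * deg3 r) :
    PowerSeries.coeff n (testPS r) = 0 := by
  have key : ∀ K, K ≤ 25 → LS.mulL K (LS.etaL K K) (LS.etaInvL.take K) = 1 :: List.replicate (K - 1) 0 →
      LS.Rep K (testPS r) (testL K r (expo r)) := by
    intro K hK hinv
    have he := LS.rep_etaProd K
    have hi := LS.Rep.of_mul_eq_one he etaProd_mul_etaInv hinv
    have hW : LS.Rep K (uPS r) _ := (he.pow (expo r)).mul ((hi.pow (expo r)).expand (r := r))
    have h0 : LS.Rep K (0 : PowerSeries ℤ) [] := by simp [LS.Rep, LS.toPS_nil]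
    exact (((LS.rep_eisenstein4 hK).pow 3).mul ((LS.rep_X_pow K 1).mul (rep_homPS hW _ 0 h0))).add
      ((((LS.rep_X_pow K 1).mul (he.pow 24)).mul ((rep_homPS hW _ 0 h0).pow 3)).smul (-1))
  rcases hr with rfl | rfl
  · have h := (key 13 (by norm_num) (by decide +kernel)).coeff_eq
      (n := n) (by simp [deg3] at hn; omega)
    rw [h, show testL 13 4 (expo 4) = List.replicate 13 0 by decide +kernel]
    exact getD_replicate_zero _ _
  · have h := (key 25 le_rfl (by decide +kernel)).coeff_eq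
      (n := n) (by simp [deg3] at hn; omega)
    rw [h, show testL 25 9 (expo 9) = List.replicate 25 0 by decide +kernel]
    exact getD_replicate_zero _ _

/-- The weight `12` form `E₄³ B(u) - Δ A(u)³`. -/
def testFun (r : ℕ) (τ : ℍ) : ℂ :=
  ModularForm.E₄ τ ^ 3 * polyB r (uFun r τ) - Δ τ * polyA r (uFun r τ) ^ 3

/-- The expansion of `testFun`. -/
def testSeries (R : Type*) [CommRing R] (r : ℕ) [NeZero r] : LaurentSeries R :=
  e4C R ^ 3 * polyB r (uC R r) - deltaC R * polyA r (uC R r) ^ 3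

theorem hasExp_polyA [NeZero r] {f : ℍ → ℂ} {s : LaurentSeries ℂ} (hf : HasExp 1 f s) :
    HasExp 1 (fun τ => polyA r (f τ)) (polyA r s) := by
  have hk : ∀ c : ℕ, HasExp 1 (fun _ : ℍ => (c : ℂ)) (c : LaurentSeries ℂ) := fun c =>
    (HasExp.const 1 (c : ℂ)).congr_series (map_natCast _ c)
  unfold polyA
  split_ifs
  · exact ((hf.pow 2).add ((hk 256).mul hf)).add (hk 4096)
  · exact ((((hf.pow 4).add ((hk 252).mul (hf.pow 3))).add ((hk 4374).mul (hf.pow 2))).add
      ((hk 26244).mul hf)).add (hk 59049)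

theorem hasExp_polyB [NeZero r] {f : ℍ → ℂ} {s : LaurentSeries ℂ} (hf : HasExp 1 f s) :
    HasExp 1 (fun τ => polyB r (f τ)) (polyB r s) := by
  have hk : ∀ c : ℕ, HasExp 1 (fun _ : ℍ => (c : ℂ)) (c : LaurentSeries ℂ) := fun c =>
    (HasExp.const 1 (c : ℂ)).congr_series (map_natCast _ c)
  unfold polyB
  split_ifs
  · exact (hf.pow 4).mul (hf.add (hk 16))
  · exact (hf.pow 9).mul (((hf.pow 2).add ((hk 9).mul hf)).add (hk 27))

theorem hasExp_testFun [NeZero r] : HasExp 1 (testFun r) (testSeries ℂ r) :=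
  ((hasExp_E4.pow 3).mul (hasExp_polyB hasExp_uFun)).sub
    (hasExp_discriminant.mul ((hasExp_polyA hasExp_uFun).pow 3))

theorem single_pow_mul_testSeries (hr : r = 4 ∨ r = 9) [NeZero r] :
    HahnSeries.single ((deg3 r : ℕ) : ℤ) 1 * testSeries R r = intSeries R (testPS r) := by
  have hQ : (HahnSeries.single ((deg3 r : ℕ) : ℤ) 1 : LaurentSeries R) =
      HahnSeries.single (1 : ℤ) 1 ^ deg3 r := by
    rw [HahnSeries.single_pow, one_pow, nsmul_one]
  have hC : ∀ c : ℤ, intSeries R (PowerSeries.C c) = (c : LaurentSeries R) := fun c => by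
    rw [eq_intCast PowerSeries.C, map_intCast]
  have hd : deltaC R = HahnSeries.single (1 : ℤ) 1 * intSeries R etaProd ^ 24 := by
    rw [deltaC, dedekindEtaUnit, map_pow]
  rw [hQ, testSeries, hd, e4C, testPS]
  rcases hr with rfl | rfl <;>
    simp only [deg3, listA, listB, polyA, polyB, homPS, show (9 : ℕ) ≠ 4 by decide,
      ↓reduceIte, map_add, map_mul, map_pow, map_zero, hC, intSeries_X, intSeries_uPS] <;>
    push_cast <;> ring

theorem testSeries_coeff_eq_zero (hr : r = 4 ∨ r = 9) [NeZero r] {m : ℤ} (hm : m ≤ deg3 r) :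
    (testSeries R r).coeff m = 0 := by
  have h := congrArg (fun s : LaurentSeries R => s.coeff (m + deg3 r))
    (single_pow_mul_testSeries (R := R) hr)
  simp only [HahnSeries.coeff_single_mul, one_mul, add_sub_cancel_right] at h
  rw [h]
  rcases lt_or_ge (m + deg3 r) 0 with h0 | h0
  · exact intSeries_coeff_of_neg _ _ h0
  · obtain ⟨k, hk⟩ := Int.eq_ofNat_of_zero_le h0
    rw [hk, intSeries_coeff_natCast, coeff_testPS hr (by omega), Int.cast_zero]

theorem testFun_slash (γ : SL(2, ℤ)) :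
    testFun r ∣[(12 : ℤ)] γ = fun τ =>
      ModularForm.E₄ τ ^ 3 * polyB r (uFun r (γ • τ)) - Δ τ * polyA r (uFun r (γ • τ)) ^ 3 := by
  funext τ
  have h4 := congrFun (slash_eq_self ModularForm.E₄ γ) τ
  have h12 := congrFun (slash_eq_self CuspForm.discriminant γ) τ
  have hd := denom_ne_zero (γ : GL (Fin 2) ℝ) τ
  rw [ModularForm.SL_slash_apply] at h4 h12 ⊢
  rw [CuspForm.coe_discriminant] at h12
  conv_rhs => rw [← h4, ← h12]
  simp only [testFun, zpow_neg, zpow_ofNat]
  field_simp

theorem isBounded_testFun_slash (hr : r = 4 ∨ r = 9) (γ : SL(2, ℤ))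
    (hγ : γ ∉ CongruenceSubgroup.Gamma0 r) :
    IsBoundedAtImInfty (testFun r ∣[(12 : ℤ)] γ) := by
  rw [testFun_slash γ]
  have hk : ∀ c : ℕ, IsBoundedAtImInfty fun _ : ℍ => (c : ℂ) := fun c =>
    Filter.const_boundedAtFilter _ _
  have hu : ∀ k : ℕ, IsBoundedAtImInfty fun τ => uFun r (γ • τ) ^ k := fun k =>
    ((isBounded_uFun_smul hr γ hγ).pow k).congr_right fun _ => one_pow k
  have h1 : IsBoundedAtImInfty fun τ => uFun r (γ • τ) := isBounded_uFun_smul hr γ hγ
  have hA : IsBoundedAtImInfty fun τ => polyA r (uFun r (γ • τ)) := by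
    unfold polyA
    split_ifs
    · exact ((hu 2).add ((hk 256).mul h1)).add (hk 4096)
    · exact ((((hu 4).add ((hk 252).mul (hu 3))).add ((hk 4374).mul (hu 2))).add
        ((hk 26244).mul h1)).add (hk 59049)
  have hB : IsBoundedAtImInfty fun τ => polyB r (uFun r (γ • τ)) := by
    unfold polyB
    split_ifs
    · exact (hu 4).mul (h1.add (hk 16))
    · exact (hu 9).mul (((hu 2).add ((hk 9).mul h1)).add (hk 27))
  have hE : IsBoundedAtImInfty (ModularForm.E₄ : ℍ → ℂ) := ModularFormClass.bdd_at_infty _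
  have hD : IsBoundedAtImInfty Δ :=
    ModularForm.discriminant_isZeroAtImInfty.boundedAtFilter
  have hp : ∀ {g : ℍ → ℂ}, IsBoundedAtImInfty g → IsBoundedAtImInfty fun τ => g τ ^ 3 :=
    fun hg => ((hg.pow 3).congr_right fun _ => one_pow 3)
  exact Asymptotics.IsBigO.sub ((hp hE).mul hB : IsBoundedAtImInfty fun τ =>
      ModularForm.E₄ τ ^ 3 * polyB r (uFun r (γ • τ)))
    (hD.mul (hp hA) : IsBoundedAtImInfty fun τ => Δ τ * polyA r (uFun r (γ • τ)) ^ 3)

theorem mdiff_testFun [NeZero r] : MDiff (testFun r) := by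
  rw [UpperHalfPlane.mdifferentiable_iff]
  have h4 := UpperHalfPlane.mdifferentiable_iff.mp (ModularFormClass.holo ModularForm.E₄)
  have hd := UpperHalfPlane.mdifferentiable_iff.mp (ModularFormClass.holo CuspForm.discriminant)
  have hu := UpperHalfPlane.mdifferentiable_iff.mp (mdiff_uFun (r := r))
  unfold testFun polyA polyB
  split_ifs
  · exact ((h4.fun_pow 3).fun_mul ((hu.fun_pow 4).fun_mul (hu.add_const 16))).fun_sub
      (hd.fun_mul ((((hu.fun_pow 2).fun_add (hu.const_mul 256)).add_const 4096).fun_pow 3))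
  · exact ((h4.fun_pow 3).fun_mul ((hu.fun_pow 9).fun_mul
      (((hu.fun_pow 2).fun_add (hu.const_mul 9)).add_const 27))).fun_sub
      (hd.fun_mul ((((((hu.fun_pow 4).fun_add ((hu.fun_pow 3).const_mul 252)).fun_add
        ((hu.fun_pow 2).const_mul 4374)).fun_add (hu.const_mul 26244)).add_const 59049).fun_pow 3))

theorem index_Gamma0_le (hr : r = 4 ∨ r = 9) [NeZero r] :
    (CongruenceSubgroup.Gamma0 r).index = deg3 r := by
  rw [Subgroup.index, Gamma0Cosets.card_cosets r]
  rcases hr with rfl | rfl <;> decide +kernel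

/-- `E₄³ B(u) = Δ A(u)³`. -/
theorem testFun_eq_zero (hr : r = 4 ∨ r = 9) [NeZero r] : testFun r = 0 := by
  have hinv : ∀ γ ∈ CongruenceSubgroup.Gamma0 r, testFun r ∣[(12 : ℤ)] γ = testFun r := by
    intro γ hγ
    rw [testFun_slash γ]
    funext τ
    rw [testFun, uFun_smul hr γ hγ]
  have hbdd : ∀ γ : SL(2, ℤ), IsBoundedAtImInfty (testFun r ∣[(12 : ℤ)] γ) := fun γ => by
    by_cases hγ : γ ∈ CongruenceSubgroup.Gamma0 r
    · rw [hinv γ hγ]
      exact ((hasExp_testFun).tendsto one_ne_zero fun n hn =>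
        testSeries_coeff_eq_zero hr (by omega)).isBigO_one ℝ
    · exact isBounded_testFun_slash hr γ hγ
  set G := formOfGamma0 r 12 (testFun r) hinv mdiff_testFun hbdd
  have hG := ModularForm.sturm_bound_Gamma0 r G fun n hn => ?_
  · funext τ
    exact congrFun (congrArg DFunLike.coe hG) τ
  · rw [index_Gamma0_le hr] at hn
    have hn' : (n : ℤ) ≤ deg3 r := by
      rcases hr with rfl | rfl <;> simp [deg3] at hn ⊢ <;> omega
    have hex := hasExp_qExpansion (N := 1) (f := (G : ℍ → ℂ)) one_ne_zero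
      (SlashInvariantFormClass.periodic_comp_ofComplex G
        (by simp))
      (ModularFormClass.holo G) (ModularFormClass.bdd_at_infty G)
    have hs : testSeries ℂ r = _ := hasExp_testFun.unique one_ne_zero hex
    have := congrArg (fun s : LaurentSeries ℂ => s.coeff (n : ℤ)) hs
    simp only [HahnSeries.ofPowerSeries_apply_coeff, testSeries_coeff_eq_zero hr hn'] at this
    simpa using this.symm

/-- `j · B(u) = A(u)³` over any commutative ring. -/
theorem jqModC_mul_polyB (hr : r = 4 ∨ r = 9) [NeZero r] (R : Type*) [CommRing R] :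
    jqModC R * polyB r (uC R r) = polyA r (uC R r) ^ 3 := by
  suffices h : jqModC ℤ * polyB r (uC ℤ r) = polyA r (uC ℤ r) ^ 3 by
    have := congrArg (coeffMap (Int.castRingHom R)) h
    simpa only [map_mul, map_pow, polyA_map, polyB_map, coeffMap_jqC, coeffMap_uC] using this
  apply coeffMap_injective (Int.castRingHom ℂ) Int.cast_injective
  simp only [map_mul, map_pow, polyA_map, polyB_map, coeffMap_jqC, coeffMap_uC]
  have h0 : testSeries ℂ r = 0 := hasExp_testFun.eq_zero one_ne_zero
    (Eventually.of_forall fun τ => congrFun (testFun_eq_zero hr) τ)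
  rw [testSeries, sub_eq_zero] at h0
  rw [jqModC_eq]
  linear_combination deltaInvC ℂ * h0 + polyA r (uC ℂ r) ^ 3 * deltaC_mul_deltaInvC ℂ

/-- `j · B(u) = A(u)³` as functions. -/
theorem jFun_mul_polyB (hr : r = 4 ∨ r = 9) (τ : ℍ) :
    jFun τ * polyB r (uFun r τ) = polyA r (uFun r τ) ^ 3 := by
  have := neZero_of_level hr
  have h := congrFun (testFun_eq_zero hr) τ
  rw [testFun, Pi.zero_apply, sub_eq_zero] at h
  rw [jFun]
  field_simp [ModularForm.discriminant_ne_zero τ]
  linear_combination h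

/-- `θ 1 = 0`. -/
theorem theta_one : theta (1 : LaurentSeries R) = 0 := by
  rw [← map_one HahnSeries.C, theta_C]

/-- `θ (x^(n+1)) = (n+1) x^n θx`. -/
theorem theta_pow (x : LaurentSeries R) (n : ℕ) :
    theta (x ^ (n + 1)) = ((n + 1 : ℕ) : LaurentSeries R) * x ^ n * theta x := by
  induction n with
  | zero => simp
  | succ n ih => rw [pow_succ, theta_mul, ih]; push_cast; ring

/-- `θ` kills natural numbers. -/
theorem theta_natCast (n : ℕ) : theta ((n : LaurentSeries R)) = 0 := by
  rw [← map_natCast HahnSeries.C, theta_C]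

/-- `A(u)` is a nonzero series. -/
theorem polyA_ne_zero [NeZero r] : polyA r (uC ℤ r) ≠ 0 := by
  intro h
  have hc := coeff_pow_neg (uC_coeff_neg_one ℤ r) (fun n hn => uC_coeff_of_lt ℤ r hn)
  have hN : ∀ (c : ℕ) (n : ℤ) (x : LaurentSeries ℤ), ((c : LaurentSeries ℤ) * x).coeff n = c * x.coeff n :=
    fun c n x => by rw [← map_natCast HahnSeries.C, HahnSeries.C_mul_eq_smul, HahnSeries.coeff_smul, smul_eq_mul]
  have hN0 : ∀ (c : ℕ) (n : ℤ), n < 0 → (c : LaurentSeries ℤ).coeff n = 0 := fun c n hn => by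
    rw [← map_natCast HahnSeries.C, HahnSeries.C_apply, HahnSeries.coeff_single_of_ne hn.ne]
  unfold polyA at h
  split_ifs at h
  · have := congrArg (fun s : LaurentSeries ℤ => s.coeff (-2)) h
    simp only [HahnSeries.coeff_add, HahnSeries.coeff_zero] at this
    rw [show ((-2 : ℤ)) = -((2 : ℕ) : ℤ) by norm_num, (hc 2).1] at this
    rw [show (256 : LaurentSeries ℤ) = ((256 : ℕ) : LaurentSeries ℤ) by norm_num, hN,
      show (4096 : LaurentSeries ℤ) = ((4096 : ℕ) : LaurentSeries ℤ) by norm_num,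
      hN0 _ _ (by norm_num), uC_coeff_of_lt ℤ r (by norm_num)] at this
    norm_num at this
  · have := congrArg (fun s : LaurentSeries ℤ => s.coeff (-4)) h
    simp only [HahnSeries.coeff_add, HahnSeries.coeff_zero] at this
    rw [show ((-4 : ℤ)) = -((4 : ℕ) : ℤ) by norm_num, (hc 4).1,
      show (252 : LaurentSeries ℤ) = ((252 : ℕ) : LaurentSeries ℤ) by norm_num, hN,
      show (4374 : LaurentSeries ℤ) = ((4374 : ℕ) : LaurentSeries ℤ) by norm_num, hN,
      show (26244 : LaurentSeries ℤ) = ((26244 : ℕ) : LaurentSeries ℤ) by norm_num, hN,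
      show (59049 : LaurentSeries ℤ) = ((59049 : ℕ) : LaurentSeries ℤ) by norm_num,
      hN0 _ _ (by norm_num), (hc 3).2 _ (by norm_num), (hc 2).2 _ (by norm_num),
      uC_coeff_of_lt ℤ r (by norm_num)] at this
    norm_num at this

end Fermat.Agent.Hauptmodul
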