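import Fermat.Agent.Hauptmodul.Invariance
import Mathlib.NumberTheory.ModularForms.NormTrace
import Mathlib.NumberTheory.ModularForms.BoundedAtCusp

/-!
# `Γ₀(r)`-invariant functions with poles only at `∞` are polynomials in `u`

For `r = 4, 9`, a holomorphic invariant function which is bounded at the cusps inequivalent to `∞`
and has a principal part over a subring is a polynomial in the Hauptmodul `u` over that subring.
-/

set_option autoImplicit false

noncomputable section

open Filter Complex ModularCurve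
open UpperHalfPlane hiding I
open scoped Topology MatrixGroups Manifold ModularForm
open Fermat.Agent.ModularFunctionField

namespace Fermat.Agent.Hauptmodul

local notation "𝕢" => Function.Periodic.qParam

variable {r : ℕ}

/-- Leading coefficient and order of the powers of a series with simple pole. -/
theorem coeff_pow_neg {R : Type*} [CommRing R] {x : LaurentSeries R} (h1 : x.coeff (-1) = 1)
    (h0 : ∀ n : ℤ, n < -1 → x.coeff n = 0) (k : ℕ) :
    (x ^ k).coeff (-(k : ℤ)) = 1 ∧ ∀ n : ℤ, n < -(k : ℤ) → (x ^ k).coeff n = 0 := by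
  induction k with
  | zero =>
    refine ⟨by simp, fun n hn => ?_⟩
    rw [pow_zero, HahnSeries.coeff_one, if_neg (by simp at hn; omega)]
  | succ k ih =>
    obtain ⟨ih1, ih0⟩ := ih
    refine ⟨?_, fun n hn => ?_⟩
    · rw [pow_succ, HahnSeries.coeff_mul, Finset.sum_eq_single (-(k : ℤ), (-1 : ℤ))]
      · rw [ih1, h1, mul_one]
      · rintro ⟨i, j⟩ hij hne
        rw [Finset.mem_antidiagonal] at hij
        obtain ⟨hi, hj, hs⟩ := hij
        exfalso
        have hi' : -(k : ℤ) ≤ i := not_lt.1 fun h => hi (ih0 i h)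
        have hj' : (-1 : ℤ) ≤ j := not_lt.1 fun h => hj (h0 j h)
        have hs' : i + j = -((k + 1 : ℕ) : ℤ) := hs
        push_cast at hs'
        exact hne (Prod.ext (by show i = -(k : ℤ); omega) (by show j = -1; omega))
      · intro h
        rw [Finset.mem_antidiagonal] at h
        simp only [HahnSeries.mem_support, not_and] at h
        by_contra hne
        exact h (left_ne_zero_of_mul hne) (right_ne_zero_of_mul hne) (by push_cast; ring)
    · rw [pow_succ, HahnSeries.coeff_mul]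
      refine Finset.sum_eq_zero fun p hp => ?_
      rw [Finset.mem_antidiagonal] at hp
      obtain ⟨hi, hj, hs⟩ := hp
      exfalso
      have hi' : -(k : ℤ) ≤ p.1 := not_lt.1 fun h => hi (ih0 _ h)
      have hj' : (-1 : ℤ) ≤ p.2 := not_lt.1 fun h => hj (h0 _ h)
      have hs' : p.1 + p.2 = n := hs
      push_cast at hn
      omega

/-- The series of `u` in the parameter `exp (2πiτ/L)`. -/
def uT (R : Type*) [CommRing R] (r L : ℕ) [NeZero r] [NeZero L] : LaurentSeries R :=
  qExpand R L (uC R r)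

/-- The series `uT` is defined over `ℤ`. -/
@[simp]
theorem coeffMap_uT {R S : Type*} [CommRing R] [CommRing S] (f : R →+* S) (r L : ℕ) [NeZero r]
    [NeZero L] : coeffMap f (uT R r L) = uT S r L := by
  rw [uT, coeffMap_qExpand', coeffMap_uC, uT]

theorem coeff_uT_pow_self (R : Type*) [CommRing R] (r L : ℕ) [NeZero r] [NeZero L] (k : ℕ) :
    (uT R r L ^ k).coeff (-((L * k : ℕ) : ℤ)) = 1 := by
  rw [uT, ← map_pow, show -((L * k : ℕ) : ℤ) = (L : ℤ) * (-(k : ℤ)) by push_cast; ring,
    qExpand_coeff_mul]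
  exact (coeff_pow_neg (uC_coeff_neg_one R r) (fun n hn => uC_coeff_of_lt R r hn) k).1

theorem coeff_uT_pow_of_lt (R : Type*) [CommRing R] (r L : ℕ) [NeZero r] [NeZero L] {k : ℕ}
    {i : ℤ} (hi : i < -((L * k : ℕ) : ℤ)) : (uT R r L ^ k).coeff i = 0 := by
  rw [uT, ← map_pow]
  by_cases h : (L : ℤ) ∣ i
  · obtain ⟨m, rfl⟩ := h
    rw [qExpand_coeff_mul]
    refine (coeff_pow_neg (uC_coeff_neg_one R r) (fun n hn => uC_coeff_of_lt R r hn) k).2 m ?_
    push_cast at hi
    exact lt_of_mul_lt_mul_left (by linarith : (L : ℤ) * m < (L : ℤ) * (-(k : ℤ)))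
      (Int.natCast_nonneg L)
  · exact qExpand_coeff_of_not_dvd L _ h

/-- The expansion of `u` in a parameter of width `L`. -/
theorem hasExp_uFun_width [NeZero r] (L : ℕ) [NeZero L] : HasExp L (uFun r) (uT ℂ r L) :=
  hasExp_uFun.qExpand L (one_mul L).symm one_ne_zero

/-- A bounded-at-all-cusps invariant function as a modular form of weight `k`. -/
def formOfGamma0 (r : ℕ) [NeZero r] (k : ℤ) (f : ℍ → ℂ)
    (hinv : ∀ γ ∈ CongruenceSubgroup.Gamma0 r, f ∣[k] γ = f) (hol : MDiff f)
    (hbdd : ∀ γ : SL(2, ℤ), IsBoundedAtImInfty (f ∣[k] γ)) :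
    ModularForm (CongruenceSubgroup.Gamma0 r) k where
  toFun := f
  slash_action_eq' A hA := by
    obtain ⟨γ, hγ, rfl⟩ := hA
    exact hinv γ hγ
  holo' := hol
  bdd_at_cusps' hc := by
    rw [Subgroup.IsArithmetic.isCusp_iff_isCusp_SL2Z] at hc
    rw [OnePoint.isBoundedAt_iff_forall_SL2Z hc]
    exact fun γ _ => hbdd γ

theorem eq_const_of_invariant_Gamma0 [NeZero r] (f : ℍ → ℂ)
    (hinv : ∀ γ ∈ CongruenceSubgroup.Gamma0 r, ∀ τ, f (γ • τ) = f τ) (hol : MDiff f)
    (hbdd : ∀ γ : SL(2, ℤ), IsBoundedAtImInfty fun τ => f (γ • τ)) :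
    ∃ c, f = Function.const ℍ c :=
  ModularForm.eq_const_of_weight_zero (formOfGamma0 r 0 f
    (fun γ hγ => funext fun τ => by rw [slash_zero_apply, hinv γ hγ]) hol fun γ =>
      (hbdd γ).congr_left fun τ => (slash_zero_apply f γ τ).symm)

theorem T_mem_Gamma0 (r : ℕ) : ModularGroup.T ∈ CongruenceSubgroup.Gamma0 r := by
  rw [mem_Gamma0_iff]
  simp [ModularGroup.T]

theorem invariant_coeff_eq_zero {R : Type*} [CommRing R] (ι : R →+* ℂ)
    (hι : Function.Injective ι) {L : ℕ} [NeZero L] {f : ℍ → ℂ} {s : LaurentSeries R}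
    (hT : ∀ τ : ℍ, f ((1 : ℝ) +ᵥ τ) = f τ) (hs : HasExp L f (coeffMap ι s))
    {i : ℤ} (hi : ¬ (L : ℤ) ∣ i) : s.coeff i = 0 := by
  have h := (hs.comp (N := L) (fun τ => (1 : ℝ) +ᵥ τ) (tendsto_vadd_atImInfty 1) (rootUnit L) 1
    (qParam_vadd_one L)).congr (g := f) hT
  have h2 := congrArg (fun t : LaurentSeries ℂ => t.coeff i) (hs.unique (NeZero.ne L) h)
  simp only [coeffMap_coeff] at h2
  rw [show i = ((1 : ℕ) : ℤ) * i by simp, subst_coeff_mul, Nat.cast_one, one_mul,
    coeffMap_coeff] at h2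
  have hne : ((rootUnit L ^ i : ℂˣ) : ℂ) - 1 ≠ 0 := sub_ne_zero.mpr fun h1 => hi
    (((isPrimitiveRoot_rootUnit L).zpow_eq_one_iff_dvd i).mp (Units.val_eq_one.mp h1))
  refine hι ?_
  rw [map_zero]
  refine (mul_eq_zero.mp (?_ : (((rootUnit L ^ i : ℂˣ) : ℂ) - 1) * ι (s.coeff i) = 0)).resolve_left hne
  linear_combination -h2

theorem isBounded_of_eq_gamma (f : ℍ → ℂ)
    (hinv : ∀ γ ∈ CongruenceSubgroup.Gamma0 r, ∀ τ, f (γ • τ) = f τ) (hb : IsBoundedAtImInfty f)
    {γ : SL(2, ℤ)} (hγ : γ ∈ CongruenceSubgroup.Gamma0 r) :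
    IsBoundedAtImInfty fun τ => f (γ • τ) :=
  hb.congr_left fun τ => (hinv γ hγ τ).symm

/-- A `Γ₀(r)`-invariant holomorphic function, bounded at the cusps inequivalent to `∞`, with a
Laurent expansion at `∞` over `R`, is a polynomial in `u` over `R`. -/
theorem exists_polynomial (hr : r = 4 ∨ r = 9) [NeZero r] {R : Type*} [CommRing R] (ι : R →+* ℂ)
    (hι : Function.Injective ι) {L : ℕ} [NeZero L] {f : ℍ → ℂ} {s : LaurentSeries R}
    (hinv : ∀ γ ∈ CongruenceSubgroup.Gamma0 r, ∀ τ, f (γ • τ) = f τ) (hol : MDiff f)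
    (hb : ∀ γ : SL(2, ℤ), γ ∉ CongruenceSubgroup.Gamma0 r →
      IsBoundedAtImInfty fun τ => f (γ • τ))
    (hs : HasExp L f (coeffMap ι s)) :
    ∃ P : Polynomial R, s = P.eval₂ HahnSeries.C (uT R r L) ∧
      ∀ τ, f τ = (P.map ι).eval (uFun r τ) := by
  obtain ⟨n, hn⟩ : ∃ n : ℕ, ∀ i : ℤ, i < -(n : ℤ) → s.coeff i = 0 :=
    ⟨(-s.order).toNat, fun i hi => HahnSeries.coeff_eq_zero_of_lt_order (by omega)⟩
  induction n generalizing f s with
  | zero =>
    have hbdd : IsBoundedAtImInfty f := (hs.tendsto (NeZero.ne L) fun i hi => by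
      rw [coeffMap_coeff, hn i (by simpa using hi), map_zero]).isBigO_one ℝ
    obtain ⟨c, hc⟩ := eq_const_of_invariant_Gamma0 f hinv hol fun γ =>
      (em (γ ∈ CongruenceSubgroup.Gamma0 r)).elim (isBounded_of_eq_gamma f hinv hbdd) (hb γ)
    have h2 := hs.unique (NeZero.ne L)
      ((HasExp.const L c).congr (g := f) fun τ => (congrFun hc τ).symm)
    have hc0 : c = ι (s.coeff 0) := by
      have := congrArg (fun t : LaurentSeries ℂ => t.coeff 0) h2
      simpa [HahnSeries.C_apply] using this.symm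
    refine ⟨Polynomial.C (s.coeff 0), ?_, fun τ => ?_⟩
    · refine coeffMap_injective ι hι ?_
      rw [h2, hc0, Polynomial.eval₂_C, coeffMap_C]
    · simpa [hc0] using congrFun hc τ
  | succ n ih =>
    set a := s.coeff (-((n + 1 : ℕ) : ℤ)) with ha
    by_cases hL : L ∣ n + 1
    · obtain ⟨k, hk⟩ := hL
      have hs' : HasExp L (fun τ => f τ - ι a * uFun r τ ^ k)
          (coeffMap ι (s - HahnSeries.C a * uT R r L ^ k)) := by
        rw [map_sub, map_mul, map_pow, coeffMap_uT, coeffMap_C]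
        exact hs.sub ((HasExp.const L _).mul ((hasExp_uFun_width L).pow k))
      obtain ⟨P, hP, hPτ⟩ := ih (fun γ hγ τ => by
          simp only [Pi.sub_apply, Pi.mul_apply, Pi.pow_apply, hinv γ hγ, uFun_smul hr γ hγ])
        (hol.sub (mdifferentiable_const.mul (mdiff_uFun.pow k)))
        (fun γ hγ => by
          have hu : IsBoundedAtImInfty fun τ => uFun r (γ • τ) ^ k := by
            exact ((isBounded_uFun_smul hr γ hγ).pow k).congr_right fun τ => one_pow k
          exact ((hb γ hγ).sub (hu.const_mul_left (ι a))))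
        hs' fun i hi => by
          rw [HahnSeries.coeff_sub, HahnSeries.C_mul_eq_smul, HahnSeries.coeff_smul, smul_eq_mul]
          rcases lt_or_eq_of_le (show i ≤ -((n + 1 : ℕ) : ℤ) by push_cast; omega) with h | h
          · rw [hn i h, coeff_uT_pow_of_lt R r L (by rw [← hk]; exact h), mul_zero, sub_zero]
          · subst h
            rw [hk, coeff_uT_pow_self, mul_one, ha, hk, sub_self]
      refine ⟨P + Polynomial.C a * Polynomial.X ^ k, ?_, fun τ => ?_⟩
      · rw [Polynomial.eval₂_add, ← hP, Polynomial.eval₂_mul, Polynomial.eval₂_C,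
          Polynomial.eval₂_X_pow, sub_add_cancel]
      · simp [Polynomial.map_pow, ← hPτ τ]
    · have ha0 : a = 0 := invariant_coeff_eq_zero ι hι (fun τ => by
        rw [← modular_T_smul, hinv _ (T_mem_Gamma0 r)]) hs fun h => hL (by
        rw [dvd_neg] at h; exact_mod_cast h)
      refine ih hinv hol hb hs fun i hi => ?_
      rcases lt_or_eq_of_le (show i ≤ -((n + 1 : ℕ) : ℤ) by push_cast; omega) with h | h
      · exact hn i h
      · rw [h]; exact ha0

end Fermat.Agent.Hauptmodul
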