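import Fermat.Agent.Hauptmodul.BaseModel
import Fermat.Agent.Hauptmodul.Principle
import Fermat.Agent.Hauptmodul.JIdentity
import Fermat.Agent.KummerES.EisensteinSeries

/-!
# The Hauptmodul of level `4` or `9` as an element of the model of level `M N'`

For `M = 2, 3` dividing `N'`, the Hauptmodul `u` of `X₀(M²)` lies in the model of `Y₀(M N')` over
the unramified integers at a prime `q ∤ M N'`, and the denominator `B(u)` of `j = A(u)³/B(u)` is a
unit there.
-/

set_option autoImplicit false

noncomputable section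

open Complex ModularCurve Polynomial Filter
open UpperHalfPlane hiding I
open CongruenceSubgroup (Gamma Gamma0)
open scoped MatrixGroups Manifold
open Fermat.Agent.ModularFunctionField
open Fermat.Agent.Carayol

namespace Fermat.Agent.Hauptmodul

open KummerES (weak comp coeffSubring)

local notation "Qb" => AlgebraicClosure ℚ

/-- `B` is a unit wherever `j B = A³` holds and `r` is invertible. -/
theorem isUnit_polyB {R : Type*} [CommRing R] {r : ℕ} (hr : r = 4 ∨ r = 9)
    (hu : IsUnit (r : R)) {x j : R} (h : j * polyB r x = polyA r x ^ 3) : IsUnit (polyB r x) := by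
  by_contra hB
  obtain ⟨m, hm, hBm⟩ := exists_max_ideal_of_mem_nonunits hB
  have hA : polyA r x ∈ m :=
    hm.isPrime.mem_of_pow_mem 3 (h ▸ m.mul_mem_left j hBm)
  have hunit : ∀ k : ℕ, (r : R) ^ k ∉ m := fun k hk =>
    hm.ne_top (m.eq_top_of_isUnit_mem hk (hu.pow k))
  rcases hr with rfl | rfl
  · simp only [polyA, polyB, if_true] at hA hBm
    have h12 : ((4 : ℕ) : R) ^ 6 = 4096 := by norm_num
    rcases hm.isPrime.mem_or_mem hBm with hx | hx
    · have hx := hm.isPrime.mem_of_pow_mem 4 hx
      refine hunit 6 (h12 ▸ ?_)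
      rw [show (4096 : R) = (x ^ 2 + 256 * x + 4096) - x * (x + 256) by ring]
      exact m.sub_mem hA (m.mul_mem_right _ hx)
    · refine hunit 4 ?_
      rw [show ((4 : ℕ) : R) ^ 4 = (x ^ 2 + 256 * x + 4096) - (x + 16) * (x + 240) by push_cast; ring]
      exact m.sub_mem hA (m.mul_mem_right _ hx)
  · simp only [polyA, polyB, show ¬ (9 = 4) by decide, if_false] at hA hBm
    rcases hm.isPrime.mem_or_mem hBm with hx | hx
    · have hx := hm.isPrime.mem_of_pow_mem 9 hx
      refine hunit 5 ?_
      rw [show ((9 : ℕ) : R) ^ 5 = (x ^ 4 + 252 * x ^ 3 + 4374 * x ^ 2 + 26244 * x + 59049) -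
        x * (x ^ 3 + 252 * x ^ 2 + 4374 * x + 26244) by push_cast; ring]
      exact m.sub_mem hA (m.mul_mem_right _ hx)
    · -- `A ≡ 243 (x + 3)` modulo `x² + 9 x + 27`, and `(x + 3) (x + 6) ≡ -9`
      have h3 : (243 : R) * (x + 3) ∈ m := by
        rw [show (243 : R) * (x + 3) = (x ^ 4 + 252 * x ^ 3 + 4374 * x ^ 2 + 26244 * x + 59049) -
          (x ^ 2 + 9 * x + 27) * (x ^ 2 + 243 * x + 2160) by ring]
        exact m.sub_mem hA (m.mul_mem_right _ hx)
      have h2 : ((3 : R) ^ 7) ∈ m := by
        rw [show (3 : R) ^ 7 = 243 * (x ^ 2 + 9 * x + 27) - 243 * (x + 3) * (x + 6) by ring]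
        exact m.sub_mem (m.mul_mem_left _ hx) (m.mul_mem_right _ h3)
      refine hunit 7 ?_
      rw [show ((9 : ℕ) : R) ^ 7 = 3 ^ 7 * 3 ^ 7 by push_cast; ring]
      exact m.mul_mem_right _ h2

/-- The monic polynomial `A(X)³ - j B(X)`. -/
theorem monic_polyA_cube_sub {R : Type*} [CommRing R] [Nontrivial R] {r : ℕ} (hr : r = 4 ∨ r = 9)
    (j : R) : ((polyA r (X : R[X])) ^ 3 - Polynomial.C j * polyB r X).Monic := by
  rcases hr with rfl | rfl
  · simp only [polyA, polyB, if_true]
    monicity!
  · simp only [polyA, polyB, show ¬ (9 = 4) by decide, if_false]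
    monicity!

variable {A : ValuationSubring Qb} {q M N' : ℕ} [NeZero M] [NeZero N'] (H : BaseHyp q A M N')

include H

omit [NeZero N'] in
/-- `M²` is `4` or `9`. -/
theorem BaseHyp.level_sq : M * M = 4 ∨ M * M = 9 := by
  rcases H.level with rfl | rfl <;> simp

omit [NeZero M] [NeZero N'] in
/-- `M²` divides the level `M N'`. -/
theorem BaseHyp.sq_dvd : M * M ∣ M * N' := mul_dvd_mul_left M H.dvd

omit [NeZero M] [NeZero N'] in
theorem BaseHyp.gamma0_le : Gamma0 (M * N') ≤ Gamma0 (M * M) := fun γ hγ => by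
  rw [mem_Gamma0_iff] at hγ ⊢
  exact (Int.natCast_dvd_natCast.mpr H.sq_dvd).trans hγ

/-- `u` has expansions at all cusps. -/
theorem exists_hasExp_uFun_smul (δ : SL(2, ℤ)) :
    ∃ s, HasExp (M * (M * (M * N'))) (fun τ => uFun (M * M) (δ • τ)) s := by
  by_cases hδ : δ ∈ Gamma0 (M * M)
  · exact ⟨_, (hasExp_uFun_width (r := M * M) (M * (M * (M * N')))).congr fun τ =>
      (uFun_smul H.level_sq δ hδ τ).symm⟩
  · have hper : comp (comp (uFun (M * M)) δ) (ModularGroup.T ^ ((M * (M * (M * N')) : ℕ) : ℤ)) =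
        comp (uFun (M * M)) δ := by
      rw [KummerES.comp_comp,
        show δ * ModularGroup.T ^ ((M * (M * (M * N')) : ℕ) : ℤ) =
          (δ * ModularGroup.T ^ ((M * (M * (M * N')) : ℕ) : ℤ) * δ⁻¹) * δ by group, ← KummerES.comp_comp]
      congr 1
      refine _root_.funext fun τ => uFun_smul H.level_sq _ ?_ τ
      refine H.gamma0_le ?_
      have hT : ModularGroup.T ^ ((M * (M * (M * N')) : ℕ) : ℤ) ∈
          CongruenceSubgroup.Gamma (M * N') := by
        refine CongruenceSubgroup.Gamma_mem.2 ?_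
        have h0 : (((M * (M * (M * N')) : ℕ) : ℤ) : ZMod (M * N')) = 0 := by
          rw [ZMod.intCast_zmod_eq_zero_iff_dvd]
          exact Int.natCast_dvd_natCast.mpr ⟨M * M, by ring⟩
        simp [ModularGroup.coe_T_zpow]
        simpa using h0
      exact CongruenceSubgroup.Gamma0_mem.2 (CongruenceSubgroup.Gamma_mem.1
        ((CongruenceSubgroup.Gamma_normal _).conj_mem _ hT δ)).2.2.1
    exact ⟨_, ModularAnalytic.hasExp_of_kummer (KummerES.hasExp_of_bounded hper
      (KummerES.mdiff_comp mdiff_uFun δ) (isBounded_uFun_smul H.level_sq δ hδ))⟩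

theorem uC_mem_functionField :
    uC Qb (M * M) ∈ modularFunctionFieldBar (M * N') := by
  obtain ⟨x, hx, hxs⟩ := ModularAnalytic.mem_functionField (M * N') iotaC (uFun (M * M)) mdiff_uFun
    (fun γ hγ τ => uFun_smul H.level_sq γ (H.gamma0_le hγ) τ) (exists_hasExp_uFun_smul H)
    (hasExp_uFun_width (r := M * M) (M * (M * (M * N')))) (fun i => by
      rw [← coeffMap_uT iotaC, coeffMap_coeff]
      exact ⟨_, rfl⟩)
  have hx' : x = uC Qb (M * M) := by
    refine coeffMap_injective iotaC iotaC.injective (qExpand_injective (M * (M * (M * N'))) ?_)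
    rw [hxs, coeffMap_uC, uT]
  exact hx' ▸ hx

/-- The Hauptmodul `h` of `X₀(M²)` in the function field of level `M N'`. -/
def hFun : modularFunctionFieldBar (M * N') := ⟨uC Qb (M * M), uC_mem_functionField H⟩

theorem hFun_mem_model : hFun H ∈ model A (M * N') := by
  refine (mem_model_iff A (M * N')).2 ⟨CarayolFF.mem_levelField_of_coeff _ (hFun H).2 fun n => ?_, ?_⟩
  · show (uC Qb (M * M)).coeff n ∈ _
    rw [← coeffMap_uC (Int.castRingHom Qb), coeffMap_coeff]
    exact intCast_mem _ _
  · refine ⟨(polyA (M * M) (X : Polynomial (jPolyRing (unramInt A)))) ^ 3 -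
      Polynomial.C ⟨jBar, Local.jBar_mem_jPolyRing⟩ * polyB (M * M) X,
      monic_polyA_cube_sub H.level_sq _, ?_⟩
    show Polynomial.eval₂RingHom _ (uC Qb (M * M)) _ = 0
    rw [map_sub, map_mul, map_pow, polyA_map, polyB_map, Polynomial.coe_eval₂RingHom,
      Polynomial.eval₂_X, Polynomial.eval₂_C, ← jqModC_mul_polyB H.level_sq Qb]
    show jqModC Qb * _ - jBar * _ = 0
    rw [jBar, coeffEmb, ← jqModC_rat, coeffMap_jqC, sub_self]

/-- `h` in the model. -/
def hElem : model A (M * N') := ⟨hFun H, hFun_mem_model H⟩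

/-- The expansion of `h` is that of the Hauptmodul `u` of level `M²`. -/
theorem coe_hElem : ((hElem H : modularFunctionFieldBar (M * N')) : LaurentSeries Qb) =
    uC Qb (M * M) := rfl

/-- `h` in the invariant ring: `u (τ/M)`. -/
def tBase : BaseRing A M N' := (baseEquiv H).symm (hElem H)

theorem baseModel_tBase : baseModel H (tBase H) = hElem H := (baseEquiv H).apply_symm_apply _

/-- The function `t` evaluated at `M τ` is the Hauptmodul `u`. -/
theorem upFun_tBase : upFun M (tBase H).1 = uFun (M * M) := by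
  have h := ModularAnalytic.qExpand_coeffMap_toField (M * N') (M * (M * (M * N'))) iotaC
    (upHom H (tBase H))
  have hb : (baseMap H (tBase H) : LaurentSeries Qb) = uC Qb (M * M) := by
    rw [← coe_baseModel, baseModel_tBase]; rfl
  change qExpand ℂ _ (coeffMap iotaC (baseMap H (tBase H) : LaurentSeries Qb)) = _ at h
  rw [hb, coeffMap_uC] at h
  have h1 : KummerES.HasExp (M * (M * (M * N'))) (upFun M (tBase H).1)
      (uT ℂ (M * M) (M * (M * (M * N')))) := by
    have := KummerES.hasExp_expansion (upFun_mem H (tBase H)) 1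
    rw [KummerES.comp_one] at this
    rw [uT, h]
    exact this
  exact h1.fun_eq (ModularAnalytic.kummer_of_hasExp mdiff_uFun (hasExp_uFun_width _))

omit [NeZero M] [NeZero N'] in
theorem isUnit_natCast_model {n : ℕ} [NeZero n] (hn : ¬ q ∣ n) :
    IsUnit ((n : ℕ) : model A (M * N')) := by
  have h := zetaRing_le_baseB H.liesOver H.prime hn (KummerES.inv_natCast_mem_zetaRing n)
  obtain ⟨c, hc, hc'⟩ := h
  let φ : unramInt A →+* model A (M * N') :=
    ((algebraMap Qb (modularFunctionFieldBar (M * N'))).comp (unramInt A).subtype).codRestrict _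
      fun c => by
        refine (mem_model_iff A (M * N')).2 ⟨Subfield.subset_closure (Or.inl ⟨c, ?_, rfl⟩), ?_⟩
        · exact Local.mem_inertiaField_iff.mpr (mem_unramInt_iff.mp c.2).2
        · exact isIntegral_algebraMap (R := jPolyRing (unramInt A))
            (x := ⟨algebraMap Qb (LaurentSeries Qb) c, Subring.subset_closure (Or.inl ⟨c, c.2, rfl⟩)⟩)
  have hu : IsUnit ((n : ℕ) : unramInt A) := by
    refine IsUnit.of_mul_eq_one ⟨c, hc⟩ (Subtype.ext (iotaC.injective ?_))
    show iotaC ((n : Qb) * c) = iotaC 1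
    rw [map_mul, map_natCast, hc', map_one, mul_inv_cancel₀ (Nat.cast_ne_zero.2 (NeZero.ne n))]
  simpa using hu.map φ

/-- `B(h)` is a unit in the model of level `M N'`. -/
theorem isUnit_polyB_hElem : IsUnit (polyB (M * M) (hElem H)) := by
  have hj : jElem (M * N') ∈ model A (M * N') := CarayolFF.jElem_mem_model A _
  refine isUnit_polyB (j := ⟨_, hj⟩) H.level_sq (isUnit_natCast_model H fun h => ?_) ?_
  · exact H.coprime (h.trans H.sq_dvd)
  · refine Subtype.ext (Subtype.ext ?_)
    let θ : model A (M * N') →+* LaurentSeries Qb :=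
      (modularFunctionFieldBar (M * N')).val.toRingHom.comp (model A (M * N')).subtype
    show θ (⟨_, hj⟩ * polyB (M * M) (hElem H)) = θ (polyA (M * M) (hElem H) ^ 3)
    rw [map_mul, map_pow, polyA_map, polyB_map]
    show jBar * polyB (M * M) (uC Qb (M * M)) = polyA (M * M) (uC Qb (M * M)) ^ 3
    rw [← jqModC_mul_polyB H.level_sq Qb, jBar, coeffEmb, ← jqModC_rat, coeffMap_jqC]

/-- `B(t)` is a unit in the invariant ring. -/
theorem isUnit_polyB_tBase : IsUnit (polyB (M * M) (tBase H)) := by
  have h := (isUnit_polyB_hElem H).map ((baseEquiv H).symm : model A (M * N') →+* BaseRing A M N')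
  rwa [polyB_map] at h

end Fermat.Agent.Hauptmodul
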