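import Fermat.Agent.KummerES.GaloisCoords

/-!
# Intermediate invariant rings of a free action are unramified over the invariants

For a finite group with Galois coordinates on a ring, every subgroup has an element of trace `1`,
and at a maximal ideal of the intermediate invariant ring the local ideal comes from below.
-/

set_option autoImplicit false

open scoped Pointwise

namespace Fermat.Agent.Hauptmodul

open KummerES (GaloisCoords)

variable {A : Type*} [CommRing A] {G : Type*} [Group G] [MulSemiringAction G A]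
variable {ι : Type*} [Fintype ι]

theorem isInvariant_subring (H : Subgroup G) (S : Subring A)
    (hS : ∀ a, a ∈ S ↔ ∀ h ∈ H, h • a = a) : Algebra.IsInvariant S A H :=
  ⟨fun a ha => ⟨⟨a, (hS a).2 fun h hh => ha ⟨h, hh⟩⟩, rfl⟩⟩

/-- The trace over a subgroup lands in its ring of invariants. -/
theorem trace_mem (H : Subgroup G) [Fintype H] (S : Subring A)
    (hS : ∀ a, a ∈ S ↔ ∀ h ∈ H, h • a = a) (a : A) : ∑ h : H, (h : G) • a ∈ S :=
  (hS _).2 fun g hg => by
    rw [Finset.smul_sum]
    exact Fintype.sum_equiv (Equiv.mulLeft ⟨g, hg⟩) _ _ fun h => by simp [smul_smul]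

theorem trace_mul (H : Subgroup G) [Fintype H] (S : Subring A)
    (hS : ∀ a, a ∈ S ↔ ∀ h ∈ H, h • a = a) {s : A} (hs : s ∈ S) (a : A) :
    ∑ h : H, (h : G) • (s * a) = s * ∑ h : H, (h : G) • a := by
  rw [Finset.mul_sum]
  exact Finset.sum_congr rfl fun h _ => by rw [smul_mul', (hS s).1 hs h h.2]

/-- Galois coordinates give an element of trace `1` for every subgroup. -/
theorem exists_trace_eq_one [Finite G] [Nontrivial A] (C : GaloisCoords G ι A) (H : Subgroup G)
    [Fintype H] (S : Subring A) (hS : ∀ a, a ∈ S ↔ ∀ h ∈ H, h • a = a) :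
    ∃ c : A, ∑ h : H, (h : G) • c = 1 := by
  classical
  let T : Ideal S :=
    { carrier := {t | ∃ c : A, ∑ h : H, (h : G) • c = (t : A)}
      add_mem' := by
        rintro s t ⟨c, hc⟩ ⟨d, hd⟩
        exact ⟨c + d, by rw [Subring.coe_add, ← hc, ← hd, ← Finset.sum_add_distrib]
                         exact Finset.sum_congr rfl fun h _ => smul_add _ _ _⟩
      zero_mem' := ⟨0, by simp⟩
      smul_mem' := by
        rintro s t ⟨c, hc⟩
        exact ⟨s * c, by rw [trace_mul H S hS s.2, hc]; rfl⟩ }
  suffices hT : T = ⊤ by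
    obtain ⟨c, hc⟩ := (hT ▸ Submodule.mem_top : (1 : S) ∈ T)
    exact ⟨c, hc⟩
  by_contra hT
  obtain ⟨P, hP, hTP⟩ := T.exists_le_maximal hT
  have := isInvariant_subring H S hS
  have : Algebra.IsIntegral S A := Algebra.IsInvariant.isIntegral S A H
  obtain ⟨Q, hQ, hQP⟩ := Ideal.exists_ideal_over_maximal_of_isIntegral (S := A) P (by
    rw [(RingHom.injective_iff_ker_eq_bot _).mp (show Function.Injective (algebraMap S A) from
      Subtype.val_injective)]
    exact bot_le)
  let CH : GaloisCoords H ι A :=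
    { x := C.x, y := C.y, self := C.self
      orth := fun g hg => C.orth g fun h => hg (Subtype.ext h) }
  have h1 := CH.eq_sum (1 : A)
  refine hQ.ne_top ((Ideal.eq_top_iff_one Q).2 (h1 ▸ Ideal.sum_mem _ fun i _ => Ideal.mul_mem_left _ _ ?_))
  have hm : (⟨∑ h : H, (h : G) • (C.y i * 1), trace_mem H S hS _⟩ : S) ∈ Q.comap (algebraMap S A) :=
    hQP ▸ hTP ⟨C.y i * 1, rfl⟩
  exact hm

variable {R : Type*} [CommRing R] [Algebra R A] [Algebra.IsInvariant R A G] [SMulCommClass G R A]
  [FaithfulSMul R A]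

/-- At a maximal ideal of an intermediate invariant ring the local ideal comes from below. -/
theorem exists_mul_mem_map_under [Finite G] [Nontrivial A] (C : GaloisCoords G ι A)
    (H : Subgroup G) (S : Subring A) (hS : ∀ a, a ∈ S ↔ ∀ h ∈ H, h • a = a)
    (φ : R →+* S) (hφ : ∀ r, (φ r : A) = algebraMap R A r) (m : Ideal S) [m.IsMaximal] :
    ∃ s ∉ m, ∀ x ∈ m, s * x ∈ (m.comap φ).map φ := by
  classical
  cases nonempty_fintype G
  have := isInvariant_subring H S hS
  have : Algebra.IsIntegral S A := Algebra.IsInvariant.isIntegral S A H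
  have : Algebra.IsIntegral R A := Algebra.IsInvariant.isIntegral R A G
  obtain ⟨Q₀, hQ₀, hQm⟩ := Ideal.exists_ideal_over_maximal_of_isIntegral (S := A) m (by
    rw [(RingHom.injective_iff_ker_eq_bot _).mp (show Function.Injective (algebraMap S A) from
      Subtype.val_injective)]
    exact bot_le)
  have := hQ₀
  have hP : Q₀.under R = m.comap φ := by
    rw [← hQm, Ideal.under_def, Ideal.comap_comap]
    congr 1
    exact RingHom.ext fun r => (hφ r).symm
  have hPmax : (m.comap φ).IsMaximal := hP ▸ Ideal.isMaximal_comap_of_isIntegral_of_isMaximal Q₀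
  set T : Finset (Ideal S) :=
    ((Finset.univ.image fun g : G => (g • Q₀).comap (algebraMap S A)).erase m) with hT
  have hmax : ∀ J ∈ T, J.IsMaximal := fun J hJ => by
    obtain ⟨g, -, rfl⟩ := Finset.mem_image.mp (Finset.mem_of_mem_erase hJ)
    have : (g • Q₀).IsPrime := (Ideal.IsMaximal.isPrime hQ₀).smul g
    have : (g • Q₀).IsMaximal := Ideal.isMaximal_of_isIntegral_of_isMaximal_comap (R := R) _
      (by rw [← Ideal.under_def, Ideal.under_smul, hP]; exact hPmax)
    exact Ideal.isMaximal_comap_of_isIntegral_of_isMaximal _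
  have hex : ∀ J ∈ T, ∃ s ∈ J, s ∉ m := fun J hJ => by
    by_contra h
    push Not at h
    exact Finset.ne_of_mem_erase hJ ((hmax J hJ).eq_of_le (Ideal.IsMaximal.ne_top inferInstance) h)
  choose! s hsJ hsm using hex
  refine ⟨∏ J ∈ T, s J, fun h => ?_, fun x hx => ?_⟩
  · obtain ⟨J, hJ, hJm⟩ := ((Ideal.IsMaximal.isPrime ‹m.IsMaximal›).prod_mem_iff).mp h
    exact hsm J hJ hJm
  have hmem : (((∏ J ∈ T, s J) * x : S) : A) ∈ (m.comap φ).map (algebraMap R A) := by
    rw [← (C.isRadical_map R (m.comap φ)).radical, Ideal.radical_eq_sInf, Submodule.mem_sInf]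
    rintro (Q : Ideal A) ⟨hle, hQp⟩
    have := hQp
    have hQu : Q.under R = Q₀.under R := hP ▸
      (hPmax.eq_of_le (Ideal.IsPrime.ne_top inferInstance) (Ideal.map_le_iff_le_comap.mp hle)).symm
    obtain ⟨g, hg⟩ := Algebra.IsInvariant.exists_smul_of_under_eq R A G Q₀ Q hQu.symm
    show (∏ J ∈ T, s J) * x ∈ Q.comap (algebraMap S A)
    by_cases hJ : Q.comap (algebraMap S A) = m
    · exact hJ ▸ Ideal.mul_mem_left _ _ hx
    · have hJT : Q.comap (algebraMap S A) ∈ T := Finset.mem_erase.mpr
        ⟨hJ, Finset.mem_image.mpr ⟨g, Finset.mem_univ _, by rw [hg]⟩⟩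
      exact Ideal.mul_mem_right _ _
        (Ideal.mem_of_dvd _ (Finset.dvd_prod_of_mem s hJT) (hsJ _ hJT))
  obtain ⟨c, hc⟩ := exists_trace_eq_one C H S hS
  have key : ∀ y ∈ (m.comap φ).map (algebraMap R A), ∀ c : A,
      (⟨∑ h : H, (h : G) • (y * c), trace_mem H S hS _⟩ : S) ∈ (m.comap φ).map φ := by
    intro y hy
    induction hy using Submodule.span_induction with
    | mem y hy =>
      intro c
      obtain ⟨r, hr, rfl⟩ := hy
      have : (⟨∑ h : H, (h : G) • (algebraMap R A r * c), trace_mem H S hS _⟩ : S) =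
          φ r * ⟨∑ h : H, (h : G) • c, trace_mem H S hS _⟩ := Subtype.ext (by
        show _ = (φ r : A) * _
        rw [hφ, ← trace_mul H S hS (hφ r ▸ (φ r).2) c])
      rw [this]
      exact Ideal.mul_mem_right _ _ (Ideal.mem_map_of_mem _ hr)
    | zero =>
      intro c
      convert Submodule.zero_mem ((m.comap φ).map φ) using 1
      refine Subtype.ext ?_
      show ∑ h : H, (h : G) • ((0 : A) * c) = 0
      simp only [zero_mul, smul_zero, Finset.sum_const_zero]
    | add y z _ _ hy hz =>
      intro c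
      convert Ideal.add_mem _ (hy c) (hz c) using 1
      exact Subtype.ext (by simp [add_mul, Finset.sum_add_distrib, smul_add])
    | smul a y _ hy =>
      intro c
      convert hy (a * c) using 1
      exact Subtype.ext (by simp only [smul_eq_mul, mul_comm a y, mul_assoc])
  convert key _ hmem c using 1
  refine Subtype.ext ?_
  show (((∏ J ∈ T, s J) * x : S) : A) = ∑ h : H, (h : G) • _
  rw [trace_mul H S hS ((∏ J ∈ T, s J) * x).2, hc, mul_one]

end Fermat.Agent.Hauptmodul
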