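import Fermat.Agent.Hauptmodul.BasePrinciple
import Fermat.Agent.Hauptmodul.GaloisSub
import Fermat.Agent.KummerES.LocalGen
import Fermat.Agent.CarayolFF.BaseReduction

/-!
# The model of level `M N'` is unramified over the line with coordinate `h`

At a maximal ideal over `q` the invariant ring is locally generated by `q` and `t - a`, so the
Hauptmodul `h` gives an unramified, non-constant coordinate on the special fibre.
-/

set_option autoImplicit false

noncomputable section

open Complex ModularCurve Polynomial
open UpperHalfPlane hiding I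
open CongruenceSubgroup (Gamma Gamma0)
open scoped MatrixGroups Manifold
open Fermat.Agent.ModularFunctionField
open Fermat.Agent.Carayol

namespace Fermat.Agent.Hauptmodul

open KummerES (weak comp LRing MRing inclLevel actAut levelGroup exists_rep)
open Fermat.Agent.CarayolFF (redBase redModel)

local notation "Qb" => AlgebraicClosure ℚ

variable {A : ValuationSubring Qb} {q M N' : ℕ} [NeZero M] [NeZero N'] (H : BaseHyp q A M N')

omit [NeZero M] [NeZero N'] in
theorem baseGroup_le_Gamma : baseGroup M N' ≤ CongruenceSubgroup.Gamma M := inf_le_left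

/-- The level `M` ring inside the invariant ring. -/
def inclM : MRing M (M * (M * N')) (baseB A) →+* BaseRing A M N' :=
  Subring.inclusion (KummerES.weak_mono baseGroup_le_Gamma le_rfl)

omit [NeZero M] [NeZero N'] in
theorem inclM_invariant (r : MRing M (M * (M * N')) (baseB A)) :
    ∀ γ ∈ CongruenceSubgroup.Gamma M, comp (inclM (N' := N') r).1 γ = (inclM (N' := N') r).1 :=
  r.2.2.1

include H

omit [NeZero M] [NeZero N'] in
theorem dvd_or_isUnit_baseB (c : baseB A) :
    (⟨(q : ℂ), natCast_mem_baseB A q⟩ : baseB A) ∣ c ∨ IsUnit c := by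
  have hc := coeffHyp_baseB H.liesOver H.prime
  have := hc.dvr
  by_cases hu : IsUnit c
  · exact Or.inr hu
  · refine Or.inl ?_
    have := (IsDiscreteValuationRing.irreducible_iff_uniformizer _).1 hc.irred
    rw [← Ideal.mem_span_singleton, ← this]
    exact (IsLocalRing.mem_maximalIdeal c).2 hu

/-- The maximal ideals over `q` are locally generated by `q` and `t - a`. -/
theorem exists_mul_mem_span_tBase (m : Ideal (BaseRing A M N')) [m.IsMaximal] (a : baseB A)
    (ha : tBase H - constB A M N' a ∈ m) :
    ∃ s ∉ m, ∀ x ∈ m,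
      s * x ∈ Ideal.span {(q : BaseRing A M N'), tBase H - constB A M N' a} := by
  classical
  set L0 := M * (M * N') with hL0
  have HL := H.levelHyp
  let : Algebra (MRing M L0 (baseB A)) (LRing L0 (baseB A)) := (inclLevel HL.dvd).toAlgebra
  have : SMulCommClass HL.G (MRing M L0 (baseB A)) (LRing L0 (baseB A)) := ⟨fun g r a => by
    show g • (inclLevel HL.dvd r * a) = inclLevel HL.dvd r * g • a
    rw [smul_mul', KummerES.smul_inclLevel]⟩
  have : Algebra.IsInvariant (MRing M L0 (baseB A)) (LRing L0 (baseB A)) HL.G :=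
    ⟨fun f hf => ⟨⟨f.1, KummerES.mem_level_of_fixed f hf⟩, Subtype.ext rfl⟩⟩
  have hincl : Function.Injective (inclLevel (B := baseB A) (L := L0) HL.dvd) := fun x y h =>
    Subtype.ext (congrArg (fun f : LRing L0 (baseB A) => f.1) h :)
  have : FaithfulSMul (MRing M L0 (baseB A)) (LRing L0 (baseB A)) :=
    (faithfulSMul_iff_algebraMap_injective _ _).mpr hincl
  obtain ⟨ι, _, C, -⟩ := HL.exists_coords
  have := KummerES.isDomain_LRing (L := L0) (B := baseB A)
  let Hs : Subgroup HL.G := ((baseGroup M N').map (actAut L0 (baseB A))).subgroupOf _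
  set S : Subring (LRing L0 (baseB A)) := (toLRing A (M := M) (N' := N')).range
  have hS : ∀ f, f ∈ S ↔ ∀ h ∈ Hs, h • f = f := by
    intro f
    constructor
    · rintro ⟨g, rfl⟩ h hh
      obtain ⟨γ, hγ, hγh⟩ := hh
      refine Subtype.ext ?_
      show (h.1 (toLRing A g)).1 = _
      rw [← show actAut L0 (baseB A) γ = h.1 from hγh, KummerES.coe_actAut]
      exact g.2.2.1 _ (inv_mem hγ)
    · intro hf
      refine ⟨⟨f.1, f.2.1, fun γ hγ => ?_, f.2.2.2⟩, Subtype.ext rfl⟩
      have hmem : actAut L0 (baseB A) γ⁻¹ ∈ levelGroup L0 (baseB A) M :=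
        ⟨γ⁻¹, inv_mem (baseGroup_le_Gamma hγ), rfl⟩
      have := congrArg Subtype.val (hf ⟨_, hmem⟩ ⟨γ⁻¹, inv_mem hγ, rfl⟩)
      change (actAut L0 (baseB A) γ⁻¹ f).1 = f.1 at this
      rwa [KummerES.coe_actAut, inv_inv] at this
  let e : BaseRing A M N' ≃+* S :=
    RingEquiv.ofBijective (toLRing A).rangeRestrict
      ⟨fun x y h => toLRing_injective A (congrArg Subtype.val h),
        (toLRing A).rangeRestrict_surjective⟩
  let φ : MRing M L0 (baseB A) →+* S := e.toRingHom.comp inclM
  have hφ : ∀ r, (φ r : LRing L0 (baseB A)) = algebraMap _ _ r := fun r => Subtype.ext rfl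
  set m' : Ideal S := m.comap (e.symm : S →+* BaseRing A M N')
  have : m'.IsMaximal := Ideal.comap_isMaximal_of_surjective _ e.symm.surjective
  obtain ⟨s, hs, hsx⟩ := exists_mul_mem_map_under C Hs S hS φ hφ m'
  refine ⟨e.symm s, hs, fun x hx => ?_⟩
  set J := Ideal.span {(q : BaseRing A M N'), tBase H - constB A M N' a}
  have hmap : (m'.comap φ).map φ ≤ J.comap (e.symm : S →+* BaseRing A M N') := by
    refine Ideal.map_le_iff_le_comap.mpr fun r hr => ?_
    rw [Ideal.mem_comap, Ideal.mem_comap]
    have hrm : inclM r ∈ m := by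
      rw [Ideal.mem_comap, Ideal.mem_comap] at hr
      simpa [φ] using hr
    show e.symm (e (inclM r)) ∈ J
    rw [RingEquiv.symm_apply_apply]
    obtain ⟨n, P, hP⟩ := exists_eval_tBase H (inclM r) (inclM_invariant r)
    obtain ⟨Q, hQ⟩ : ∃ Q : BaseRing A M N', P.eval₂ (constB A M N') (tBase H) =
        constB A M N' (P.eval a) + (tBase H - constB A M N' a) * Q := by
      obtain ⟨Q, hQ⟩ := X_sub_C_dvd_sub_C_eval (p := P) (a := a)
      refine ⟨Q.eval₂ (constB A M N') (tBase H), ?_⟩
      have := congrArg (Polynomial.eval₂ (constB A M N') (tBase H)) hQ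
      rw [eval₂_sub, eval₂_mul, eval₂_sub, eval₂_C, eval₂_C, eval₂_X, sub_eq_iff_eq_add'] at this
      exact this
    have hb : IsUnit (polyB (M * M) (tBase H) ^ n) := (isUnit_polyB_tBase H).pow n
    have hmem : constB A M N' (P.eval a) ∈ m := by
      have h1 : P.eval₂ (constB A M N') (tBase H) ∈ m := hP ▸ m.mul_mem_right _ hrm
      rw [hQ] at h1
      exact (Submodule.add_mem_iff_left m (m.mul_mem_right _ ha)).1 h1
    have hJ : constB A M N' (P.eval a) ∈ J := by
      rcases dvd_or_isUnit_baseB H (P.eval a) with ⟨c, hc⟩ | hu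
      · rw [hc, map_mul, show constB A M N' ⟨(q : ℂ), natCast_mem_baseB A q⟩ =
          (q : BaseRing A M N') from Subtype.ext (by simp [constB]; rfl)]
        exact Ideal.mul_mem_right _ _ (Ideal.subset_span (Set.mem_insert _ _))
      · exact absurd (Ideal.eq_top_of_isUnit_mem _ hmem (hu.map _)) (Ideal.IsMaximal.ne_top ‹_›)
    have h2 : inclM r * polyB (M * M) (tBase H) ^ n ∈ J := by
      rw [hP, hQ]
      exact add_mem hJ (Ideal.mul_mem_right _ _ (Ideal.subset_span (by simp)))
    obtain ⟨w, hw⟩ := hb
    rw [← hw] at h2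
    simpa [mul_assoc] using Ideal.mul_mem_right (↑w⁻¹ : BaseRing A M N') _ h2
  have := hmap (hsx (e x) (by show e.symm (e x) ∈ m; rwa [RingEquiv.symm_apply_apply]))
  rw [Ideal.mem_comap] at this
  simpa using this

theorem baseEquiv_constB (c : unramInt A) :
    ((baseEquiv H (constB A M N' (baseBEquiv A c)) : model A (M * N')) :
      modularFunctionFieldBar (M * N')) = algebraMap Qb _ (c : Qb) := by
  refine Subtype.ext ?_
  show (baseMap H _ : LaurentSeries Qb) = _
  refine (ModularAnalytic.toField_eq _ _ iotaC
    ((ModularFunctionField.HasExp.const _ (iotaC (c : Qb))).congr_series ?_)).trans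
    (algebraMap_laurentSeries_eq_single Qb (c : Qb)).symm
  rw [← HahnSeries.C_apply, coeffMap_C, qExpand_C]

/-- A constant as an element of the model. -/
theorem baseEquiv_symm_const (a : model A (M * N')) (c : unramInt A)
    (ha : (a : modularFunctionFieldBar (M * N')) = algebraMap Qb _ (c : Qb)) :
    (baseEquiv H).symm a = constB A M N' (baseBEquiv A c) :=
  (baseEquiv H).injective (by
    rw [RingEquiv.apply_symm_apply]
    exact Subtype.ext (ha.trans (baseEquiv_constB H c).symm))

/-- `h` is unramified on the special fibre. -/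
theorem unramified_hElem (P : Ideal (redBase A (M * N'))) (hP : P.IsMaximal) (a : model A (M * N'))
    (c : unramInt A) (hac : (a : modularFunctionFieldBar (M * N')) = algebraMap Qb _ (c : Qb))
    (ha : redModel H.liesOver H.prime (hElem H - a) ∈ P) (x : model A (M * N'))
    (hx : redModel H.liesOver H.prime x ∈ P) :
    ∃ s, redModel H.liesOver H.prime s ∉ P ∧
      s * x ∈ Ideal.span {(q : model A (M * N')), hElem H - a} := by
  set m := P.comap (redModel (N := M * N') H.liesOver H.prime)
  have : m.IsMaximal :=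
    Ideal.comap_isMaximal_of_surjective _ (CarayolFF.redModel_surjective H.liesOver H.prime)
  set e := baseEquiv H
  set m' := m.comap (e : BaseRing A M N' →+* model A (M * N'))
  have : m'.IsMaximal := Ideal.comap_isMaximal_of_surjective _ e.surjective
  have hta : tBase H - constB A M N' (baseBEquiv A c) ∈ m' := by
    show redModel H.liesOver H.prime (e _) ∈ P
    rwa [map_sub, ← baseEquiv_symm_const H a c hac, RingEquiv.apply_symm_apply, tBase,
      RingEquiv.apply_symm_apply]
  obtain ⟨s, hs, hsx⟩ := exists_mul_mem_span_tBase H m' _ hta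
  refine ⟨e s, hs, ?_⟩
  have h := hsx (e.symm x) (by show redModel _ _ (e (e.symm x)) ∈ P; rwa [e.apply_symm_apply])
  have h2 := Ideal.mem_map_of_mem (e : BaseRing A M N' →+* model A (M * N')) h
  rw [Ideal.map_span, Set.image_insert_eq, Set.image_singleton, map_natCast] at h2
  simpa [← baseEquiv_symm_const H a c hac, tBase, e] using h2

/-- `h` is not constant on the special fibre. -/
theorem redModel_hElem_ne (c : IsLocalRing.ResidueField A) :
    (redModel H.liesOver H.prime (hElem H) : LaurentSeries (IsLocalRing.ResidueField A)) ≠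
      HahnSeries.C c := by
  intro h
  have := congrArg (fun z : LaurentSeries _ => z.coeff (-1)) h
  simp only [CarayolFF.coe_redModel, KummerReduction.ResidueData.redSeries_coeff] at this
  rw [HahnSeries.C_apply, HahnSeries.coeff_single_of_ne (by norm_num)] at this
  refine one_ne_zero (α := IsLocalRing.ResidueField A) (this ▸ ?_)
  refine (map_one _).symm.trans (congrArg _ (Subtype.ext ?_))
  show (1 : Qb) = (uC Qb (M * M)).coeff (-1)
  rw [uC_coeff_neg_one]

end Fermat.Agent.Hauptmodul
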