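import Fermat.Agent.Hauptmodul.Conjugates

/-!
# The supersingular polynomial

`Δ(τ)/Δ(qτ)` is a root of a monic polynomial over `ℤ[j]`. Modulo `q` one of its coefficients gives
a polynomial `P₁₂` in `j` with `P₁₂(j) Δ^(q-1) = 1`.
-/

set_option autoImplicit false

noncomputable section

open Filter Complex ModularCurve
open UpperHalfPlane hiding I
open scoped Topology MatrixGroups Manifold Polynomial
open Fermat.Agent.ModularFunctionField

namespace Fermat.Agent.Hauptmodul

variable (q : ℕ) [hq : Fact q.Prime]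

/-- Evaluation of an integral polynomial at `j` in `R((q))`. -/
def atJ (R : Type*) [CommRing R] : ℤ[X] →+* LaurentSeries R :=
  Polynomial.eval₂RingHom (Int.castRingHom _) (jqModC R)

/-- `atJ` commutes with change of coefficients. -/
theorem coeffMap_atJ {R S : Type*} [CommRing R] [CommRing S] (f : R →+* S) (P : ℤ[X]) :
    coeffMap f (atJ R P) = atJ S P := by
  rw [atJ, Polynomial.coe_eval₂RingHom, Polynomial.hom_eval₂, coeffMap_jqC]
  exact congrArg (fun φ => Polynomial.eval₂ φ (jqModC S) P) (RingHom.ext_int _ _)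

/-- `Δ(τ)/Δ(qτ)` as a series. -/
def vInvC (R : Type*) [CommRing R] : LaurentSeries R := qExpand R q (deltaInvC R) * deltaC R

/-- The series whose twists are the other conjugates of `Δ(τ)/Δ(qτ)`. -/
def vConjC : LaurentSeries ℤ :=
  HahnSeries.C ((q : ℤ) ^ 12) * (deltaInvC ℤ * qExpand ℤ q (deltaC ℤ))

theorem hasExp_vFamily (k : ℕ) :
    HasExp q (fun τ => (∏ M : Tri q, (Polynomial.X - Polynomial.C (unitInvFun M τ))).coeff k)
      (coeffMap (Int.castRingHom ℂ)
        (qExpand ℤ q ((familySeries (q := q) (vInvC q ℤ) (vConjC q)).coeff k))) := by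
  refine hasExp_family (vInvC q ℤ) (vConjC q) unitInvFun ?_ (fun b => ?_) k
  · refine (hasExp_unitInvFun 1 (mul_one q) Tri.top).congr_series ?_
    rw [unitInvSeries, rootSubst_top, show (Tri.top : Tri q).d = 1 from rfl, vInvC, map_mul,
      coeffMap_qExpand', coeffMap_deltaC, coeffMap_deltaInvC, map_mul]
    simp
  · refine (hasExp_unitInvFun 1 (mul_one q) (triAff b)).congr_series ?_
    rw [unitInvSeries, rootSubst_aff, triAff_d, vConjC, map_mul (coeffMap _), map_mul (coeffMap _),
      coeffMap_C, coeffMap_qExpand', coeffMap_deltaC, coeffMap_deltaInvC, map_mul, map_mul]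
    rw [show (Int.castRingHom ℂ) ((q : ℤ) ^ 12) = (q : ℂ) ^ 12 by simp, mul_assoc]
    congr 1
    · ext n
      rcases eq_or_ne n 0 with rfl | hn
      · simp [AtP.twistU_coeff, HahnSeries.C_apply]
      · simp [AtP.twistU_coeff, HahnSeries.C_apply, HahnSeries.coeff_single_of_ne hn]
    congr 1
    ext n
    rw [AtP.twistU_coeff]
    by_cases hn : (q : ℤ) ∣ n
    · obtain ⟨m, rfl⟩ := hn
      rw [zpow_mul, zpow_natCast, ← pow_mul, mul_comm b.val, pow_mul,
        (isPrimitiveRoot_rootUnit q).pow_eq_one, one_pow, one_zpow, Units.val_one, one_mul]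
    · rw [qExpand_coeff_of_not_dvd q _ hn, mul_zero]

/-- The symmetric functions of the conjugates of `Δ(τ)/Δ(qτ)` are polynomials in `j`. -/
theorem exists_vPoly :
    ∀ k : ℕ, ∃ P : ℤ[X],
      atJ ℤ P = (familySeries (q := q) (vInvC q ℤ) (vConjC q)).coeff k := by
  intro k
  obtain ⟨P, hP, -⟩ := exists_polynomial_of_invariant (Int.castRingHom ℂ) Int.cast_injective
    (f := fun τ => (∏ M : Tri q, (Polynomial.X - Polynomial.C (unitInvFun M τ))).coeff k)
    (fun γ τ => by
      rw [prod_invariant unitInvFun γ τ fun M => unitInvFun_smul γ M τ])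
    (mdiff_coeff_prod _ (fun M _ => mdiff_unitInvFun M) k) (hasExp_vFamily q k)
  refine ⟨P, qExpand_injective q ?_⟩
  rw [hP, atJ, Polynomial.coe_eval₂RingHom, Polynomial.hom_eval₂, jT]
  exact congrArg (fun φ => Polynomial.eval₂ φ _ P) (RingHom.ext_int _ _)

/-- The polynomial of `Δ(τ)/Δ(qτ)` over `ℤ[j]`. -/
def vPoly : Polynomial ℤ[X] :=
  Polynomial.X ^ (q + 1) + ∑ k ∈ Finset.range (q + 1),
    Polynomial.monomial k (exists_vPoly q k).choose

/-- The polynomial of `Δ(τ)/Δ(qτ)` is monic. -/
theorem vPoly_monic : (vPoly q).Monic := by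
  refine Polynomial.monic_X_pow_add ?_
  refine lt_of_le_of_lt (Polynomial.degree_sum_le _ _) ((Finset.sup_lt_iff (WithBot.bot_lt_coe _)).2
    fun k hk => lt_of_le_of_lt (Polynomial.degree_monomial_le _ _) ?_)
  exact WithBot.coe_lt_coe.2 (Finset.mem_range.1 hk)

/-- The conjugate polynomial is monic of degree `q + 1`. -/
theorem monic_familySeries (T F : LaurentSeries ℤ) :
    (familySeries (q := q) T F).Monic ∧ (familySeries (q := q) T F).natDegree = q + 1 := by
  have hc : (AtP.normPoly q F).coeff q = 1 := by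
    rw [AtP.coeff_normPoly]
    have hm : (AtP.conjProd (p := q) F).Monic :=
      Polynomial.monic_prod_of_monic _ _ fun b _ => Polynomial.monic_X_sub_C _
    have hd : (AtP.conjProd (p := q) F).natDegree = q := by
      rw [AtP.conjProd, Polynomial.natDegree_finsetProd_X_sub_C_eq_card, Finset.card_univ,
        ZMod.card]
    rw [show (AtP.conjProd (p := q) F).coeff q = 1 by
      simpa [hd] using hm.coeff_natDegree]
    ext m
    rw [AtP.descend_coeff]
    rcases eq_or_ne m 0 with rfl | hm0
    · simp [AddMonoidAlgebra.one_def]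
    · have : ((q : ℤ) * m) ≠ 0 := mul_ne_zero (by exact_mod_cast hq.out.ne_zero) hm0
      simp [HahnSeries.coeff_one, hm0, this]
  have hm : (AtP.normPoly q F).Monic :=
    Polynomial.monic_of_natDegree_le_of_coeff_eq_one q (natDegree_normPoly_le F) hc
  have hd : (AtP.normPoly q F).natDegree = q :=
    Polynomial.natDegree_eq_of_le_of_coeff_ne_zero (natDegree_normPoly_le F) (by simp [hc])
  refine ⟨(Polynomial.monic_X_sub_C T).mul hm, ?_⟩
  rw [familySeries, (Polynomial.monic_X_sub_C T).natDegree_mul hm, Polynomial.natDegree_X_sub_C,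
    hd, add_comm]

theorem vPoly_map_int :
    (vPoly q).map (atJ ℤ) = familySeries (q := q) (vInvC q ℤ) (vConjC q) := by
  obtain ⟨hm, hd⟩ := monic_familySeries q (vInvC q ℤ) (vConjC q)
  ext1 k
  rw [Polynomial.coeff_map, vPoly, Polynomial.coeff_add, Polynomial.coeff_X_pow,
    Polynomial.finsetSum_coeff]
  simp only [Polynomial.coeff_monomial, Finset.sum_ite_eq', Finset.mem_range]
  rcases lt_trichotomy k (q + 1) with hk | rfl | hk
  · rw [if_neg hk.ne, if_pos hk, zero_add, (exists_vPoly q k).choose_spec]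
  · rw [if_pos rfl, if_neg (lt_irrefl _), add_zero, map_one, ← hd, hm.coeff_natDegree]
  · rw [if_neg hk.ne', if_neg (not_lt.2 hk.le), add_zero, map_zero,
      Polynomial.coeff_eq_zero_of_natDegree_lt (hd ▸ hk)]

/-- `Δ(τ)/Δ(qτ)` is a root of its polynomial. -/
theorem vPoly_root (R : Type*) [CommRing R] :
    (vPoly q).eval₂ (atJ R) (vInvC q R) = 0 := by
  have h := congrArg (coeffMap (Int.castRingHom R))
    (familySeries_eval (q := q) (vInvC q ℤ) (vConjC q))
  rw [← vPoly_map_int, Polynomial.eval_map, Polynomial.hom_eval₂, map_zero] at h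
  have h1 : coeffMap (Int.castRingHom R) (vInvC q ℤ) = vInvC q R := by
    simp [vInvC, coeffMap_qExpand']
  have h2 : (coeffMap (Int.castRingHom R)).comp (atJ ℤ) = atJ R :=
    RingHom.ext fun P => coeffMap_atJ _ P
  rwa [h1, h2] at h

/-- `P₁₂ = Δ^(1-q)` as a polynomial in `j` modulo `q`. -/
def ssPoly : Polynomial (ZMod q) := (-(vPoly q).coeff q).map (Int.castRingHom (ZMod q))

/-- `P₁₂(j) Δ^(q-1) = 1` in characteristic `q`. -/
theorem aeval_ssPoly_mul (R : Type*) [CommRing R] [Algebra (ZMod q) R] :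
    Polynomial.eval₂ ((HahnSeries.C).comp (algebraMap (ZMod q) R)) (jqModC R) (ssPoly q) *
      deltaC R ^ (q - 1) = 1 := by
  suffices h : Polynomial.eval₂ HahnSeries.C (jqModC (ZMod q)) (ssPoly q) *
      deltaC (ZMod q) ^ (q - 1) = 1 by
    have := congrArg (coeffMap (algebraMap (ZMod q) R)) h
    rw [map_mul, map_pow, coeffMap_deltaC, map_one, Polynomial.hom_eval₂, coeffMap_jqC] at this
    rw [← this]
    congr 2
    exact RingHom.ext fun c => (coeffMap_C _ c).symm
  have hroot : coeffMap (Int.castRingHom (ZMod q)) ((familySeries (q := q) (vInvC q ℤ) (vConjC q)).coeff q)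
      = -coeffMap (Int.castRingHom (ZMod q)) (vInvC q ℤ) := by
    rw [← Polynomial.coeff_map, familySeries_mod]
    have h0 : coeffMap (Int.castRingHom (ZMod q)) (vConjC q) = 0 := by
      rw [vConjC, map_mul, coeffMap_C]
      simp
    rw [h0, map_zero, sub_zero, sub_mul, Polynomial.coeff_sub, Polynomial.coeff_C_mul,
      Polynomial.coeff_X_pow, if_pos rfl, mul_one, ← pow_succ', Polynomial.coeff_X_pow,
      if_neg (by omega), zero_sub]
  have hev : Polynomial.eval₂ HahnSeries.C (jqModC (ZMod q)) (ssPoly q) =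
      vInvC q (ZMod q) := by
    have h1 : coeffMap (Int.castRingHom (ZMod q)) (vInvC q ℤ) = vInvC q (ZMod q) := by
      simp [vInvC, coeffMap_qExpand']
    rw [← vPoly_map_int, Polynomial.coeff_map, coeffMap_atJ, h1] at hroot
    rw [ssPoly, Polynomial.eval₂_map, Polynomial.eval₂_neg]
    rw [atJ, Polynomial.coe_eval₂RingHom] at hroot
    rw [show ((HahnSeries.C : ZMod q →+* LaurentSeries (ZMod q)).comp (Int.castRingHom (ZMod q))) =
      Int.castRingHom _ from RingHom.ext_int _ _, hroot, neg_neg]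
  rw [hev, vInvC, ← AtP.pow_eq_qExpand, mul_assoc, ← pow_succ',
    Nat.sub_add_cancel hq.out.one_le, ← mul_pow, mul_comm, deltaC_mul_deltaInvC, one_pow]

end Fermat.Agent.Hauptmodul
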