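import Fermat.Agent.Hauptmodul.JIdentity

/-!
# `(θu)⁶ = U(u) Δ`

The sixth power of `θu = q du/dq`, for the Hauptmodul `u` of level `4` or `9`, is an explicit
rational function of `u` times `Δ`.
-/

set_option autoImplicit false

noncomputable section

open ModularCurve
open Fermat.Agent.ModularFunctionField

namespace Fermat.Agent.Hauptmodul

variable {r : ℕ}

theorem uC_ne_zero (r : ℕ) [NeZero r] : uC ℤ r ≠ 0 := fun h => by
  simpa [h] using uC_coeff_neg_one ℤ r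

theorem theta_ofNat {R : Type*} [CommRing R] (n : ℕ) [n.AtLeastTwo] :
    theta (OfNat.ofNat n : LaurentSeries R) = 0 := theta_natCast n

/-- The identity in level `4`. -/
theorem theta_uC_pow_six_four (R : Type*) [CommRing R] :
    theta (uC R 4) ^ 6 = uC R 4 ^ 2 * (uC R 4 + 16) ^ 5 * deltaC R := by
  suffices h : theta (uC ℤ 4) ^ 6 = uC ℤ 4 ^ 2 * (uC ℤ 4 + 16) ^ 5 * deltaC ℤ by
    have := congrArg (coeffMap (Int.castRingHom R)) h
    simpa only [map_pow, map_mul, map_add, map_ofNat, coeffMap_theta, coeffMap_uC,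
      coeffMap_deltaC] using this
  have hJ := jqModC_mul_polyB (r := 4) (Or.inl rfl) ℤ
  have h6 := theta_jqModC_pow_six ℤ
  have hA0 : polyA 4 (uC ℤ 4) ≠ 0 := polyA_ne_zero
  simp only [polyA, polyB, ↓reduceIte] at hJ hA0
  have hT := congrArg theta hJ
  simp only [theta_mul, theta_add, show theta (16 : LaurentSeries ℤ) = 0 from theta_ofNat 16,
    show theta (256 : LaurentSeries ℤ) = 0 from theta_ofNat 256,
    show theta (4096 : LaurentSeries ℤ) = 0 from theta_ofNat 4096, pow_succ, pow_zero, one_mul] at hT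
  set u := uC ℤ 4
  set v := theta u
  set j := jqModC ℤ
  set t := theta j
  set D := deltaC ℤ
  have hB0 : u ^ 4 * (u + 16) ≠ 0 := by
    intro h
    rw [h, mul_zero] at hJ
    exact pow_ne_zero 3 hA0 hJ.symm
  have hu0 : u ≠ 0 := uC_ne_zero 4
  have h1728 : (j - 1728) * (u ^ 4 * (u + 16)) =
      (u ^ 3 - 480 * u ^ 2 - 24576 * u - 262144) ^ 2 := by linear_combination hJ
  have hC0 : u ^ 3 - 480 * u ^ 2 - 24576 * u - 262144 ≠ 0 := by
    intro h
    have h0 : j = 1728 :=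
      sub_eq_zero.1 ((mul_eq_zero.1 (h1728.trans (by rw [h]; ring))).resolve_right hB0)
    have := congrArg (fun s : LaurentSeries ℤ => s.coeff (-1)) h0
    rw [show (1728 : LaurentSeries ℤ) = HahnSeries.C (1728 : ℤ) from (map_ofNat _ 1728).symm] at this
    simp only [j, HahnSeries.C_apply, ModularCurve.coeff_jqModC_neg_one,
      HahnSeries.coeff_single_of_ne (show (-1 : ℤ) ≠ 0 by decide)] at this
    exact one_ne_zero this
  have hTB : t * (u ^ 4 * (u + 16)) ^ 2 =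
      (u ^ 2 + 256 * u + 4096) ^ 2 * (u ^ 3 - 480 * u ^ 2 - 24576 * u - 262144) * u ^ 3 * v := by
    linear_combination (u ^ 4 * (u + 16)) * hT - (4 * u ^ 3 * v * (u + 16) + u ^ 4 * v) * hJ
  have h3 : (u ^ 2 + 256 * u + 4096) ^ 12 * (u ^ 3 - 480 * u ^ 2 - 24576 * u - 262144) ^ 6 *
      (u ^ 18 * v ^ 6) =
      (u ^ 2 + 256 * u + 4096) ^ 12 * (u ^ 3 - 480 * u ^ 2 - 24576 * u - 262144) ^ 6 *
      (u ^ 18 * (u ^ 2 * (u + 16) ^ 5 * D)) := by
    calc _ = ((u ^ 2 + 256 * u + 4096) ^ 2 * (u ^ 3 - 480 * u ^ 2 - 24576 * u - 262144) * u ^ 3 * v) ^ 6 := by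
          ring
      _ = t ^ 6 * ((u ^ 4 * (u + 16)) ^ 12) := by rw [← hTB]; ring
      _ = (j * (u ^ 4 * (u + 16))) ^ 4 * ((j - 1728) * (u ^ 4 * (u + 16))) ^ 3 *
            (u ^ 4 * (u + 16)) ^ 5 * D := by rw [h6]; ring
      _ = _ := by rw [hJ, h1728]; ring
  exact mul_left_cancel₀ (pow_ne_zero 18 hu0)
    (mul_left_cancel₀ (mul_ne_zero (pow_ne_zero 12 hA0) (pow_ne_zero 6 hC0)) h3)

/-- The identity in level `9`. -/
theorem theta_uC_pow_six_nine (R : Type*) [CommRing R] :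
    theta (uC R 9) ^ 6 * uC R 9 ^ 3 = (uC R 9 ^ 2 + 9 * uC R 9 + 27) ^ 5 * deltaC R := by
  suffices h : theta (uC ℤ 9) ^ 6 * uC ℤ 9 ^ 3 = (uC ℤ 9 ^ 2 + 9 * uC ℤ 9 + 27) ^ 5 * deltaC ℤ by
    have := congrArg (coeffMap (Int.castRingHom R)) h
    simpa only [map_pow, map_mul, map_add, map_ofNat, coeffMap_theta, coeffMap_uC,
      coeffMap_deltaC] using this
  have hJ := jqModC_mul_polyB (r := 9) (Or.inr rfl) ℤ
  have h6 := theta_jqModC_pow_six ℤ
  have hA0 : polyA 9 (uC ℤ 9) ≠ 0 := polyA_ne_zero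
  simp only [polyA, polyB, show (9 : ℕ) ≠ 4 by decide, if_false] at hJ hA0
  have hT := congrArg theta hJ
  simp only [theta_mul, theta_add, show theta (9 : LaurentSeries ℤ) = 0 from theta_ofNat 9,
    show theta (27 : LaurentSeries ℤ) = 0 from theta_ofNat 27,
    show theta (252 : LaurentSeries ℤ) = 0 from theta_ofNat 252,
    show theta (4374 : LaurentSeries ℤ) = 0 from theta_ofNat 4374,
    show theta (26244 : LaurentSeries ℤ) = 0 from theta_ofNat 26244,
    show theta (59049 : LaurentSeries ℤ) = 0 from theta_ofNat 59049, pow_succ, pow_zero, one_mul] at hT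
  set u := uC ℤ 9
  set v := theta u
  set j := jqModC ℤ
  set t := theta j
  set D := deltaC ℤ
  set A := u ^ 4 + 252 * u ^ 3 + 4374 * u ^ 2 + 26244 * u + 59049 with hA
  set B := u ^ 9 * (u ^ 2 + 9 * u + 27) with hB
  set C := u ^ 6 - 486 * u ^ 5 - 24057 * u ^ 4 - 367416 * u ^ 3 - 2657205 * u ^ 2 - 9565938 * u
    - 14348907 with hC
  have hB0 : B ≠ 0 := by
    intro h
    rw [h, mul_zero] at hJ
    exact pow_ne_zero 3 hA0 hJ.symm
  have hu0 : u ≠ 0 := uC_ne_zero 9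
  have h1728 : (j - 1728) * B = C ^ 2 := by
    rw [hC, hA] at *; linear_combination hJ
  have hC0 : C ≠ 0 := by
    intro h
    have h0 : j = 1728 :=
      sub_eq_zero.1 ((mul_eq_zero.1 (h1728.trans (by rw [h]; ring))).resolve_right hB0)
    have := congrArg (fun s : LaurentSeries ℤ => s.coeff (-1)) h0
    rw [show (1728 : LaurentSeries ℤ) = HahnSeries.C (1728 : ℤ) from (map_ofNat _ 1728).symm] at this
    simp only [j, HahnSeries.C_apply, ModularCurve.coeff_jqModC_neg_one,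
      HahnSeries.coeff_single_of_ne (show (-1 : ℤ) ≠ 0 by decide)] at this
    exact one_ne_zero this
  have hTB : t * B ^ 2 = A ^ 2 * C * u ^ 8 * v := by
    simp only [hA, hB, hC] at *
    linear_combination (u ^ 9 * (u ^ 2 + 9 * u + 27)) * hT -
      (v * (11 * u ^ 10 + 90 * u ^ 9 + 243 * u ^ 8)) * hJ
  have h3 : A ^ 12 * C ^ 6 * (u ^ 45 * (v ^ 6 * u ^ 3)) =
      A ^ 12 * C ^ 6 * (u ^ 45 * ((u ^ 2 + 9 * u + 27) ^ 5 * D)) := by
    calc _ = (A ^ 2 * C * u ^ 8 * v) ^ 6 := by ring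
      _ = t ^ 6 * B ^ 12 := by rw [← hTB]; ring
      _ = (j * B) ^ 4 * ((j - 1728) * B) ^ 3 * B ^ 5 * D := by rw [h6]; ring
      _ = _ := by rw [hJ, h1728, hB]; ring
  exact mul_left_cancel₀ (pow_ne_zero 45 hu0)
    (mul_left_cancel₀ (mul_ne_zero (pow_ne_zero 12 hA0) (pow_ne_zero 6 hC0)) h3)

end Fermat.Agent.Hauptmodul
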