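import Fermat.Agent.Hauptmodul.ModularPoly
import Fermat.Agent.Hauptmodul.Supersingular
import Fermat.Agent.Hauptmodul.ThetaIdentity

/-!
# At a supersingular point the remainder in Kronecker's congruence does not vanish

Differentiating the modular equation of the Hauptmodul modulo `q` gives an identity between the
remainder `R(X, X^q)` and the supersingular polynomial; hence `R(a, a^q) ≠ 0` at a supersingular
value `a`, and such a value is fixed by the square of Frobenius.
-/

set_option autoImplicit false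

noncomputable section

open ModularCurve
open scoped Polynomial
open Fermat.Agent.ModularFunctionField

namespace Fermat.Agent.Hauptmodul

variable {R : Type*} [CommRing R]

/-- The numerator of `(θu)⁶/Δ`. -/
def thetaNum (r : ℕ) (x : R) : R :=
  if r = 4 then x ^ 2 * (x + 16) ^ 5 else (x ^ 2 + 9 * x + 27) ^ 5

/-- The denominator of `(θu)⁶/Δ`. -/
def thetaDen (r : ℕ) (x : R) : R := if r = 4 then 1 else x ^ 3

/-- The numerator commutes with ring maps. -/
theorem thetaNum_map {S : Type*} [CommRing S] (f : R →+* S) (r : ℕ) (x : R) :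
    f (thetaNum r x) = thetaNum r (f x) := by
  unfold thetaNum; split_ifs <;> simp only [map_add, map_mul, map_pow, map_ofNat]

/-- The denominator commutes with ring maps. -/
theorem thetaDen_map {S : Type*} [CommRing S] (f : R →+* S) (r : ℕ) (x : R) :
    f (thetaDen r x) = thetaDen r (f x) := by
  unfold thetaDen; split_ifs <;> simp only [map_one, map_pow]

theorem thetaNum_ne_zero {K : Type*} [Field K] {r : ℕ} {x : K} (hB : polyB r x ≠ 0) :
    thetaNum r x ≠ 0 := by
  unfold polyB at hB
  unfold thetaNum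
  split_ifs at hB ⊢ with h
  · obtain ⟨h1, h2⟩ := mul_ne_zero_iff.1 hB
    exact mul_ne_zero (pow_ne_zero _ fun h => h1 (by simp [h])) (pow_ne_zero _ h2)
  · exact pow_ne_zero _ (mul_ne_zero_iff.1 hB).2

/-- `(θu)⁶` is a rational function of `u` times `Δ`. -/
theorem theta_uC_pow_six {r : ℕ} (hr : r = 4 ∨ r = 9) [NeZero r] :
    theta (uC R r) ^ 6 * thetaDen r (uC R r) = thetaNum r (uC R r) * deltaC R := by
  rcases hr with rfl | rfl
  · simpa [thetaNum, thetaDen] using theta_uC_pow_six_four R
  · simpa [thetaNum, thetaDen] using theta_uC_pow_six_nine R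

theorem theta_sub (x y : LaurentSeries R) : theta (x - y) = theta x - theta y :=
  eq_sub_of_add_eq (by rw [← theta_add, sub_add_cancel])

theorem theta_neg (x : LaurentSeries R) : theta (-x) = -theta x :=
  eq_neg_of_add_eq_zero_left (by rw [← theta_add, neg_add_cancel]; ext n; simp [theta_coeff])

theorem theta_atUC {r : ℕ} [NeZero r] (P : R[X]) :
    theta (atUC R r P) = atUC R r P.derivative * theta (uC R r) := by
  induction P using Polynomial.induction_on' with
  | add P Q hP hQ => rw [map_add, theta_add, hP, hQ, map_add, map_add, add_mul]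
  | monomial n a =>
    rw [← Polynomial.C_mul_X_pow_eq_monomial, map_mul, map_pow, atUC_C, atUC_X, theta_mul,
      theta_C, zero_mul, zero_add, Polynomial.derivative_C_mul_X_pow, map_mul, map_pow,
      atUC_C, atUC_X, map_mul (HahnSeries.C : R →+* LaurentSeries R), map_natCast]
    rcases n with _ | n
    · simp [theta_one]
    · rw [theta_pow, Nat.add_sub_cancel]
      ring

variable {q r : ℕ} [hq : Fact q.Prime] [NeZero r] (hr : r = 4 ∨ r = 9) (hqr : ¬ q ∣ r)

/-- `R(X, X^q)` modulo `q`, for the remainder `R` of Kronecker's congruence. -/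
def nPoly : Polynomial (ZMod q) :=
  (kronRem hr hqr).eval₂ (Polynomial.mapRingHom (Int.castRingHom (ZMod q))) (Polynomial.X ^ q)

variable (q) in
/-- `X^(q²) - X`. -/
def ePoly : Polynomial (ZMod q) := Polynomial.X ^ (q ^ 2) - Polynomial.X

/-- The numerator of `(θu)^(q-1)` over `(u^(q²) - u)²`. -/
def denPoly : Polynomial (ZMod q) :=
  ePoly q ^ 2 * Polynomial.X ^ (q - 1) -
    ((nPoly hr hqr).derivative * ePoly q + nPoly hr hqr)

theorem derivative_ePoly : (ePoly q).derivative = -1 := by
  rw [ePoly, Polynomial.derivative_sub, Polynomial.derivative_X_pow, Polynomial.derivative_X]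
  simp

theorem theta_uC_ne_zero (S : Type*) [CommRing S] [Nontrivial S] : theta (uC S r) ≠ 0 := fun h => by
  have := congrArg (fun s : LaurentSeries S => s.coeff (-1)) h
  simp [theta_coeff, uC_coeff_neg_one] at this

theorem theta_uC_pow_pred_mul :
    theta (uC (ZMod q) r) ^ (q - 1) * atUC (ZMod q) r (ePoly q) ^ 2 =
      atUC (ZMod q) r (denPoly hr hqr) := by
  set L := uC (ZMod q) r with hL
  set u := uC ℤ r with hu
  set z := qExpand ℤ q u with hz
  have hdvd : ∀ n, (q : ℤ) ∣ (z - u ^ q).coeff n := fun n => by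
    rw [← ZMod.intCast_zmod_eq_zero_iff_dvd, ← eq_intCast (Int.castRingHom (ZMod q)),
      ← coeffMap_coeff, map_sub, map_pow, hz, coeffMap_qExpand', hu, coeffMap_uC,
      ← AtP.pow_eq_qExpand, sub_self, HahnSeries.coeff_zero]
  obtain ⟨g, hg⟩ : ∃ g : LaurentSeries ℤ, z - u ^ q = HahnSeries.C (q : ℤ) * g := by
    refine ⟨⟨fun n => (z - u ^ q).coeff n / q,
      (z - u ^ q).isPWO_support'.mono (Function.support_subset_iff'.2 fun n hn => ?_)⟩, ?_⟩
    · rw [Function.notMem_support.1 hn, Int.zero_ediv]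
    · ext n
      rw [HahnSeries.C_mul_eq_smul, HahnSeries.coeff_smul, smul_eq_mul]
      exact (Int.mul_ediv_cancel' (hdvd n)).symm
  have hqC : HahnSeries.C (q : ℤ) ≠ (0 : LaurentSeries ℤ) :=
    (map_ne_zero_iff _ HahnSeries.C_injective).2 (by exact_mod_cast hq.out.ne_zero)
  have hgH : g * (z ^ q - u) + (kronRem hr hqr).eval₂ (atU ℤ r) z = 0 := by
    refine mul_left_cancel₀ hqC ?_
    have h := kronPoly_root hr hqr ℤ
    rw [kronPoly_eq, Polynomial.eval₂_add, Polynomial.eval₂_mul, Polynomial.eval₂_mul,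
      Polynomial.eval₂_sub, Polynomial.eval₂_sub, Polynomial.eval₂_X, Polynomial.eval₂_X_pow,
      Polynomial.eval₂_C, Polynomial.eval₂_C, Polynomial.eval₂_C, map_pow, atU_X, atU_C,
      ← hu, ← hz, hg] at h
    rw [mul_zero, ← h]
    simp only [Int.cast_natCast]
    ring
  have htg : theta g = qExpand ℤ q (theta u) - u ^ (q - 1) * theta u := by
    refine mul_left_cancel₀ hqC ?_
    have h := congrArg theta hg
    rw [theta_mul, theta_C, zero_mul, zero_add] at h
    rw [← h, theta_sub, hz, theta_qExpand,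
      show u ^ q = u ^ ((q - 1) + 1) by rw [Nat.sub_add_cancel hq.out.one_le], theta_pow,
      Nat.sub_add_cancel hq.out.one_le]
    simp only [map_natCast]
    ring
  have hzq : coeffMap (Int.castRingHom (ZMod q)) z = L ^ q := by
    rw [hz, coeffMap_qExpand', hu, coeffMap_uC, ← AtP.pow_eq_qExpand]
  set gb := coeffMap (Int.castRingHom (ZMod q)) g with hgb
  have hN : atUC (ZMod q) r (nPoly hr hqr) = -(gb * atUC (ZMod q) r (ePoly q)) := by
    have h := congrArg (coeffMap (Int.castRingHom (ZMod q))) hgH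
    rw [map_add, map_mul, map_sub, map_pow, hzq, hu, coeffMap_uC, Polynomial.hom_eval₂, hzq,
      map_zero, ← hgb, ← hL] at h
    rw [ePoly, map_sub, map_pow, atUC_X, ← hL]
    rw [show (coeffMap (Int.castRingHom (ZMod q))).comp (atU ℤ r) = atU (ZMod q) r from
      RingHom.ext fun P => coeffMap_atU _ P] at h
    rw [nPoly, Polynomial.hom_eval₂, map_pow, atUC_X, ← hL]
    rw [show q ^ 2 = q * q from sq q, pow_mul]
    exact eq_neg_of_add_eq_zero_right h
  have hgb' : theta gb = theta L ^ q - L ^ (q - 1) * theta L := by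
    rw [hgb, ← coeffMap_theta, htg, map_sub, map_mul, map_pow, coeffMap_qExpand', coeffMap_theta,
      hu, coeffMap_uC, ← AtP.pow_eq_qExpand, ← hL]
  have hD := congrArg theta hN
  rw [theta_atUC, theta_neg, theta_mul, theta_atUC, derivative_ePoly, map_neg, map_one, hgb',
    ← hL] at hD
  refine mul_left_cancel₀ (theta_uC_ne_zero (r := r) (ZMod q)) ?_
  rw [← hL, ← mul_assoc, ← pow_succ', Nat.sub_add_cancel hq.out.one_le, denPoly, map_sub, map_mul,
    map_add, map_mul, map_pow, map_pow, atUC_X, ← hL]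
  linear_combination (atUC (ZMod q) r (ePoly q)) * hD + theta L * hN

variable (q r) in
/-- `P₁₂(A³/B)` with denominators cleared. -/
def ssNum : Polynomial (ZMod q) :=
  ∑ i ∈ Finset.range ((ssPoly q).natDegree + 1), Polynomial.C ((ssPoly q).coeff i) *
    ((polyA r Polynomial.X ^ 3) ^ i * polyB r Polynomial.X ^ ((ssPoly q).natDegree - i))

omit [NeZero r] in
theorem eval₂_ssNum {S : Type*} [CommRing S] (φ : ZMod q →+* S) {x j : S}
    (hj : j * polyB r x = polyA r x ^ 3) :
    (ssNum q r).eval₂ φ x = (ssPoly q).eval₂ φ j * polyB r x ^ (ssPoly q).natDegree := by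
  have hA : (polyA r Polynomial.X : (ZMod q)[X]).eval₂ φ x = polyA r x := by
    rw [← Polynomial.coe_eval₂RingHom, polyA_map, Polynomial.coe_eval₂RingHom, Polynomial.eval₂_X]
  have hB : (polyB r Polynomial.X : (ZMod q)[X]).eval₂ φ x = polyB r x := by
    rw [← Polynomial.coe_eval₂RingHom, polyB_map, Polynomial.coe_eval₂RingHom, Polynomial.eval₂_X]
  rw [ssNum, Polynomial.eval₂_finsetSum, Polynomial.eval₂_eq_sum_range, Finset.sum_mul]
  refine Finset.sum_congr rfl fun i hi => ?_
  rw [Polynomial.eval₂_mul, Polynomial.eval₂_C, Polynomial.eval₂_mul, Polynomial.eval₂_pow,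
    Polynomial.eval₂_pow, Polynomial.eval₂_pow, hA, hB, ← hj, mul_pow,
    ← Nat.add_sub_cancel' (Finset.mem_range_succ_iff.1 hi), pow_add, Nat.add_sub_cancel_left]
  ring

theorem key_identity :
    denPoly hr hqr ^ 6 * thetaDen r Polynomial.X ^ (q - 1) * ssNum q r =
      ePoly q ^ 12 * thetaNum r Polynomial.X ^ (q - 1) *
        polyB r Polynomial.X ^ (ssPoly q).natDegree := by
  refine atUC_injective (r := r) ?_
  have hP := aeval_ssPoly_mul q (ZMod q)
  rw [Algebra.algebraMap_self, RingHom.comp_id] at hP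
  have hS : atUC (ZMod q) r (ssNum q r) =
      Polynomial.eval₂ HahnSeries.C (jqModC (ZMod q)) (ssPoly q) *
        polyB r (uC (ZMod q) r) ^ (ssPoly q).natDegree := by
    rw [atUC, Polynomial.coe_eval₂RingHom]
    exact eval₂_ssNum _ (jqModC_mul_polyB hr (ZMod q))
  simp only [map_mul, map_pow, hS, ← theta_uC_pow_pred_mul hr hqr, thetaNum_map, thetaDen_map,
    polyB_map, atUC_X]
  set T := theta (uC (ZMod q) r)
  set E := atUC (ZMod q) r (ePoly q)
  set S := Polynomial.eval₂ HahnSeries.C (jqModC (ZMod q)) (ssPoly q)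
  calc (T ^ (q - 1) * E ^ 2) ^ 6 * thetaDen r (uC (ZMod q) r) ^ (q - 1) *
        (S * polyB r (uC (ZMod q) r) ^ (ssPoly q).natDegree)
      = E ^ 12 * (T ^ 6 * thetaDen r (uC (ZMod q) r)) ^ (q - 1) * S *
          polyB r (uC (ZMod q) r) ^ (ssPoly q).natDegree := by ring
    _ = E ^ 12 * thetaNum r (uC (ZMod q) r) ^ (q - 1) * (S * deltaC (ZMod q) ^ (q - 1)) *
          polyB r (uC (ZMod q) r) ^ (ssPoly q).natDegree := by
        rw [theta_uC_pow_six hr]; ring
    _ = _ := by rw [hP, mul_one]

section Field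

variable {K : Type*} [Field K] [Algebra (ZMod q) K] {a : K}

omit [NeZero r] in
theorem aeval_thetaNum : Polynomial.aeval a (thetaNum r (Polynomial.X : (ZMod q)[X])) =
    thetaNum r a :=
  (thetaNum_map (Polynomial.aeval a : (ZMod q)[X] →ₐ[ZMod q] K).toRingHom r _).trans (by simp)

omit [NeZero r] in
theorem aeval_polyB : Polynomial.aeval a (polyB r (Polynomial.X : (ZMod q)[X])) = polyB r a :=
  (polyB_map (Polynomial.aeval a : (ZMod q)[X] →ₐ[ZMod q] K).toRingHom r _).trans (by simp)

theorem eval₂_nPoly :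
    Polynomial.aeval a (nPoly hr hqr) =
      (kronRem hr hqr).eval₂ (Polynomial.eval₂RingHom (Int.castRingHom K) a) (a ^ q) := by
  rw [nPoly, Polynomial.aeval_def, ← Polynomial.coe_eval₂RingHom, Polynomial.hom_eval₂, map_pow,
    Polynomial.coe_eval₂RingHom, Polynomial.eval₂_X]
  congr 1
  refine Polynomial.ringHom_ext (fun c => ?_) ?_ <;> simp

include hr hqr in
/-- A supersingular point is fixed by the square of Frobenius. -/
theorem pow_sq_eq_of_ssPoly (hB : polyB r a ≠ 0)
    (hss : Polynomial.aeval (polyA r a ^ 3 / polyB r a) (ssPoly q) = 0) : a ^ (q ^ 2) = a := by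
  have h := congrArg (Polynomial.aeval a) (key_identity hr hqr)
  have hS : Polynomial.aeval a (ssNum q r) = 0 := by
    rw [Polynomial.aeval_def, eval₂_ssNum _ (div_mul_cancel₀ _ hB), ← Polynomial.aeval_def, hss,
      zero_mul]
  rw [map_mul, map_mul, map_mul, map_mul, hS, mul_zero, map_pow, map_pow, map_pow, aeval_thetaNum,
    aeval_polyB, eq_comm, mul_eq_zero, mul_eq_zero] at h
  rcases h with (h | h) | h
  · exact sub_eq_zero.1 (by simpa [ePoly] using (pow_eq_zero_iff (by norm_num)).1 h)
  · exact absurd h (pow_ne_zero _ (thetaNum_ne_zero hB))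
  · exact absurd h (pow_ne_zero _ hB)

/-- At a supersingular point `R(a, a^q) ≠ 0`. -/
theorem kronRem_ne_zero (hB : polyB r a ≠ 0)
    (hss : Polynomial.aeval (polyA r a ^ 3 / polyB r a) (ssPoly q) = 0) :
    (kronRem hr hqr).eval₂ (Polynomial.eval₂RingHom (Int.castRingHom K) a) (a ^ q) ≠ 0 := by
  rw [← eval₂_nPoly hr hqr]
  intro hN
  have hE : Polynomial.aeval a (ePoly q) = 0 := by
    simp [ePoly, pow_sq_eq_of_ssPoly hr hqr hB hss]
  set φ := Polynomial.mapRingHom (algebraMap (ZMod q) K)
  have hev : ∀ P : (ZMod q)[X], (φ P).eval a = Polynomial.aeval a P := fun P => by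
    rw [Polynomial.coe_mapRingHom, Polynomial.eval_map, Polynomial.aeval_def]
  obtain ⟨E₁, hE₁⟩ : Polynomial.X - Polynomial.C a ∣ φ (ePoly q) :=
    Polynomial.dvd_iff_isRoot.2 ((hev _).trans hE)
  have hE₁a : E₁.eval a = -1 := by
    have h := congrArg (fun P => (Polynomial.derivative P).eval a) hE₁
    simp only [φ, Polynomial.coe_mapRingHom, Polynomial.derivative_map, derivative_ePoly] at h
    simpa [Polynomial.derivative_mul] using h.symm
  have hd0 : (φ (denPoly hr hqr)).eval a = 0 := by
    rw [hev]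
    simp [denPoly, hE, hN]
  have hd1 : (Polynomial.derivative (φ (denPoly hr hqr))).eval a = 0 := by
    simp only [φ, Polynomial.coe_mapRingHom, Polynomial.derivative_map, Polynomial.eval_map]
    rw [← Polynomial.aeval_def]
    simp [denPoly, Polynomial.derivative_mul, Polynomial.derivative_pow, derivative_ePoly, hE]
  obtain ⟨D, hD⟩ : (Polynomial.X - Polynomial.C a) ^ 2 ∣ φ (denPoly hr hqr) := by
    obtain ⟨D, hD⟩ : Polynomial.X - Polynomial.C a ∣ φ (denPoly hr hqr) :=
      Polynomial.dvd_iff_isRoot.2 hd0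
    rw [hD] at hd1 ⊢
    rw [sq]
    refine mul_dvd_mul_left _ (Polynomial.dvd_iff_isRoot.2 ?_)
    simpa [Polynomial.derivative_mul] using hd1
  have h := congrArg φ (key_identity hr hqr)
  simp only [map_mul, map_pow, hD, hE₁] at h
  have h2 : D ^ 6 * φ (thetaDen r Polynomial.X) ^ (q - 1) * φ (ssNum q r) =
      E₁ ^ 12 * φ (thetaNum r Polynomial.X) ^ (q - 1) *
        φ (polyB r Polynomial.X) ^ (ssPoly q).natDegree := by
    refine mul_left_cancel₀ (pow_ne_zero 12 (Polynomial.X_sub_C_ne_zero a)) ?_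
    linear_combination h
  have hS : (φ (ssNum q r)).eval a = 0 := by
    rw [hev, Polynomial.aeval_def, eval₂_ssNum _ (div_mul_cancel₀ _ hB), ← Polynomial.aeval_def,
      hss, zero_mul]
  have h3 := congrArg (Polynomial.eval a) h2
  simp only [Polynomial.eval_mul, Polynomial.eval_pow, hS, mul_zero, hE₁a] at h3
  rw [hev, hev, aeval_thetaNum, aeval_polyB] at h3
  exact mul_ne_zero (mul_ne_zero (pow_ne_zero _ (by simp)) (pow_ne_zero _ (thetaNum_ne_zero hB)))
    (pow_ne_zero _ hB) h3.symm

end Field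

end Fermat.Agent.Hauptmodul
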