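import Fermat.Agent.Hauptmodul.Supersingular
import Mathlib.Algebra.Algebra.ZMod

/-!
# `q¹²Δ(qτ)/Δ(τ)` is integral over `ℤ[j]`

The conjugates of `q¹²Δ(qτ)/Δ(τ)` under `SL(2, ℤ)` are the roots of a monic polynomial over
`ℤ[j]`; modulo `q` the inverse function is inverse to `Δ^(q-1)`.
-/

set_option autoImplicit false

noncomputable section

open Filter Complex ModularCurve
open UpperHalfPlane hiding I
open scoped Topology MatrixGroups Manifold Polynomial
open Fermat.Agent.ModularFunctionField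

namespace Fermat.Agent.Hauptmodul

variable (q : ℕ) [hq : Fact q.Prime]

/-- The product of the two conjugate series is `q¹²`. -/
theorem vInvC_mul_vConjC :
    vInvC q ℤ * vConjC q = HahnSeries.C ((q : ℤ) ^ 12) := by
  rw [vInvC, vConjC,
    show qExpand ℤ q (deltaInvC ℤ) * deltaC ℤ *
      (HahnSeries.C ((q : ℤ) ^ 12) * (deltaInvC ℤ * qExpand ℤ q (deltaC ℤ))) =
      HahnSeries.C ((q : ℤ) ^ 12) * ((qExpand ℤ q (deltaInvC ℤ) * qExpand ℤ q (deltaC ℤ)) *
        (deltaC ℤ * deltaInvC ℤ)) by ring,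
    ← map_mul, mul_comm (deltaInvC ℤ), deltaC_mul_deltaInvC, map_one, one_mul, mul_one]

theorem hasExp_wFamily (k : ℕ) :
    HasExp q (fun τ => (∏ M : Tri q, (Polynomial.X - Polynomial.C (unitFun M τ))).coeff k)
      (coeffMap (Int.castRingHom ℂ)
        (qExpand ℤ q ((familySeries (q := q) (vConjC q) (vInvC q ℤ)).coeff k))) := by
  refine hasExp_family (vConjC q) (vInvC q ℤ) unitFun ?_ (fun b => ?_) k
  · refine (hasExp_unitFun 1 (mul_one q) Tri.top).congr_series ?_
    rw [unitSeries, rootSubst_top, show (Tri.top : Tri q).a = q from rfl, vConjC,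
      map_mul (coeffMap _), map_mul (coeffMap _), coeffMap_C, coeffMap_qExpand', coeffMap_deltaC,
      coeffMap_deltaInvC, map_mul, map_mul, qExpand_C]
    simp only [map_natCast, map_pow]
    ring
  · refine (hasExp_unitFun 1 (mul_one q) (triAff b)).congr_series ?_
    rw [unitSeries, rootSubst_aff, triAff_a, vInvC, map_mul (coeffMap _), coeffMap_qExpand',
      coeffMap_deltaC, coeffMap_deltaInvC, map_mul, Nat.cast_one, one_pow, map_one, one_mul,
      mul_comm]
    congr 1
    ext n
    rw [AtP.twistU_coeff]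
    by_cases hn : (q : ℤ) ∣ n
    · obtain ⟨m, rfl⟩ := hn
      rw [zpow_mul, zpow_natCast, ← pow_mul, mul_comm b.val, pow_mul,
        (isPrimitiveRoot_rootUnit q).pow_eq_one, one_pow, one_zpow, Units.val_one, one_mul]
    · rw [qExpand_coeff_of_not_dvd q _ hn, mul_zero]

/-- The symmetric functions of the conjugates of `q¹²Δ(qτ)/Δ(τ)` are polynomials in `j`. -/
theorem exists_wPoly :
    ∀ k : ℕ, ∃ P : ℤ[X],
      atJ ℤ P = (familySeries (q := q) (vConjC q) (vInvC q ℤ)).coeff k := by
  intro k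
  obtain ⟨P, hP, -⟩ := exists_polynomial_of_invariant (Int.castRingHom ℂ) Int.cast_injective
    (f := fun τ => (∏ M : Tri q, (Polynomial.X - Polynomial.C (unitFun M τ))).coeff k)
    (fun γ τ => by
      rw [prod_invariant unitFun γ τ fun M => unitFun_smul γ M τ])
    (mdiff_coeff_prod _ (fun M _ => mdiff_unitFun M) k) (hasExp_wFamily q k)
  refine ⟨P, qExpand_injective q ?_⟩
  rw [hP, atJ, Polynomial.coe_eval₂RingHom, Polynomial.hom_eval₂, jT]
  exact congrArg (fun φ => Polynomial.eval₂ φ _ P) (RingHom.ext_int _ _)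

/-- The polynomial of `q¹²Δ(qτ)/Δ(τ)` over `ℤ[j]`. -/
def wPoly : Polynomial ℤ[X] :=
  Polynomial.X ^ (q + 1) + ∑ k ∈ Finset.range (q + 1),
    Polynomial.monomial k (exists_wPoly q k).choose

/-- The polynomial of `q¹²Δ(qτ)/Δ(τ)` is monic. -/
theorem wPoly_monic : (wPoly q).Monic := by
  refine Polynomial.monic_X_pow_add ?_
  refine lt_of_le_of_lt (Polynomial.degree_sum_le _ _) ((Finset.sup_lt_iff (WithBot.bot_lt_coe _)).2
    fun k hk => lt_of_le_of_lt (Polynomial.degree_monomial_le _ _) ?_)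
  exact WithBot.coe_lt_coe.2 (Finset.mem_range.1 hk)

theorem wPoly_map_int :
    (wPoly q).map (atJ ℤ) = familySeries (q := q) (vConjC q) (vInvC q ℤ) := by
  obtain ⟨hm, hd⟩ := monic_familySeries q (vConjC q) (vInvC q ℤ)
  ext1 k
  rw [Polynomial.coeff_map, wPoly, Polynomial.coeff_add, Polynomial.coeff_X_pow,
    Polynomial.finsetSum_coeff]
  simp only [Polynomial.coeff_monomial, Finset.sum_ite_eq', Finset.mem_range]
  rcases lt_trichotomy k (q + 1) with hk | rfl | hk
  · rw [if_neg hk.ne, if_pos hk, zero_add, (exists_wPoly q k).choose_spec]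
  · rw [if_pos rfl, if_neg (lt_irrefl _), add_zero, map_one, ← hd, hm.coeff_natDegree]
  · rw [if_neg hk.ne', if_neg (not_lt.2 hk.le), add_zero, map_zero,
      Polynomial.coeff_eq_zero_of_natDegree_lt (hd ▸ hk)]

/-- `q¹²Δ(qτ)/Δ(τ)` is a root of its polynomial. -/
theorem wPoly_root (R : Type*) [CommRing R] :
    (wPoly q).eval₂ (atJ R) (coeffMap (Int.castRingHom R) (vConjC q)) = 0 := by
  have h := congrArg (coeffMap (Int.castRingHom R))
    (familySeries_eval (q := q) (vConjC q) (vInvC q ℤ))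
  rw [← wPoly_map_int, Polynomial.eval_map, Polynomial.hom_eval₂, map_zero] at h
  rwa [show (coeffMap (Int.castRingHom R)).comp (atJ ℤ) = atJ R from
    RingHom.ext fun P => coeffMap_atJ _ P] at h

/-- After `t ↦ t^(qm)` the roots of `wPoly` are `T(t^(qm))` and the twists `F(ζ t^m)`. -/
theorem roots_wPoly {K : Type*} [Field K] {ζ : K} (hζ : IsPrimitiveRoot ζ q) (m : ℕ) [NeZero m]
    {z : LaurentSeries K}
    (hz : (wPoly q).eval₂ ((qExpand K (m * q)).comp (atJ K)) z = 0) :
    z = qExpand K (m * q) (coeffMap (Int.castRingHom K) (vConjC q)) ∨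
      ∃ b : ZMod q, z = qExpand K m (AtP.twistU (AtP.rootUnit hζ b)
        (coeffMap (Int.castRingHom K) (vInvC q ℤ))) := by
  have h1 : (qExpand K (m * q)).comp (atJ K) =
      (((qExpand K m).comp ((qExpand K q).comp (coeffMap (Int.castRingHom K)))).comp (atJ ℤ)) := by
    refine RingHom.ext fun P => ?_
    simp only [RingHom.comp_apply, coeffMap_atJ]
    rw [qExpand_qExpand]
  have h2 : ((qExpand K q).comp (coeffMap (Int.castRingHom K))) (vConjC q) =
      qExpand K q (coeffMap (Int.castRingHom K) (vConjC q)) := rfl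
  rw [h1, ← Polynomial.eval_map, ← Polynomial.map_map, wPoly_map_int, familySeries,
    ← Polynomial.map_map, Polynomial.map_mul, AtP.normPoly_map hζ, Polynomial.map_sub,
    Polynomial.map_X, Polynomial.map_C, h2, Polynomial.map_mul, Polynomial.map_sub,
    Polynomial.map_X, Polynomial.map_C, Polynomial.map_prod, Polynomial.eval_mul,
    Polynomial.eval_prod, mul_eq_zero, Finset.prod_eq_zero_iff] at hz
  rcases hz with hz | ⟨b, -, hz⟩
  · left
    rw [Polynomial.eval_sub, Polynomial.eval_X, Polynomial.eval_C, sub_eq_zero, qExpand_qExpand]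
      at hz
    exact hz
  · right
    refine ⟨b, ?_⟩
    rwa [Polynomial.map_sub, Polynomial.map_X, Polynomial.map_C, Polynomial.eval_sub,
      Polynomial.eval_X, Polynomial.eval_C, sub_eq_zero] at hz

/-- Modulo `q`, `Δ(τ)/Δ(qτ)` is inverse to `Δ^(q-1)`. -/
theorem vInvC_mul_deltaC_pow {R : Type*} [CommRing R] [CharP R q] :
    vInvC q R * deltaC R ^ (q - 1) = 1 := by
  let : Algebra (ZMod q) R := ZMod.algebra R q
  have h : vInvC q (ZMod q) * deltaC (ZMod q) ^ (q - 1) = 1 := by
    rw [vInvC, mul_assoc, ← pow_succ', Nat.sub_add_cancel hq.out.one_le, AtP.pow_eq_qExpand,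
      ← map_mul, mul_comm, deltaC_mul_deltaInvC, map_one]
  have h' := congrArg (coeffMap (algebraMap (ZMod q) R)) h
  rwa [vInvC, map_mul, map_mul, map_pow, coeffMap_qExpand', coeffMap_deltaC, coeffMap_deltaInvC,
    map_one] at h'

end Fermat.Agent.Hauptmodul
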