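import Fermat.Agent.Hauptmodul.BaseWeak
import Fermat.Agent.KummerES.SpecialFibreMain
import Fermat.Agent.KummerES.Base
import Fermat.Agent.CarayolFF.Descend
import Fermat.Agent.Carayol.Local.ModelFinite
import Mathlib.RingTheory.LocalProperties.IntegrallyClosed

/-!
# The affine model of level `M N'` as a ring of weakly holomorphic functions

For `M = 2, 3` dividing `N'` and `q ∤ M N'`, the model of `Y₀(M N')` over the unramified integers
at `q` is the ring of `Γ(M) ∩ Γ₀(N')`-invariant elements of the ring of full level `M² N'`.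
-/

set_option autoImplicit false

noncomputable section

open Complex ModularCurve Polynomial
open UpperHalfPlane hiding I
open CongruenceSubgroup (Gamma Gamma0)
open scoped MatrixGroups Manifold
open Fermat.Agent.ModularFunctionField
open Fermat.Agent.Carayol

namespace Fermat.Agent.Hauptmodul

open KummerES (zetaC zetaRing weak comp coeffSubring LRing LevelHyp CoeffHyp)

local notation "Qb" => AlgebraicClosure ℚ

/-- An embedding of `ℚ̄` in `ℂ`. -/
def iotaC : Qb →+* ℂ := (IsAlgClosed.lift : Qb →ₐ[ℚ] ℂ).toRingHom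

variable (A : ValuationSubring Qb) {q : ℕ}

/-- The image of `W` in `ℂ`. -/
def baseB : Subring ℂ := (unramInt A).map iotaC

/-- `W` and its image. -/
def baseBEquiv : unramInt A ≃+* baseB A :=
  (unramInt A).equivMapOfInjective iotaC iotaC.injective

theorem coe_baseBEquiv (c : unramInt A) : (baseBEquiv A c : ℂ) = iotaC c := rfl

theorem baseB_le_range : baseB A ≤ iotaC.range := by
  rintro _ ⟨c, -, rfl⟩
  exact ⟨c, rfl⟩

/-- The coefficient ring contains the natural numbers. -/
theorem natCast_mem_baseB (n : ℕ) : (n : ℂ) ∈ baseB A := natCast_mem _ n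

variable {A}

/-- The coefficient ring contains the cyclotomic integers of every level prime to `q`, with that
level inverted. -/
theorem zetaRing_le_baseB (hA : A.LiesOverPrime q) (hq : q.Prime) {L : ℕ} [NeZero L]
    (hqL : ¬ q ∣ L) : zetaRing L ≤ baseB A := by
  refine Subring.closure_le.mpr ?_
  rintro x (rfl | rfl)
  · obtain ⟨z, hz⟩ := ModularAnalytic.mem_range_of_pow_eq_one iotaC (n := L)
      (KummerES.isPrimitiveRoot_zetaC L).pow_eq_one
    refine ⟨z, Local.rootOfUnity_mem_unramInt hA hq hqL (iotaC.injective ?_), hz⟩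
    rw [map_pow, hz, map_one, (KummerES.isPrimitiveRoot_zetaC L).pow_eq_one]
  · have hu : IsUnit ((L : ℕ) : unramInt A) := by
      rw [Local.isUnit_unramInt_iff]
      have hle : ∀ c : Qb, c ∈ A → A.valuation c ≤ 1 := fun c hc =>
        (A.valuation_le_one_iff c).2 hc
      refine le_antisymm (hle _ (natCast_mem _ L)) (not_lt.1 fun hlt => ?_)
      have hq1 : A.valuation (q : Qb) < 1 := (A.mem_nonunits_iff).1 hA
      have hcop : IsCoprime (q : ℤ) (L : ℤ) := by
        rw [Int.isCoprime_iff_nat_coprime]
        simpa using (Nat.Prime.coprime_iff_not_dvd hq).2 hqL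
      obtain ⟨a, b, hab⟩ := hcop
      have h1 : ((a : Qb)) * (q : Qb) + (b : Qb) * (L : Qb) = 1 := by exact_mod_cast congrArg (Int.cast : ℤ → Qb) hab
      have e1 : A.valuation ((a : Qb) * (q : Qb)) < 1 := by
        rw [map_mul]
        exact lt_of_le_of_lt (mul_le_of_le_one_left' (hle _ (intCast_mem _ a))) hq1
      have e2 : A.valuation ((b : Qb) * (L : Qb)) < 1 := by
        rw [map_mul]
        exact lt_of_le_of_lt (mul_le_of_le_one_left' (hle _ (intCast_mem _ b))) (by simpa using hlt)
      have h2 : A.valuation ((a : Qb) * (q : Qb) + (b : Qb) * (L : Qb)) < 1 :=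
        A.valuation.map_add_lt e1 e2
      rw [h1, map_one] at h2
      exact lt_irrefl _ h2
    obtain ⟨u, hu⟩ := hu
    refine ⟨((↑u⁻¹ : unramInt A) : Qb), (↑u⁻¹ : unramInt A).2, ?_⟩
    have h1 : ((L : ℕ) : Qb) * ((↑u⁻¹ : unramInt A) : Qb) = 1 := by
      have := congrArg (fun z : unramInt A => (z : Qb)) u.mul_inv
      rw [hu] at this
      simpa using this
    have h2 := congrArg iotaC h1
    rw [map_mul, map_natCast, map_one] at h2
    exact (inv_eq_of_mul_eq_one_right h2).symm

/-- The coefficient ring satisfies the hypotheses on coefficients at `q`. -/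
theorem coeffHyp_baseB (hA : A.LiesOverPrime q) (hq : q.Prime) :
    CoeffHyp (baseB A) (q : ℂ) 1 := by
  have := Local.isDiscreteValuationRing_unramInt hA hq
  have : IsDiscreteValuationRing (baseB A) := IsDiscreteValuationRing.RingEquivClass.isDiscreteValuationRing (baseBEquiv A)
  have hirr : Irreducible (q : unramInt A) := by
    have hne : (q : unramInt A) ≠ 0 := fun h => by
      have := congrArg (fun z : unramInt A => (z : Qb)) h
      simp [hq.ne_zero] at this
    refine (IsDiscreteValuationRing.irreducible_iff_uniformizer _).2 ?_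
    refine le_antisymm (fun x hx => ?_) ((Ideal.span_singleton_le_iff_mem _).2
      ((IsLocalRing.mem_maximalIdeal _).2 (Local.not_isUnit_natCast hA)))
    rcases eq_or_ne x 0 with rfl | hx0
    · exact zero_mem _
    obtain ⟨n, u, rfl⟩ := Local.exists_eq_pow_mul hA hq hx0
    rcases n with _ | n
    · exact absurd (by simp) ((IsLocalRing.mem_maximalIdeal _).1 hx)
    · rw [pow_succ', mul_assoc]
      exact Ideal.mul_mem_right _ _ (Ideal.mem_span_singleton_self _)
  refine
    { dvr := inferInstance
      mem := natCast_mem_baseB A q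
      irred := ?_
      ne_zero := one_ne_zero
      unit := by simp [one_mem]
      zeta := by simp [zetaC, Complex.exp_two_pi_mul_I, one_mem] }
  have h := (MulEquiv.irreducible_iff (baseBEquiv A)).2 hirr
  rw [map_natCast] at h
  exact h

/-- A quotient which is integral descends to an integrally closed overring. -/
theorem exists_mul_of_isIntegral_div {R S K : Type*} [CommRing R] [IsDomain R] [CommRing S]
    [IsDomain S] [IsIntegrallyClosed S] [Field K] (θ : R →+* K) (hθ : Function.Injective θ)
    (j : R →+* S) (hj : Function.Injective j) {P : R[X]} (hP : P.Monic) {a b : R} (hb : b ≠ 0)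
    (hroot : P.eval₂ θ (θ a / θ b) = 0) : ∃ l : S, j a = l * j b := by
  have hinj2 : Function.Injective ((algebraMap S (FractionRing S)).comp j) :=
    (IsFractionRing.injective S (FractionRing S)).comp hj
  obtain ⟨g₁, hg₁⟩ : ∃ g : FractionRing R →+* K, ∀ r, g (algebraMap R (FractionRing R) r) = θ r :=
    ⟨IsFractionRing.lift hθ, fun r => IsFractionRing.lift_algebraMap hθ r⟩
  obtain ⟨g₂, hg₂⟩ : ∃ g : FractionRing R →+* FractionRing S,
      ∀ r, g (algebraMap R (FractionRing R) r) = algebraMap S (FractionRing S) (j r) :=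
    ⟨IsFractionRing.lift hinj2, fun r => IsFractionRing.lift_algebraMap hinj2 r⟩
  have hPz : P.eval₂ (algebraMap R (FractionRing R))
      (algebraMap R (FractionRing R) a / algebraMap R (FractionRing R) b) = 0 := by
    refine g₁.injective ?_
    rw [Polynomial.hom_eval₂, map_zero, map_div₀, hg₁, hg₁,
      show g₁.comp (algebraMap R (FractionRing R)) = θ from RingHom.ext hg₁, hroot]
  have h := congrArg g₂ hPz
  rw [Polynomial.hom_eval₂, map_zero, map_div₀, hg₂, hg₂,
    show g₂.comp (algebraMap R (FractionRing R)) = (algebraMap S (FractionRing S)).comp j from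
      RingHom.ext hg₂, ← Polynomial.eval₂_map] at h
  obtain ⟨l, hl⟩ := (IsIntegrallyClosed.isIntegral_iff (R := S)).1 ⟨P.map j, hP.map j, h⟩
  refine ⟨l, IsFractionRing.injective S (FractionRing S) ?_⟩
  rw [map_mul, hl, div_mul_cancel₀]
  rw [Ne, map_eq_zero_iff _ (IsFractionRing.injective S (FractionRing S)), map_eq_zero_iff _ hj]
  exact hb

/-- The transport of `f` to a polynomial relation over polynomials in `j`. -/
theorem exists_poly_j {Γ : Subgroup SL(2, ℤ)} {L : ℕ} [NeZero L] {B : Subring ℂ}
    (hΓ : CongruenceSubgroup.Gamma L ≤ Γ) {g : ℍ → ℂ} (hg : g ∈ weak Γ L B) :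
    ∃ Q : Polynomial (Polynomial B), Q.Monic ∧
      ∀ τ, (Q.map ((Polynomial.evalRingHom (jFun τ)).comp (Polynomial.mapRingHom B.subtype))).eval
        (g τ) = 0 := by
  classical
  set x : LRing L B := ⟨g, KummerES.weak_mono hΓ le_rfl hg⟩
  have : (KummerES.actAut L B).ker.FiniteIndex :=
    Subgroup.finiteIndex_of_le (H := CongruenceSubgroup.Gamma L) fun γ hγ => by
      rw [MonoidHom.mem_ker]
      exact RingEquiv.ext fun f => Subtype.ext (f.2.2.1 γ⁻¹ (inv_mem hγ))
  have : Finite (KummerES.actAut L B).range :=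
    Finite.of_equiv _ (QuotientGroup.quotientKerEquivRange (KummerES.actAut L B)).toEquiv
  let := Fintype.ofFinite (KummerES.actAut L B).range
  set P : Polynomial (LRing L B) :=
    ∏ σ : (KummerES.actAut L B).range, (X - Polynomial.C ((σ : RingAut (LRing L B)) x)) with hP
  have hPfix : ∀ γ : SL(2, ℤ), P.map (KummerES.actAut L B γ).toRingHom = P := by
    intro γ
    rw [hP, Polynomial.map_prod]
    refine Fintype.prod_equiv (Equiv.mulLeft ⟨_, γ, rfl⟩) _ _ fun σ => ?_
    rw [Polynomial.map_sub, Polynomial.map_X, Polynomial.map_C]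
    rfl
  have hcoeff : ∀ k, ∃ c : Polynomial B, ∀ τ,
      (P.coeff k).1 τ = (c.map B.subtype).eval (jFun τ) := by
    intro k
    have hinv : ∀ (γ : SL(2, ℤ)) (τ : ℍ), (P.coeff k).1 (γ • τ) = (P.coeff k).1 τ := fun γ τ => by
      have h := congrArg (fun p => (Polynomial.coeff p k).1) (hPfix γ⁻¹)
      simp only [Polynomial.coeff_map] at h
      change ((KummerES.actAut L B γ⁻¹) (P.coeff k)).1 = _ at h
      rw [KummerES.coe_actAut, inv_inv] at h
      exact congrFun h τ
    obtain ⟨c, -, hc⟩ := exists_polynomial_of_invariant B.subtype Subtype.val_injective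
      (N := L) (f := (P.coeff k).1) (s := KummerES.expB L B 1 (P.coeff k)) hinv (P.coeff k).2.1
      (by
        rw [KummerES.coeffMap_expB, KummerES.expAt_apply]
        refine ModularAnalytic.hasExp_of_kummer ?_
        have := KummerES.hasExp_expansion (P.coeff k).2 1
        rwa [KummerES.comp_one] at this ⊢)
    exact ⟨c, hc⟩
  choose c hc using hcoeff
  have hPm : P.Monic := Polynomial.monic_prod_of_monic _ _ fun σ _ => Polynomial.monic_X_sub_C _
  refine ⟨X ^ P.natDegree + ∑ k ∈ Finset.range P.natDegree, Polynomial.monomial k (c k),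
    Polynomial.monic_X_pow_add (lt_of_le_of_lt (Polynomial.degree_sum_le _ _)
      ((Finset.sup_lt_iff (WithBot.bot_lt_coe _)).2 fun k hk => lt_of_le_of_lt
        (Polynomial.degree_monomial_le _ _) (WithBot.coe_lt_coe.2 (Finset.mem_range.1 hk)))),
    fun τ => ?_⟩
  have hroot : P.eval x = 0 := by
    rw [hP, Polynomial.eval_prod]
    exact Finset.prod_eq_zero (Finset.mem_univ 1) (by simp)
  rw [hPm.as_sum] at hroot
  simp only [Polynomial.eval_add, Polynomial.eval_pow, Polynomial.eval_X, Polynomial.eval_finsetSum,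
    Polynomial.eval_mul, Polynomial.eval_C] at hroot
  have h := congrArg (fun y : LRing L B => y.1 τ) hroot
  simp only [Subring.coe_add, SubmonoidClass.coe_pow, AddSubmonoidClass.coe_finsetSum,
    Subring.coe_mul, Pi.add_apply, Pi.pow_apply, Finset.sum_apply, Pi.mul_apply, hc,
    ZeroMemClass.coe_zero, Pi.zero_apply] at h
  simp only [Polynomial.map_add, Polynomial.map_pow, Polynomial.map_X, Polynomial.map_sum,
    Polynomial.map_monomial, RingHom.comp_apply, Polynomial.coe_mapRingHom,
    Polynomial.coe_evalRingHom, Polynomial.eval_add, Polynomial.eval_pow, Polynomial.eval_X,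
    Polynomial.eval_finsetSum, Polynomial.eval_monomial]
  exact h

/-- `j(dτ)` is weakly holomorphic with coefficients in any ring containing `ζ_N`. -/
theorem jN_mem_weak_baseB {N d : ℕ} [NeZero N] [NeZero d] {B : Subring ℂ} (hB : zetaRing N ≤ B)
    (hd : d ∣ N) : ModularAnalytic.jN d ∈ weak (Gamma0 N) N B := by
  obtain ⟨k, hk⟩ := hd
  have : NeZero k := ⟨fun h => NeZero.ne N (by simp [hk, h])⟩
  refine ⟨ModularAnalytic.mdiff_jN d, fun γ hγ => funext fun τ =>
    ModularAnalytic.jN_smul_of_mem ?_ τ, fun δ => ?_⟩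
  · rw [CongruenceSubgroup.Gamma0_mem, ZMod.intCast_zmod_eq_zero_iff_dvd] at hγ ⊢
    exact (Int.natCast_dvd_natCast.mpr (Dvd.intro k hk.symm)).trans hγ
  · refine ⟨qExpand ℂ k (ModularAnalytic.jTriSeries (Tri.act δ (Tri.top : Tri d))), fun i => ?_,
      ModularAnalytic.kummer_of_hasExp (KummerES.mdiff_comp (ModularAnalytic.mdiff_jN d) δ)
        (((ModularAnalytic.hasExp_jTri _).qExpand k hk (NeZero.ne d)).congr fun τ =>
          (ModularAnalytic.jN_smul d δ τ).symm)⟩
    set M := Tri.act δ (Tri.top : Tri d)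
    by_cases hi : (k : ℤ) ∣ i
    · obtain ⟨m, rfl⟩ := hi
      rw [qExpand_coeff_mul]
      by_cases h : ((M.a * M.a : ℕ) : ℤ) ∣ m
      · obtain ⟨e, rfl⟩ := h
        rw [ModularAnalytic.jTriSeries, subst_coeff_mul]
        refine mul_mem ?_ ?_
        · have hMd : M.d ∣ N := (Dvd.intro_left _ M.a_mul_d).trans (Dvd.intro k hk.symm)
          rw [Units.val_zpow_eq_zpow_val, Units.val_mk0,
            show Complex.exp (2 * Real.pi * I * M.b / M.d) = zetaC M.d ^ M.b by
              rw [zetaC, ← Complex.exp_nat_mul]; congr 1; ring,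
            zetaC_pow_of_dvd hMd, ← pow_mul, ← zpow_natCast, ← zpow_mul]
          exact zetaC_zpow_mem hB _
        · rw [← coeffMap_jqC (Int.castRingHom ℂ), coeffMap_coeff]
          exact intCast_mem B _
      · rw [ModularAnalytic.jTriSeries, subst_coeff_of_not_dvd _ _ _ h]
        exact zero_mem _
    · rw [qExpand_coeff_of_not_dvd k _ hi]
      exact zero_mem _

variable (A) (M N' : ℕ) [NeZero M] [NeZero N']

/-- The ring of level `Γ(M) ∩ Γ₀(N')`. -/
abbrev BaseRing : Type := weak (baseGroup M N') (M * (M * N')) (baseB A)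

variable {M N'}

omit [NeZero M] [NeZero N'] in
theorem Gamma_le_baseGroup : CongruenceSubgroup.Gamma (M * (M * N')) ≤ baseGroup M N' := by
  refine le_inf (KummerES.Gamma_le_of_dvd (dvd_mul_right _ _)) fun γ hγ => ?_
  have h := CongruenceSubgroup.Gamma_mem.1
    (KummerES.Gamma_le_of_dvd (M := N') ⟨M * M, by ring⟩ hγ)
  exact CongruenceSubgroup.Gamma0_mem.2 h.2.2.1

/-- The inclusion into the ring of full level. -/
def toLRing : BaseRing A M N' →+* LRing (M * (M * N')) (baseB A) :=
  Subring.inclusion (KummerES.weak_mono Gamma_le_baseGroup le_rfl)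

omit [NeZero M] [NeZero N'] in
/-- The inclusion into the ring of full level is injective. -/
theorem toLRing_injective : Function.Injective (toLRing A (M := M) (N' := N')) := fun _ _ h =>
  Subtype.ext (congrArg (fun z : LRing (M * (M * N')) (baseB A) => z.1) h :)

instance isDomain_baseRing : IsDomain (BaseRing A M N') :=
  haveI := KummerES.isDomain_LRing (L := M * (M * N')) (B := baseB A)
  (toLRing_injective A).isDomain

/-- The hypotheses on `(M, N', q)`. -/
structure BaseHyp (q : ℕ) (A : ValuationSubring Qb) (M N' : ℕ) : Prop where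
  level : M = 2 ∨ M = 3
  dvd : M ∣ N'
  liesOver : A.LiesOverPrime q
  prime : q.Prime
  coprime : ¬ q ∣ M * N'

variable {A} (H : BaseHyp q A M N')

include H

omit [NeZero M] [NeZero N'] in
theorem BaseHyp.not_dvd_level : ¬ q ∣ M := fun h => H.coprime (h.mul_right _)

/-- The cyclotomic ring of the full level lies in the coefficient ring. -/
theorem BaseHyp.zeta : zetaRing (M * (M * (M * N'))) ≤ baseB A :=
  zetaRing_le_baseB H.liesOver H.prime fun h => by
    rcases (Nat.Prime.dvd_mul H.prime).1 h with h | h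
    · exact H.not_dvd_level h
    rcases (Nat.Prime.dvd_mul H.prime).1 h with h | h
    · exact H.not_dvd_level h
    · exact H.coprime h

/-- The level structure of full level `M² N'`. -/
def BaseHyp.levelHyp : LevelHyp M (M * (M * N')) (baseB A) where
  D := KummerES.ratioData _
  T := KummerES.baseData M _ H.level (dvd_mul_right _ _)
  le := zetaRing_le_of_dvd H.zeta (dvd_mul_left _ _)
  two_le := by rcases H.level with h | h <;> omega
  dvd := dvd_mul_right _ _

/-- The good special fibre at `q` of the ring of full level. -/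
theorem BaseHyp.specialFibre :
    KummerES.SpecialFibre (M * (M * N')) (baseB A) (q : ℂ)
      (coeffHyp_baseB H.liesOver H.prime).mem :=
  H.levelHyp.specialFibre (coeffHyp_baseB H.liesOver H.prime)

theorem isIntegrallyClosed_LRing : IsIntegrallyClosed (LRing (M * (M * N')) (baseB A)) := by
  have := KummerES.isDomain_LRing (L := M * (M * N')) (B := baseB A)
  refine IsIntegrallyClosed.of_localization_maximal fun p _ hp => ?_
  have := H.specialFibre.ufd p
  infer_instance

omit H in
/-- An element of the full level ring which becomes invariant after multiplication is invariant. -/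
theorem exists_eq_of_mul_mem {a b : BaseRing A M N'} (hb : b ≠ 0)
    {l : LRing (M * (M * N')) (baseB A)} (h : toLRing A a = l * toLRing A b) :
    ∃ c : BaseRing A M N', toLRing A c = l := by
  have := KummerES.isDomain_LRing (L := M * (M * N')) (B := baseB A)
  refine ⟨⟨l.1, l.2.1, fun γ hγ => ?_, l.2.2.2⟩, Subtype.ext rfl⟩
  have h1 : (⟨comp l.1 γ, KummerES.comp_mem_weak l.2 γ⟩ : LRing (M * (M * N')) (baseB A)) *
      toLRing A b = l * toLRing A b := by
    refine Subtype.ext (funext fun τ => ?_)
    have e1 := congrFun (congrArg Subtype.val h) (γ • τ)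
    have e2 := congrFun (congrArg Subtype.val h) τ
    have ea := congrFun (a.2.2.1 γ hγ) τ
    have eb := congrFun (b.2.2.1 γ hγ) τ
    simp only [toLRing, Subring.coe_inclusion, KummerES.comp_apply, Subring.coe_mul,
      Pi.mul_apply] at e1 e2 ea eb ⊢
    rw [← eb, ← e1, ea, e2, eb]
  exact congrArg Subtype.val (mul_right_cancel₀ ((map_ne_zero_iff _ (toLRing_injective A)).2 hb) h1)

omit H

variable (M N') in
/-- `f ↦ f (M τ)`. -/
def upFun (f : ℍ → ℂ) (τ : ℍ) : ℂ := f ((Tri.top : Tri M).map τ)

include H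

/-- `f (M τ)` is a weakly holomorphic function of level `Γ₀(M N')`. -/
theorem upFun_mem (f : BaseRing A M N') :
    upFun M f.1 ∈ weak (Gamma0 (M * N')) (M * (M * (M * N'))) (baseB A) :=
  comp_tri_mem_weak H.zeta f.2 Tri.top fun _ hγ τ => comp_top_invariant H.level H.dvd f.2.2.1 hγ τ

/-- `f ↦ f (M τ)`, into the functions of level `Γ₀(M N')`. -/
def upHom : BaseRing A M N' →+*
    weak (Gamma0 (M * N')) (M * (M * (M * N'))) iotaC.range where
  toFun f := ⟨upFun M f.1, KummerES.weak_mono le_rfl (baseB_le_range A) (upFun_mem H f)⟩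
  map_one' := rfl
  map_mul' _ _ := rfl
  map_zero' := rfl
  map_add' _ _ := rfl

/-- The expansion at infinity of `f (M τ)`. -/
def baseMap : BaseRing A M N' →+* modularFunctionFieldBar (M * N') :=
  (ModularAnalytic.toField (M * N') (M * (M * (M * N'))) iotaC).comp (upHom H)

theorem baseMap_injective : Function.Injective (baseMap H) := by
  refine (ModularAnalytic.toField_injective _ _ iotaC).comp fun f g h => ?_
  refine Subtype.ext (funext fun τ => ?_)
  have := congrFun (congrArg Subtype.val h) ((low M).map τ)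
  have hlow : (Tri.top : Tri M).map ((low M).map τ) = τ := by
    refine UpperHalfPlane.ext ?_
    rw [coe_top_map, coe_low_map, mul_div_cancel₀]
    exact_mod_cast NeZero.ne M
  change f.1 ((Tri.top : Tri M).map ((low M).map τ)) =
    g.1 ((Tri.top : Tri M).map ((low M).map τ)) at this
  rwa [hlow] at this

theorem baseMap_coeff (f : BaseRing A M N') (n : ℤ) :
    (baseMap H f : LaurentSeries Qb).coeff n ∈ unramInt A := by
  have h := ModularAnalytic.qExpand_coeffMap_toField (M * N') (M * (M * (M * N'))) iotaC (upHom H f)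
  have hmem := KummerES.expansion_mem (upFun_mem H f) 1
    (((M * (M * (M * N')) : ℕ) : ℤ) * n)
  rw [KummerES.comp_one] at hmem
  change (KummerES.expansion _ (upHom H f).1).coeff _ ∈ _ at hmem
  rw [← h, qExpand_coeff_mul, coeffMap_coeff] at hmem
  obtain ⟨c, hc, hc'⟩ := hmem
  exact (iotaC.injective hc') ▸ hc

theorem baseMap_mem_model (f : BaseRing A M N') : baseMap H f ∈ model A (M * N') := by
  refine (mem_model_iff A (M * N')).2 ⟨CarayolFF.mem_levelField_of_coeff _ (baseMap H f).2
    fun n => Local.mem_inertiaField_iff.2 (mem_unramInt_iff.1 (baseMap_coeff H f n)).2, ?_⟩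
  have hΓ : CongruenceSubgroup.Gamma (M * (M * (M * N'))) ≤ Gamma0 (M * N') := fun γ hγ =>
    CongruenceSubgroup.Gamma0_mem.2 (CongruenceSubgroup.Gamma_mem.1
      (KummerES.Gamma_le_of_dvd (M := M * N') ⟨M * M, by ring⟩ hγ)).2.2.1
  obtain ⟨Q, hQ, hQg⟩ := exists_poly_j hΓ (upFun_mem H f)
  set W := weak (Gamma0 (M * N')) (M * (M * (M * N'))) iotaC.range
  have hjmem := ModularAnalytic.jN_mem_weak (K := Qb) (M * N') (M * (M * (M * N'))) iotaC
    (one_dvd _) (one_dvd _)
  let cW : baseB A →+* W :=
    { toFun := fun c => ⟨fun _ => c.1, KummerES.const_mem_weak (baseB_le_range A c.2)⟩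
      map_one' := rfl, map_mul' := fun _ _ => rfl, map_zero' := rfl, map_add' := fun _ _ => rfl }
  let ev : Polynomial (baseB A) →+* W := Polynomial.eval₂RingHom cW ⟨_, hjmem⟩
  have hjN1 : ∀ τ, ModularAnalytic.jN 1 τ = jFun τ := fun τ => by
    rw [ModularAnalytic.jN]
    congr 1
    exact UpperHalfPlane.ext (by rw [coe_top_map]; simp)
  have hroot : Q.eval₂ ev (upHom H f) = 0 := by
    refine Subtype.ext (funext fun τ => ?_)
    let pe : W →+* ℂ := (Pi.evalRingHom (fun _ : ℍ => ℂ) τ).comp W.subtype
    show pe (Q.eval₂ ev (upHom H f)) = 0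
    rw [Polynomial.hom_eval₂]
    have := hQg τ
    rw [Polynomial.eval_map] at this
    refine Eq.trans ?_ this
    congr 1
    refine Polynomial.ringHom_ext (fun c => ?_) ?_
    · simp [ev, pe]; rfl
    · simp [ev, pe]; exact hjN1 τ
  have hroot' := congrArg (fun y => ((ModularAnalytic.toField (M * N') (M * (M * (M * N'))) iotaC y :
    modularFunctionFieldBar (M * N')) : LaurentSeries Qb)) hroot
  let θ : W →+* LaurentSeries Qb := (modularFunctionFieldBar (M * N')).val.toRingHom.comp
    (ModularAnalytic.toField (M * N') (M * (M * (M * N'))) iotaC)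
  change θ (Q.eval₂ ev (upHom H f)) = θ 0 at hroot'
  rw [Polynomial.hom_eval₂, map_zero] at hroot'
  let g : Polynomial (baseB A) →+* jPolyRing (unramInt A) :=
    Polynomial.eval₂RingHom
      (((HahnSeries.C : Qb →+* LaurentSeries Qb).comp (unramInt A).subtype).codRestrict _
        (fun c => Local.C_mem_jPolyRing c.2) |>.comp (baseBEquiv A).symm.toRingHom)
      ⟨jBar, Local.jBar_mem_jPolyRing⟩
  refine ⟨Q.map g, hQ.map _, ?_⟩
  rw [Polynomial.eval₂_map]
  refine Eq.trans ?_ hroot'
  congr 1
  refine Polynomial.ringHom_ext (fun c => ?_) ?_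
  · rw [RingHom.comp_apply, RingHom.comp_apply]
    simp only [g, ev, Polynomial.coe_eval₂RingHom, Polynomial.eval₂_C]
    refine Eq.symm (ModularAnalytic.toField_eq _ _ iotaC ?_)
    refine (ModularFunctionField.HasExp.const _ (c : ℂ)).congr_series ?_
    show _ = qExpand ℂ _ (coeffMap iotaC (HahnSeries.C (((baseBEquiv A).symm c : unramInt A) : Qb)))
    rw [coeffMap_C, qExpand_C, ← coe_baseBEquiv, RingEquiv.apply_symm_apply]
  · rw [RingHom.comp_apply, RingHom.comp_apply]
    simp only [g, ev, Polynomial.coe_eval₂RingHom, Polynomial.eval₂_X]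
    refine Eq.symm ((ModularAnalytic.toField_jN (M * N') _ iotaC (one_dvd _) (one_dvd _)).trans ?_)
    rw [qExpand_one_apply]
    exact (congrArg (coeffEmb Qb) jqModC_rat.symm).trans (coeffMap_jqC _) |>.symm

/-- The map to the model. -/
def baseModel : BaseRing A M N' →+* model A (M * N') :=
  (baseMap H).codRestrict _ (baseMap_mem_model H)

/-- The model map is the base map, on underlying series. -/
theorem coe_baseModel (f : BaseRing A M N') :
    (baseModel H f : modularFunctionFieldBar (M * N')) = baseMap H f := rfl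

theorem baseModel_injective : Function.Injective (baseModel H) := fun _ _ h =>
  baseMap_injective H (congrArg Subtype.val h)

/-- Every generator of the level field is in the image. -/
theorem baseMap_range_mem_jqd {d : ℕ} [NeZero d] (hd : d ∣ M * N') :
    ∃ f, (baseMap H f : LaurentSeries Qb) = qExpand Qb d (jqModC Qb) := by
  have hz : zetaRing (M * N') ≤ baseB A := zetaRing_le_of_dvd H.zeta ⟨M * M, by ring⟩
  have hmem := comp_tri_mem_weak (zetaRing_le_of_dvd H.zeta (dvd_mul_left _ _))
    (jN_mem_weak_baseB hz hd) (low M)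
    (fun γ hγ τ => comp_low_invariant (jN_mem_weak_baseB hz hd).2.1 hγ τ)
  refine ⟨⟨_, hmem⟩, ?_⟩
  have hj := ModularAnalytic.toField_jN (K := Qb) (M * N') (M * (M * (M * N'))) iotaC hd
    (hd.trans ⟨M * M, by ring⟩)
  rw [← hj]
  show ((ModularAnalytic.toField _ _ iotaC _ : modularFunctionFieldBar (M * N')) :
    LaurentSeries Qb) = _
  refine congrArg (fun z => ((ModularAnalytic.toField (M * N') (M * (M * (M * N'))) iotaC z :
    modularFunctionFieldBar (M * N')) : LaurentSeries Qb)) ?_
  exact Subtype.ext (_root_.funext fun τ => congrArg (ModularAnalytic.jN d) (low_map_top_map τ))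

theorem baseMap_range_mem_const {c : Qb} (hc : c ∈ unramInt A) :
    ∃ f, (baseMap H f : LaurentSeries Qb) = HahnSeries.C c := by
  refine ⟨⟨fun _ => iotaC c, KummerES.const_mem_weak ⟨c, hc, rfl⟩⟩, ?_⟩
  refine ModularAnalytic.toField_eq _ _ iotaC ((ModularFunctionField.HasExp.const _ (iotaC c)).congr_series ?_)
  rw [coeffMap_C, qExpand_C]

theorem baseModel_surjective : Function.Surjective (baseModel H) := by
  classical
  intro x
  set θ : BaseRing A M N' →+* LaurentSeries Qb :=
    (modularFunctionFieldBar (M * N')).val.toRingHom.comp (baseMap H) with hθ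
  have hθinj : Function.Injective θ := Subtype.val_injective.comp (baseMap_injective H)
  obtain ⟨hxl, hxi⟩ := (mem_model_iff A (M * N')).1 x.2
  -- the level field is contained in the fractions of the image
  have hle : levelField (inertiaField A) (M * N') ≤ Subfield.closure (θ.range : Set (LaurentSeries Qb)) := by
    refine Subfield.closure_le.2 ?_
    rintro _ (⟨c, hc, rfl⟩ | ⟨_, ⟨d, hd, hdN, rfl⟩, rfl⟩)
    · obtain ⟨j, hj⟩ := Local.exists_mul_pow_mem H.liesOver H.prime c
      have hw : c * (q : Qb) ^ j ∈ unramInt A := mem_unramInt_iff.2 ⟨hj, fun σ hσ => by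
        rw [map_mul, map_pow, map_natCast, Local.mem_inertiaField_iff.1 hc σ hσ]⟩
      obtain ⟨f, hf⟩ := baseMap_range_mem_const H hw
      rw [Local.algebraMap_eq_C, show c = c * (q : Qb) ^ j * ((q : Qb) ^ j)⁻¹ by
        rw [mul_assoc, mul_inv_cancel₀ (pow_ne_zero _ (Nat.cast_ne_zero.2 H.prime.ne_zero)), mul_one],
        map_mul, map_inv₀, ← hf]
      refine mul_mem (Subfield.subset_closure ⟨f, rfl⟩) (inv_mem ?_)
      rw [map_pow, map_natCast]
      exact pow_mem (natCast_mem _ q) j
    · obtain ⟨f, hf⟩ := baseMap_range_mem_jqd H hdN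
      rw [ModularAnalytic.coeffEmb_qExpand_jq, ← hf]
      exact Subfield.subset_closure ⟨f, rfl⟩
  obtain ⟨y, hy, z, hz, hyz⟩ := Subfield.mem_closure_iff.1 (hle hxl)
  rw [Subring.closure_eq] at hy hz
  obtain ⟨a, rfl⟩ := hy
  obtain ⟨b, rfl⟩ := hz
  rcases eq_or_ne b 0 with rfl | hb
  · refine ⟨0, Subtype.ext (Subtype.ext ?_)⟩
    rw [map_zero, ← hyz, map_zero θ, div_zero]
    rfl
  -- integrality over the image
  have hjle : jPolyRing (unramInt A) ≤ θ.range := by
    refine Subring.closure_le.2 (Set.union_subset ?_ ?_)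
    · rintro _ ⟨c, hc, rfl⟩
      obtain ⟨f, hf⟩ := baseMap_range_mem_const H hc
      exact ⟨f, by rw [Local.algebraMap_eq_C]; exact hf⟩
    · rintro _ rfl
      obtain ⟨f, hf⟩ := baseMap_range_mem_jqd H (one_dvd _)
      exact ⟨f, hf.trans (by rw [qExpand_one_apply]; exact
        ((congrArg (coeffEmb Qb) jqModC_rat.symm).trans (coeffMap_jqC _)).symm)⟩
  obtain ⟨P, hP, hPx⟩ := hxi
  have hlift : P.map (jPolyRing (unramInt A)).subtype ∈ Polynomial.lifts θ := by
    rw [Polynomial.lifts_iff_coeff_lifts]
    intro n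
    rw [Polynomial.coeff_map]
    exact hjle (P.coeff n).2
  obtain ⟨P₀, hP₀, -, hP₀m⟩ := Polynomial.lifts_and_degree_eq_and_monic hlift (hP.map _)
  have hroot : P₀.eval₂ θ (θ a / θ b) = 0 := by
    rw [hyz, ← Polynomial.eval_map, hP₀, Polynomial.eval_map]
    exact hPx
  have := KummerES.isDomain_LRing (L := M * (M * N')) (B := baseB A)
  have := isIntegrallyClosed_LRing H
  obtain ⟨l, hal⟩ := exists_mul_of_isIntegral_div θ hθinj (toLRing A) (toLRing_injective A) hP₀m hb hroot
  obtain ⟨c, hc⟩ := exists_eq_of_mul_mem hb hal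
  refine ⟨c, Subtype.ext (Subtype.ext ?_)⟩
  show θ c = _
  rw [← hyz, eq_div_iff ((map_ne_zero_iff θ hθinj).2 hb), ← map_mul]
  refine congrArg θ (toLRing_injective A ?_)
  rw [map_mul, hc, hal]

/-- The model of level `M N'` is the invariant ring. -/
def baseEquiv : BaseRing A M N' ≃+* model A (M * N') :=
  RingEquiv.ofBijective (baseModel H) ⟨baseModel_injective H, baseModel_surjective H⟩

end Fermat.Agent.Hauptmodul
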