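import Fermat.Agent.Hauptmodul.BaseHauptmodul

/-!
# Functions of level `M` are polynomials in the Hauptmodul

An element of the invariant ring which is invariant under all of `Γ(M)` becomes, after
multiplication by a power of `B(t)`, a polynomial in `t` with coefficients in the base ring.
-/

set_option autoImplicit false

noncomputable section

open Complex ModularCurve Polynomial Filter
open UpperHalfPlane hiding I
open CongruenceSubgroup (Gamma Gamma0)
open scoped MatrixGroups Manifold Topology
open Fermat.Agent.ModularFunctionField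
open Fermat.Agent.Carayol

namespace Fermat.Agent.Hauptmodul

open KummerES (weak comp coeffSubring LRing)

local notation "Qb" => AlgebraicClosure ℚ
local notation "Δ" => ModularForm.discriminant

theorem coeff_mul_eq_zero_of_lt {R : Type*} [CommRing R] {x y : LaurentSeries R} {a b : ℤ}
    (hx : ∀ i < a, x.coeff i = 0) (hy : ∀ i < b, y.coeff i = 0) {i : ℤ} (hi : i < a + b) :
    (x * y).coeff i = 0 := by
  rw [HahnSeries.coeff_mul]
  refine Finset.sum_eq_zero fun p hp => ?_
  rw [Finset.mem_antidiagonal] at hp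
  obtain ⟨h1, h2, h3⟩ := hp
  exfalso
  have ha : a ≤ p.1 := not_lt.1 fun h => h1 (hx _ h)
  have hb : b ≤ p.2 := not_lt.1 fun h => h2 (hy _ h)
  omega

theorem coeff_pow_eq_zero_of_lt {R : Type*} [CommRing R] {x : LaurentSeries R} {a : ℤ}
    (hx : ∀ i < a, x.coeff i = 0) (n : ℕ) {i : ℤ} (hi : i < n * a) : (x ^ n).coeff i = 0 := by
  induction n generalizing i with
  | zero => simp only [Nat.cast_zero, zero_mul] at hi; simp [HahnSeries.coeff_one, hi.ne]
  | succ n ih =>
    rw [pow_succ]
    exact coeff_mul_eq_zero_of_lt (a := n * a) (b := a) (fun j hj => ih hj) hx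
      (by push_cast at hi; linarith)

theorem isBounded_eval (P : ℂ[X]) {u : ℍ → ℂ} (hu : IsBoundedAtImInfty u) :
    IsBoundedAtImInfty fun τ => P.eval (u τ) := by
  induction P using Polynomial.induction_on with
  | C c =>
    simp only [Polynomial.eval_C]
    exact Filter.const_boundedAtFilter atImInfty c
  | add p r hp hr => simp only [Polynomial.eval_add]; exact hp.add hr
  | monomial n c ih =>
    have h := ih.mul hu
    refine h.congr_left fun τ => ?_
    simp [pow_succ, mul_assoc]

theorem isBounded_E4_inv : IsBoundedAtImInfty fun τ : ℍ => (ModularForm.E₄ τ)⁻¹ := by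
  have h : Tendsto (ModularForm.E₄ : ℍ → ℂ) atImInfty (𝓝 1) := by
    have := hasExp_E4.tendsto one_ne_zero fun i hi => intSeries_coeff_of_neg _ _ hi
    rwa [e4C_coeff_zero] at this
  exact (h.inv₀ one_ne_zero).isBigO_one ℝ

variable {A : ValuationSubring Qb} {q M N' : ℕ} [NeZero M] [NeZero N'] (H : BaseHyp q A M N')

/-- The constants of the invariant ring. -/
def constB (A : ValuationSubring Qb) (M N' : ℕ) [NeZero M] [NeZero N'] :
    baseB A →+* BaseRing A M N' where
  toFun c := ⟨fun _ => (c : ℂ), KummerES.const_mem_weak c.2⟩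
  map_one' := rfl
  map_mul' _ _ := rfl
  map_zero' := rfl
  map_add' _ _ := rfl

/-- Evaluation at `M τ`. -/
def upEval (τ : ℍ) : BaseRing A M N' →+* ℂ :=
  (Pi.evalRingHom (fun _ : ℍ => ℂ) ((Tri.top : Tri M).map τ)).comp (Subring.subtype _)

omit [NeZero N'] in
theorem upEval_apply (τ : ℍ) (f : BaseRing A M N') : upEval τ f = upFun M f.1 τ := rfl

omit [NeZero N'] in
theorem ext_upEval {f g : BaseRing A M N'} (h : ∀ τ, upEval τ f = upEval τ g) : f = g := by
  refine Subtype.ext (_root_.funext fun τ => ?_)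
  have hlow : (Tri.top : Tri M).map ((low M).map τ) = τ := by
    refine UpperHalfPlane.ext ?_
    rw [coe_top_map, coe_low_map, mul_div_cancel₀]
    exact_mod_cast NeZero.ne M
  have := h ((low M).map τ)
  rwa [upEval_apply, upEval_apply, upFun, upFun, hlow] at this

include H

/-- A function of level `M` times a power of `B(t)` is a polynomial in `t`. -/
theorem exists_eval_tBase (f : BaseRing A M N') (hf : ∀ γ ∈ CongruenceSubgroup.Gamma M, comp f.1 γ = f.1) :
    ∃ (n : ℕ) (P : (baseB A)[X]),
      f * polyB (M * M) (tBase H) ^ n = P.eval₂ (constB A M N') (tBase H) := by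
  classical
  set L2 := M * (M * (M * N')) with hL2
  have hΓ : CongruenceSubgroup.Gamma L2 ≤ Gamma0 (M * N') := fun γ hγ =>
    CongruenceSubgroup.Gamma0_mem.2 (CongruenceSubgroup.Gamma_mem.1
      (KummerES.Gamma_le_of_dvd (M := M * N') ⟨M * M, by ring⟩ hγ)).2.2.1
  set x : LRing L2 (baseB A) := ⟨_, KummerES.weak_mono hΓ le_rfl (upFun_mem H f)⟩
  have : (KummerES.actAut L2 (baseB A)).ker.FiniteIndex :=
    Subgroup.finiteIndex_of_le (H := CongruenceSubgroup.Gamma L2) fun γ hγ => by
      rw [MonoidHom.mem_ker]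
      exact RingEquiv.ext fun f => Subtype.ext (f.2.2.1 γ⁻¹ (inv_mem hγ))
  have : Finite (KummerES.actAut L2 (baseB A)).range :=
    Finite.of_equiv _ (QuotientGroup.quotientKerEquivRange (KummerES.actAut L2 (baseB A))).toEquiv
  let := Fintype.ofFinite (KummerES.actAut L2 (baseB A)).range
  -- a uniform bound for the orders at the cusps
  obtain ⟨n, hn⟩ : ∃ n : ℕ, ∀ δ : SL(2, ℤ), ∀ i : ℤ, i < -(n : ℤ) →
      (KummerES.expansion L2 (comp (upFun M f.1) δ)).coeff i = 0 := by
    refine ⟨Finset.univ.sup fun σ : (KummerES.actAut L2 (baseB A)).range =>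
      (-(KummerES.expansion L2 ((σ : RingAut (LRing L2 (baseB A))) x).1).order).toNat, fun δ i hi => ?_⟩
    refine HahnSeries.coeff_eq_zero_of_lt_order ?_
    have h := Finset.le_sup (f := fun σ : (KummerES.actAut L2 (baseB A)).range =>
      (-(KummerES.expansion L2 ((σ : RingAut (LRing L2 (baseB A))) x).1).order).toNat)
      (Finset.mem_univ ⟨KummerES.actAut L2 (baseB A) δ⁻¹, δ⁻¹, rfl⟩)
    simp only [KummerES.coe_actAut, inv_inv, x] at h hi
    omega
  set F : BaseRing A M N' := f * polyB (M * M) (tBase H) ^ n with hF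
  have hFval : ∀ τ, upFun M F.1 τ = upFun M f.1 τ * polyB (M * M) (uFun (M * M) τ) ^ n := fun τ => by
    rw [← upEval_apply, hF, map_mul, map_pow, polyB_map]
    simp only [upEval_apply, upFun_tBase H]
  have hFinv : ∀ γ ∈ Gamma0 (M * M), ∀ τ, upFun M F.1 (γ • τ) = upFun M F.1 τ := fun γ hγ τ => by
    have hg : upFun M f.1 (γ • τ) = upFun M f.1 τ :=
      comp_top_invariant H.level (dvd_refl M)
        (fun δ hδ => hf δ (Subgroup.mem_inf.1 hδ).1) hγ τ
    rw [hFval, hFval, hg, uFun_smul H.level_sq γ hγ]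
  have hbd : ∀ δ : SL(2, ℤ), δ ∉ Gamma0 (M * M) →
      IsBoundedAtImInfty fun τ => upFun M F.1 (δ • τ) := by
    intro δ hδ
    have hg := ModularAnalytic.hasExp_of_kummer (KummerES.hasExp_expansion (upFun_mem H f) δ)
    have hD := (hasExp_discriminant.qExpand L2 (one_mul L2).symm one_ne_zero).pow n
    have h1 : IsBoundedAtImInfty fun τ => comp (upFun M f.1) δ τ * Δ τ ^ n := by
      refine ((hg.mul hD).tendsto (NeZero.ne L2) fun i hi => ?_).isBigO_one ℝ
      refine coeff_mul_eq_zero_of_lt (a := -(n : ℤ)) (b := n * (L2 : ℤ)) (hn δ) (fun j hj =>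
        coeff_pow_eq_zero_of_lt (fun k hk => ?_) n hj) ?_
      · by_cases hd : (L2 : ℤ) ∣ k
        · obtain ⟨e, rfl⟩ := hd
          rw [qExpand_coeff_mul]
          exact deltaC_coeff_of_lt _ (by
            have : (0 : ℤ) < L2 := by exact_mod_cast Nat.pos_of_ne_zero (NeZero.ne L2)
            nlinarith)
        · rw [qExpand_coeff_of_not_dvd _ _ hd]
      · have : (1 : ℤ) ≤ L2 := by exact_mod_cast Nat.one_le_iff_ne_zero.2 (NeZero.ne L2)
        nlinarith
    have hA := isBounded_eval (polyA (M * M) (X : ℂ[X]))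
      (isBounded_uFun_smul H.level_sq δ hδ)
    have hevA : ∀ z : ℂ, (polyA (M * M) (X : ℂ[X])).eval z = polyA (M * M) z := fun z => by
      rw [← Polynomial.coe_evalRingHom, polyA_map, Polynomial.coe_evalRingHom, Polynomial.eval_X]
    simp only [hevA] at hA
    have hA3 : IsBoundedAtImInfty fun τ =>
        polyA (M * M) (uFun (M * M) (δ • τ)) ^ (3 * n) * ((ModularForm.E₄ τ)⁻¹) ^ (3 * n) := by
      refine Filter.BoundedAtFilter.mul ?_ ?_
      · exact (hA.pow (3 * n)).congr_right fun τ => one_pow _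
      · exact (isBounded_E4_inv.pow (3 * n)).congr_right fun τ => one_pow _
    have hb := Filter.BoundedAtFilter.mul h1 hA3
    refine hb.congr' ?_ EventuallyEq.rfl
    have hE : Tendsto (ModularForm.E₄ : ℍ → ℂ) atImInfty (𝓝 1) := by
      have := hasExp_E4.tendsto one_ne_zero fun i hi => intSeries_coeff_of_neg _ _ hi
      rwa [e4C_coeff_zero] at this
    filter_upwards [hE.eventually_ne one_ne_zero] with τ hτ
    have hj := jFun_mul_polyB H.level_sq (δ • τ)
    rw [jFun_invariant, jFun] at hj
    have hB : polyB (M * M) (uFun (M * M) (δ • τ)) =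
        Δ τ * polyA (M * M) (uFun (M * M) (δ • τ)) ^ 3 * ((ModularForm.E₄ τ)⁻¹) ^ 3 := by
      rw [← hj]
      field_simp [ModularForm.discriminant_ne_zero τ]
    rw [hFval, hB]
    simp only [Pi.mul_apply, KummerES.comp_apply]
    ring
  have hsF := KummerES.hasExp_expansion (upFun_mem H F) 1
  rw [KummerES.comp_one] at hsF
  have hmem : KummerES.expansion L2 (upFun M F.1) ∈ coeffSubring (baseB A) := by
    have := KummerES.expansion_mem (upFun_mem H F) 1
    rwa [KummerES.comp_one] at this
  obtain ⟨P, -, hP⟩ := exists_polynomial H.level_sq (baseB A).subtype Subtype.val_injective (L := L2)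
    (s := KummerES.liftCoeff _ ⟨_, hmem⟩) hFinv (upFun_mem H F).1 hbd
    (by rw [KummerES.coeffMap_liftCoeff]; exact ModularAnalytic.hasExp_of_kummer hsF)
  refine ⟨n, P, ext_upEval fun τ => ?_⟩
  rw [← hF, upEval_apply, hP, Polynomial.hom_eval₂, Polynomial.eval_map, upEval_apply,
    upFun_tBase H]
  rfl

end Fermat.Agent.Hauptmodul
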