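import Fermat.Agent.Hauptmodul.Invariance
import Fermat.Agent.KummerES.LevelMain
import Fermat.Agent.ModularAnalytic.WeakField

/-!
# `Γ₀(M N')`-functions and `Γ(M) ∩ Γ₀(N')`-functions

Precomposition with `τ ↦ M τ` and `τ ↦ τ/M` between the rings of weakly holomorphic functions.
-/

set_option autoImplicit false

noncomputable section

open Complex ModularCurve
open UpperHalfPlane hiding I
open CongruenceSubgroup (Gamma Gamma0)
open scoped MatrixGroups Manifold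
open Fermat.Agent.ModularFunctionField

namespace Fermat.Agent.Hauptmodul

open KummerES (zetaC zetaRing weak comp coeffSubring)

/-- Powers of `ζ_L` lie in any ring containing the level `L` cyclotomic ring. -/
theorem zetaC_zpow_mem {L : ℕ} [NeZero L] {B : Subring ℂ} (hB : zetaRing L ≤ B) (i : ℤ) :
    zetaC L ^ i ∈ B := by
  rw [← Int.emod_add_mul_ediv i L, zpow_add₀ (KummerES.zetaC_ne_zero L), zpow_mul, zpow_natCast,
    (KummerES.isPrimitiveRoot_zetaC L).pow_eq_one, one_zpow, mul_one]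
  obtain ⟨k, hk⟩ := Int.eq_ofNat_of_zero_le
    (Int.emod_nonneg i (by exact_mod_cast NeZero.ne L : (L : ℤ) ≠ 0))
  rw [hk, zpow_natCast]
  exact pow_mem (hB (KummerES.zetaC_mem_zetaRing L)) k

/-- `ζ_d` is a power of `ζ_L` for `d ∣ L`. -/
theorem zetaC_pow_of_dvd {L d : ℕ} [NeZero L] (h : d ∣ L) : zetaC d = zetaC L ^ (L / d) := by
  obtain ⟨e, rfl⟩ := h
  have hd : (d : ℂ) ≠ 0 := by exact_mod_cast left_ne_zero_of_mul (NeZero.ne (d * e))
  have he : (e : ℂ) ≠ 0 := by exact_mod_cast right_ne_zero_of_mul (NeZero.ne (d * e))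
  rw [Nat.mul_div_cancel_left _ (Nat.pos_of_ne_zero (left_ne_zero_of_mul (NeZero.ne (d * e)))),
    zetaC, zetaC, ← Complex.exp_nat_mul]
  congr 1
  push_cast
  field_simp

/-- The cyclotomic ring of a divisor of the level is contained in any ring containing that of the
level. -/
theorem zetaRing_le_of_dvd {L d : ℕ} [NeZero L] {B : Subring ℂ} (hB : zetaRing L ≤ B) (h : d ∣ L) :
    zetaRing d ≤ B := by
  refine Subring.closure_le.mpr ?_
  rintro x (rfl | rfl)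
  · rw [zetaC_pow_of_dvd h]
    exact pow_mem (hB (KummerES.zetaC_mem_zetaRing L)) _
  · obtain ⟨e, rfl⟩ := h
    rw [show ((d : ℂ))⁻¹ = ((d * e : ℕ) : ℂ)⁻¹ * (e : ℂ) by
      have hd : (d : ℂ) ≠ 0 := by exact_mod_cast left_ne_zero_of_mul (NeZero.ne (d * e))
      have he : (e : ℂ) ≠ 0 := by exact_mod_cast right_ne_zero_of_mul (NeZero.ne (d * e))
      push_cast
      field_simp]
    exact mul_mem (hB (KummerES.inv_natCast_mem_zetaRing _)) (natCast_mem B e)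

/-- Expansions of `f ∘ M` for a primitive triangular matrix `M`. -/
theorem hasExp_comp_tri {m L : ℕ} [NeZero m] [NeZero L] (M : Tri m) {f : ℍ → ℂ}
    {s : LaurentSeries ℂ} (h : KummerES.HasExp L f s) :
    haveI : NeZero (M.a * M.a) := ⟨mul_ne_zero M.a_pos.ne' M.a_pos.ne'⟩
    KummerES.HasExp (m * L) (fun τ => f (M.map τ))
      (qExpand ℂ (M.a * M.a) (KummerES.twist (zetaC (m * L) ^ (M.a * M.b))
        (pow_ne_zero _ (KummerES.zetaC_ne_zero _)) s)) := by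
  have : NeZero (M.a * M.a) := ⟨mul_ne_zero M.a_pos.ne' M.a_pos.ne'⟩
  refine h.subst (L' := m * L) M.map _ (M.a * M.a) fun τ => ?_
  have ha : (M.a : ℂ) ≠ 0 := by exact_mod_cast M.a_pos.ne'
  have hd : (M.d : ℂ) ≠ 0 := by exact_mod_cast M.d_pos.ne'
  have hL : (L : ℂ) ≠ 0 := by exact_mod_cast NeZero.ne L
  have hm : (m : ℂ) = (M.a : ℂ) * M.d := by exact_mod_cast M.a_mul_d.symm
  rw [KummerES.qL, KummerES.qL, zetaC, Function.Periodic.qParam, Function.Periodic.qParam,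
    ← Complex.exp_nat_mul, ← Complex.exp_nat_mul, ← Complex.exp_add, Tri.coe_map]
  congr 1
  push_cast
  rw [hm]
  field_simp
  ring

/-- `f ∘ M` is weakly holomorphic when it is invariant. -/
theorem comp_tri_mem_weak {m L : ℕ} [NeZero m] [NeZero L] {B : Subring ℂ}
    (hB : zetaRing (m * L) ≤ B) {Γ Γ' : Subgroup SL(2, ℤ)} {f : ℍ → ℂ} (hf : f ∈ weak Γ L B)
    (M : Tri m) (hinv : ∀ γ ∈ Γ', ∀ τ, f (M.map (γ • τ)) = f (M.map τ)) :
    (fun τ => f (M.map τ)) ∈ weak Γ' (m * L) B := by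
  refine ⟨M.mdiff_comp hf.1, fun γ hγ => funext fun τ => hinv γ hγ τ, fun δ => ?_⟩
  obtain ⟨s, hs, hs'⟩ := hf.2.2 (Tri.actMatrix δ M)
  set M' := Tri.act δ M
  have : NeZero (M'.a * M'.a) := ⟨mul_ne_zero M'.a_pos.ne' M'.a_pos.ne'⟩
  have h := hasExp_comp_tri M' hs'
  refine ⟨_, fun i => ?_, fun τ => by
    simpa only [KummerES.comp_apply, (M.map_smul δ τ).1] using h τ⟩
  by_cases hi : ((M'.a * M'.a : ℕ) : ℤ) ∣ i
  · obtain ⟨k, rfl⟩ := hi
    rw [qExpand_coeff_mul, KummerES.twist_coeff, ← zpow_natCast, ← zpow_mul]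
    exact mul_mem (zetaC_zpow_mem hB _) (hs k)
  · rw [qExpand_coeff_of_not_dvd _ _ hi]
    exact zero_mem _

variable (M N' : ℕ)

/-- `Γ(M) ∩ Γ₀(N')`. -/
def baseGroup : Subgroup SL(2, ℤ) := Gamma M ⊓ Gamma0 N'

/-- `τ ↦ τ / M`. -/
def low [NeZero M] : Tri M := Tri.mk 1 0 M (one_mul M) (NeZero.pos M) (by simp)

variable {M N'}

/-- `low M` is `τ ↦ τ/M`. -/
theorem coe_low_map [NeZero M] (τ : ℍ) : ((low M).map τ : ℂ) = (τ : ℂ) / M := by
  simp [Tri.coe_map, low, Tri.mk, Tri.a, Tri.b, Tri.d]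

/-- `Tri.top` is `τ ↦ M τ`. -/
theorem coe_top_map [NeZero M] (τ : ℍ) : ((Tri.top : Tri M).map τ : ℂ) = (M : ℂ) * τ := by
  simp [Tri.coe_map, Tri.top, Tri.mk, Tri.a, Tri.b, Tri.d]

/-- `τ ↦ τ/M` is inverse to `τ ↦ M τ`. -/
theorem low_map_top_map [NeZero M] (τ : ℍ) : (low M).map ((Tri.top : Tri M).map τ) = τ := by
  refine UpperHalfPlane.ext ?_
  rw [coe_low_map, coe_top_map, mul_div_cancel_left₀]
  exact_mod_cast NeZero.ne M

/-- Invariance under `Γ(M) ∩ Γ₀(N')` gives invariance of `f (M τ)` under `Γ₀(M N')`. -/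
theorem comp_top_invariant (hM : M = 2 ∨ M = 3) [NeZero M] (hMN : M ∣ N') {f : ℍ → ℂ}
    (hf : ∀ γ ∈ baseGroup M N', comp f γ = f) {γ : SL(2, ℤ)} (hγ : γ ∈ Gamma0 (M * N')) (τ : ℍ) :
    f ((Tri.top : Tri M).map (γ • τ)) = f ((Tri.top : Tri M).map τ) := by
  rw [mem_Gamma0_iff] at hγ
  obtain ⟨k, hk⟩ := hγ
  push_cast at hk
  have hdet : γ.1 0 0 * γ.1 1 1 - γ.1 0 1 * γ.1 1 0 = 1 := by
    rw [← Matrix.det_fin_two]; exact γ.2
  set γ' := mkSL (γ.1 0 0) ((M : ℤ) * γ.1 0 1) ((N' : ℤ) * k) (γ.1 1 1)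
    (by rw [hk] at hdet; linear_combination hdet) with hγ'
  have hmap : (Tri.top : Tri M).map (γ • τ) = γ' • (Tri.top : Tri M).map τ := by
    refine UpperHalfPlane.ext ?_
    rw [coe_top_map, UpperHalfPlane.coe_specialLinearGroup_apply,
      UpperHalfPlane.coe_specialLinearGroup_apply, coe_top_map]
    simp only [hγ', mkSL, algebraMap_int_eq, eq_intCast, Matrix.of_apply, Matrix.cons_val',
      Matrix.cons_val_zero, Matrix.cons_val_one, Matrix.cons_val_fin_one]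
    rw [hk]
    push_cast
    rw [mul_div_assoc']
    congr 1 <;> ring
  rw [hmap]
  refine congrFun (KummerES.LevelHyp.comp_eq_of_neg_mem hf ?_) _
  obtain ⟨e, he⟩ := hMN
  have hN'M : ((N' : ℤ) : ZMod M) = 0 := by
    rw [he]; push_cast; simp
  have hMM : ((M : ℤ) : ZMod M) = 0 := by simp
  have hcast : ((γ.1 0 0 : ℤ) : ZMod M) * ((γ.1 1 1 : ℤ) : ZMod M) = 1 := by
    have h1 : γ.1 0 0 * γ.1 1 1 = 1 + γ.1 0 1 * ((M : ℤ) * (N' * k)) := by
      rw [hk] at hdet; linear_combination hdet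
    have := congrArg (Int.cast : ℤ → ZMod M) h1
    push_cast at this
    simpa using this
  have hcases : (((γ.1 0 0 : ℤ) : ZMod M) = 1 ∧ ((γ.1 1 1 : ℤ) : ZMod M) = 1) ∨
      (((γ.1 0 0 : ℤ) : ZMod M) = -1 ∧ ((γ.1 1 1 : ℤ) : ZMod M) = -1) := by
    rcases hM with rfl | rfl
    · revert hcast
      generalize ((γ.1 0 0 : ℤ) : ZMod 2) = a
      generalize ((γ.1 1 1 : ℤ) : ZMod 2) = d
      revert a d; decide
    · revert hcast
      generalize ((γ.1 0 0 : ℤ) : ZMod 3) = a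
      generalize ((γ.1 1 1 : ℤ) : ZMod 3) = d
      revert a d; decide
  have hneg : ∀ i j, (-γ').1 i j = -(γ'.1 i j) := fun i j => rfl
  have hN0 : γ' ∈ Gamma0 N' ∧ -γ' ∈ Gamma0 N' := by
    constructor <;> rw [mem_Gamma0_iff] <;> (try rw [hneg]) <;> simp [hγ', mkSL]
  rcases hcases with ⟨ha, hd⟩ | ⟨ha, hd⟩
  · refine Or.inl ⟨CongruenceSubgroup.Gamma_mem.2 ?_, hN0.1⟩
    simp [hγ', mkSL, ha, hd, he]
  · refine Or.inr ⟨CongruenceSubgroup.Gamma_mem.2 ?_, hN0.2⟩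
    simp only [hneg]
    simp [hγ', mkSL, ha, hd, he]

/-- Invariance under `Γ₀(M N')` gives invariance of `f (τ / M)` under `Γ(M) ∩ Γ₀(N')`. -/
theorem comp_low_invariant [NeZero M] {f : ℍ → ℂ}
    (hf : ∀ γ ∈ Gamma0 (M * N'), comp f γ = f) {γ : SL(2, ℤ)} (hγ : γ ∈ baseGroup M N') (τ : ℍ) :
    f ((low M).map (γ • τ)) = f ((low M).map τ) := by
  obtain ⟨hγM, hγN⟩ := Subgroup.mem_inf.1 hγ
  obtain ⟨b', hb'⟩ := (ZMod.intCast_zmod_eq_zero_iff_dvd _ _).1 (CongruenceSubgroup.Gamma_mem.1 hγM).2.1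
  rw [mem_Gamma0_iff] at hγN
  have hdet : γ.1 0 0 * γ.1 1 1 - γ.1 0 1 * γ.1 1 0 = 1 := by
    rw [← Matrix.det_fin_two]; exact γ.2
  set γ' := mkSL (γ.1 0 0) b' ((M : ℤ) * γ.1 1 0) (γ.1 1 1)
    (by rw [hb'] at hdet; linear_combination hdet) with hγ'
  have hM0 : (M : ℂ) ≠ 0 := by exact_mod_cast NeZero.ne M
  have hmap : (low M).map (γ • τ) = γ' • (low M).map τ := by
    refine UpperHalfPlane.ext ?_
    rw [coe_low_map, UpperHalfPlane.coe_specialLinearGroup_apply,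
      UpperHalfPlane.coe_specialLinearGroup_apply, coe_low_map]
    simp only [hγ', mkSL, algebraMap_int_eq, eq_intCast, Matrix.of_apply, Matrix.cons_val',
      Matrix.cons_val_zero, Matrix.cons_val_one, Matrix.cons_val_fin_one]
    rw [hb']
    push_cast
    field_simp
  rw [hmap]
  refine congrFun (hf γ' ?_) _
  rw [mem_Gamma0_iff]
  simp only [hγ', mkSL_apply_one]
  push_cast
  exact mul_dvd_mul_left _ hγN

end Fermat.Agent.Hauptmodul
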