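import Fermat.Agent.ModularFunctionField.Triples
import Fermat.Agent.ModularFunctionField.EtaProduct
import Mathlib.Topology.Connected.TotallyDisconnected
import Mathlib.Analysis.Complex.Polynomial.Basic
import Mathlib.NumberTheory.ModularForms.CongruenceSubgroups

/-!
# The Hauptmoduls `u = (η(τ)/η(rτ))^e` of `X₀(4)` and `X₀(9)`

Here `e (r - 1) = 24`, so `u ^ (r - 1) = Δ(τ)/Δ(rτ)`.
-/

set_option autoImplicit false

noncomputable section

open Filter Complex ModularCurve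
open UpperHalfPlane hiding I
open scoped Topology MatrixGroups Manifold
open Fermat.Agent.ModularFunctionField

namespace Fermat.Agent.Hauptmodul

local notation "𝕢" => Function.Periodic.qParam
local notation "Δ" => ModularForm.discriminant

/-- The exponent `24 / (r - 1)`. -/
def expo (r : ℕ) : ℕ := 24 / (r - 1)

variable {r : ℕ}

theorem expo_mul (hr : r = 4 ∨ r = 9) : expo r * (r - 1) = 24 := by
  rcases hr with rfl | rfl <;> rfl

/-- The levels `4` and `9` are nonzero. -/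
theorem neZero_of_level (hr : r = 4 ∨ r = 9) : NeZero r :=
  ⟨by rcases hr with rfl | rfl <;> decide⟩

/-- `1 / ∏ (1 - qⁿ)` as a formal series. -/
def etaInv : PowerSeries ℤ := etaProd.invOfUnit 1

/-- `etaInv` is inverse to the Euler product. -/
theorem etaProd_mul_etaInv : etaProd * etaInv = 1 :=
  PowerSeries.mul_invOfUnit _ _ (by rw [constantCoeff_etaProd]; rfl)

theorem constantCoeff_etaInv : PowerSeries.constantCoeff etaInv = 1 := by
  have h := congrArg (PowerSeries.constantCoeff (R := ℤ)) etaProd_mul_etaInv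
  rwa [map_mul, constantCoeff_etaProd, one_mul, map_one] at h

/-- The `q`-expansion of `u` over any ring. -/
def uC (R : Type*) [CommRing R] (r : ℕ) [NeZero r] : LaurentSeries R :=
  HahnSeries.single (-1 : ℤ) 1 *
    (intSeries R (etaProd ^ expo r) * qExpand R r (intSeries R (etaInv ^ expo r)))

/-- `(η(τ)/η(rτ))^e`. -/
def uFun (r : ℕ) (τ : ℍ) : ℂ :=
  (𝕢 1 (τ : ℂ))⁻¹ * (eulerFun (𝕢 1 τ) / eulerFun (𝕢 1 τ ^ r)) ^ expo r

theorem norm_q_lt_one (τ : ℍ) : ‖𝕢 1 (τ : ℂ)‖ < 1 := by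
  simpa using UpperHalfPlane.norm_qParam_lt_one 1 τ

theorem norm_q_pow_lt_one [NeZero r] (τ : ℍ) : ‖𝕢 1 (τ : ℂ) ^ r‖ < 1 := by
  rw [norm_pow]
  exact pow_lt_one₀ (norm_nonneg _) (norm_q_lt_one τ) (NeZero.ne r)

/-- `u` is holomorphic. -/
theorem mdiff_uFun [NeZero r] : MDiff (uFun r) := by
  rw [UpperHalfPlane.mdifferentiable_iff]
  have hq : Differentiable ℂ (fun z : ℂ => 𝕢 1 z) := by
    unfold Function.Periodic.qParam; fun_prop
  have hmem : ∀ z : ℂ, z ∈ upperHalfPlaneSet → 𝕢 1 z ∈ Metric.ball (0 : ℂ) 1 := fun z hz => by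
    simpa using norm_q_lt_one ⟨z, hz⟩
  have hmem' : ∀ z : ℂ, z ∈ upperHalfPlaneSet → 𝕢 1 z ^ r ∈ Metric.ball (0 : ℂ) 1 := fun z hz => by
    simpa using norm_q_pow_lt_one (r := r) ⟨z, hz⟩
  have hE : DifferentiableOn ℂ eulerFun (Metric.ball 0 1) :=
    ModularForm.differentiableOn_tprod_one_sub_pow
  refine DifferentiableOn.congr (f := fun z : ℂ =>
      (𝕢 1 z)⁻¹ * (eulerFun (𝕢 1 z) / eulerFun (𝕢 1 z ^ r)) ^ expo r) ?_ fun z hz => by
    simp [uFun, ofComplex_apply_of_im_pos hz]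
  refine (hq.differentiableOn.fun_inv fun z _ => Function.Periodic.qParam_ne_zero _).fun_mul
    (DifferentiableOn.fun_pow ?_ _)
  exact (hE.comp hq.differentiableOn hmem).fun_div (hE.comp (hq.fun_pow r).differentiableOn hmem')
    fun z hz => eulerFun_ne_zero (by simpa using hmem' z hz)

/-- `u` has period `1`. -/
theorem uFun_vadd_int (n : ℤ) (τ : ℍ) : uFun r ((n : ℝ) +ᵥ τ) = uFun r τ := by
  have : 𝕢 1 (((n : ℝ) +ᵥ τ : ℍ) : ℂ) = 𝕢 1 (τ : ℂ) := by
    rw [Function.Periodic.qParam, Function.Periodic.qParam, coe_vadd, Complex.exp_eq_exp_iff_exists_int]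
    exact ⟨n, by push_cast; ring⟩
  simp only [uFun, this]

/-- `Δ ≠ 0` and the product formula give `u^(r-1) = Δ(τ)/Δ(rτ)`. -/
theorem uFun_pow (hr : r = 4 ∨ r = 9) (τ τ' : ℍ) (hτ' : (τ' : ℂ) = (r : ℂ) * τ) :
    uFun r τ ^ (r - 1) = Δ τ / Δ τ' := by
  have := neZero_of_level hr
  have hq : 𝕢 1 (τ' : ℂ) = 𝕢 1 (τ : ℂ) ^ r := by
    rw [Function.Periodic.qParam, Function.Periodic.qParam, ← Complex.exp_nat_mul, hτ']
    congr 1
    ring
  have h0 : 𝕢 1 (τ : ℂ) ≠ 0 := Function.Periodic.qParam_ne_zero _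
  have h1 := eulerFun_ne_zero (norm_q_pow_lt_one (r := r) τ)
  obtain ⟨k, rfl⟩ : ∃ k, r = k + 1 := ⟨r - 1, by have := NeZero.pos r; omega⟩
  rw [discriminant_eq_qParam_mul τ, discriminant_eq_qParam_mul τ', hq, uFun, mul_pow, inv_pow,
    ← pow_mul, div_pow, expo_mul hr, Nat.add_sub_cancel, pow_succ _ k]
  field_simp

theorem hasExp_eulerFun_inv :
    HasExp 1 (fun τ : ℍ => (eulerFun (𝕢 1 τ))⁻¹) (intSeries ℂ etaInv) := by
  have hd : DifferentiableOn ℂ (fun q => (eulerFun q)⁻¹) (Metric.ball 0 1) :=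
    (ModularForm.differentiableOn_tprod_one_sub_pow).fun_inv fun q hq =>
      eulerFun_ne_zero (by simpa using hq)
  obtain ⟨s, hs⟩ : ∃ s : PowerSeries ℂ, ∀ m,
      iteratedDeriv m (fun q => (eulerFun q)⁻¹) 0 = (m.factorial : ℂ) * PowerSeries.coeff m s :=
    ⟨PowerSeries.mk fun m => iteratedDeriv m (fun q => (eulerFun q)⁻¹) 0 / m.factorial,
      fun m => by rw [PowerSeries.coeff_mk, mul_div_cancel₀]; exact_mod_cast m.factorial_ne_zero⟩
  have h := hasExp_of_differentiableOn hd s hs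
  refine h.congr_series ?_
  have h2 := hasExp_eulerFun.inv one_ne_zero h fun τ => eulerFun_ne_zero (norm_q_lt_one τ)
  calc _ = (intSeries ℂ etaInv * intSeries ℂ etaProd) * HahnSeries.ofPowerSeries ℤ ℂ s := by
        rw [← map_mul, mul_comm etaInv, etaProd_mul_etaInv, map_one, one_mul]
    _ = intSeries ℂ etaInv := by rw [mul_assoc, h2, mul_one]

/-- `τ ↦ rτ`. -/
def scale (r : ℕ) [NeZero r] (τ : ℍ) : ℍ := (Tri.top : Tri r).map τ

theorem coe_scale (r : ℕ) [NeZero r] (τ : ℍ) : (scale r τ : ℂ) = (r : ℂ) * τ := by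
  simp [scale, Tri.coe_map, Tri.top, Tri.mk, Tri.a, Tri.b, Tri.d]

theorem qParam_scale (r : ℕ) [NeZero r] (τ : ℍ) :
    𝕢 1 (scale r τ : ℂ) = 𝕢 1 (τ : ℂ) ^ r := by
  rw [Function.Periodic.qParam, Function.Periodic.qParam, ← Complex.exp_nat_mul, coe_scale]
  congr 1
  ring

/-- The expansion of `u` at `∞`. -/
theorem hasExp_uFun [NeZero r] : HasExp 1 (uFun r) (uC ℂ r) := by
  have hscale : HasExp 1 (fun τ : ℍ => (eulerFun (𝕢 1 τ ^ r))⁻¹)
      (ModularCurve.qExpand ℂ r (intSeries ℂ etaInv)) :=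
    ((hasExp_eulerFun_inv.comp (N := 1) (scale r) (Tri.tendsto_map _) 1 r fun τ => by
      rw [Units.val_one, one_mul, Nat.cast_one]; exact qParam_scale r τ).congr fun τ => by
        rw [qParam_scale]).congr_series (subst_one r _)
  refine (((HasExp.single 1 (-1) 1).mul ((hasExp_eulerFun.pow (expo r)).mul (hscale.pow (expo r)))).congr
    fun τ => ?_).congr_series ?_
  · simp only [uFun, Nat.cast_one, one_mul, zpow_neg, zpow_one, inv_pow, div_eq_mul_inv,
      mul_pow]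
  · simp only [uC, map_pow]

/-- `u` has a simple pole at `∞` with leading coefficient `1`. -/
theorem uC_coeff_neg_one (R : Type*) [CommRing R] (r : ℕ) [NeZero r] :
    (uC R r).coeff (-1) = 1 := by
  have h : ∀ p : PowerSeries ℤ, ∃ p' : PowerSeries R, intSeries R p = HahnSeries.ofPowerSeries ℤ R p' ∧
      PowerSeries.constantCoeff p' = (((PowerSeries.constantCoeff (R := ℤ) p : ℤ)) : R) := fun p =>
    ⟨PowerSeries.map (Int.castRingHom R) p, rfl, by
      rw [← PowerSeries.coeff_zero_eq_constantCoeff_apply, PowerSeries.coeff_map,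
        PowerSeries.coeff_zero_eq_constantCoeff_apply]; rfl⟩
  rw [uC, HahnSeries.coeff_single_mul, one_mul, sub_self, HahnSeries.coeff_mul]
  rw [Finset.sum_eq_single (0, 0)]
  · rw [show (qExpand R r (intSeries R (etaInv ^ expo r))).coeff 0 =
      (qExpand R r (intSeries R (etaInv ^ expo r))).coeff ((r : ℤ) * 0) by rw [mul_zero],
      qExpand_coeff_mul, show (0 : ℤ) = ((0 : ℕ) : ℤ) from rfl, intSeries_coeff_natCast,
      intSeries_coeff_natCast, PowerSeries.coeff_zero_eq_constantCoeff_apply,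
      PowerSeries.coeff_zero_eq_constantCoeff_apply, map_pow, map_pow, constantCoeff_etaProd,
      constantCoeff_etaInv]
    simp
  · rintro ⟨i, j⟩ hij hne
    rw [Finset.mem_antidiagonal] at hij
    obtain ⟨hi, hj, hs⟩ := hij
    exfalso
    have hi0 : 0 ≤ i := by
      by_contra hlt
      exact hi (intSeries_coeff_of_neg _ _ (not_le.mp hlt))
    have hj0 : 0 ≤ j := by
      by_contra hlt
      by_cases hd : (r : ℤ) ∣ j
      · obtain ⟨m, rfl⟩ := hd
        rw [HahnSeries.mem_support, qExpand_coeff_mul] at hj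
        refine hj (intSeries_coeff_of_neg _ _ ?_)
        have : (0 : ℤ) < r := by exact_mod_cast NeZero.pos r
        nlinarith [not_le.mp hlt]
      · exact hj (qExpand_coeff_of_not_dvd r _ hd)
    have hs' : i + j = 0 := hs
    exact hne (Prod.ext (by show i = 0; omega) (by show j = 0; omega))
  · intro h
    rw [Finset.mem_antidiagonal] at h
    simp only [HahnSeries.mem_support, not_and, add_zero] at h
    by_contra hne
    exact h (left_ne_zero_of_mul hne) (right_ne_zero_of_mul hne) trivial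

/-- `u` has no poles of order above one. -/
theorem uC_coeff_of_lt (R : Type*) [CommRing R] (r : ℕ) [NeZero r] {n : ℤ} (hn : n < -1) :
    (uC R r).coeff n = 0 := by
  rw [uC, HahnSeries.coeff_single_mul, one_mul, HahnSeries.coeff_mul]
  refine Finset.sum_eq_zero fun p hp => ?_
  rw [Finset.mem_antidiagonal] at hp
  obtain ⟨hi, hj, hs⟩ := hp
  exfalso
  have hi0 : 0 ≤ p.1 := by
    by_contra hlt
    exact hi (intSeries_coeff_of_neg _ _ (not_le.mp hlt))
  have hj0 : 0 ≤ p.2 := by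
    by_contra hlt
    by_cases hd : (r : ℤ) ∣ p.2
    · obtain ⟨m, hm⟩ := hd
      rw [HahnSeries.mem_support, hm, qExpand_coeff_mul] at hj
      refine hj (intSeries_coeff_of_neg _ _ ?_)
      have : (0 : ℤ) < r := by exact_mod_cast NeZero.pos r
      nlinarith [not_le.mp hlt]
    · exact hj (qExpand_coeff_of_not_dvd r _ hd)
  have hs' : p.1 + p.2 = n - -1 := hs
  omega

/-- The series of `u` is defined over `ℤ`. -/
@[simp]
theorem coeffMap_uC {R S : Type*} [CommRing R] [CommRing S] (f : R →+* S) (r : ℕ) [NeZero r] :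
    coeffMap f (uC R r) = uC S r := by
  simp [uC, map_mul, coeffMap_intSeries, coeffMap_qExpand']

/-! ### Behaviour under `SL(2, ℤ)` -/

/-- The model of `u ∘ γ`: a root of `Δ(τ)/Δ((aτ+b)/d)`. -/
def modelFun (r : ℕ) [NeZero r] (M : Tri r) (τ : ℍ) : ℂ :=
  Complex.exp (2 * Real.pi * I * ((τ : ℂ) - ((M.a : ℂ) * τ + M.b) / M.d) / ((r - 1 : ℕ) : ℂ)) *
    (eulerFun (𝕢 1 τ) / eulerFun (𝕢 1 (M.map τ : ℂ))) ^ expo r

theorem modelFun_pow (hr : r = 4 ∨ r = 9) [NeZero r] (M : Tri r) (τ : ℍ) :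
    modelFun r M τ ^ (r - 1) = Δ τ / Δ (M.map τ) := by
  have h1 := eulerFun_ne_zero (norm_q_lt_one (M.map τ))
  have hk : ((r - 1 : ℕ) : ℂ) ≠ 0 := by
    rcases hr with rfl | rfl <;> norm_num
  rw [discriminant_eq_qParam_mul τ, discriminant_eq_qParam_mul (M.map τ), modelFun, mul_pow,
    ← pow_mul, div_pow, expo_mul hr, ← Complex.exp_nat_mul]
  have : Complex.exp (((r - 1 : ℕ) : ℂ) * (2 * Real.pi * I * ((τ : ℂ) -
      ((M.a : ℂ) * τ + M.b) / M.d) / ((r - 1 : ℕ) : ℂ))) = 𝕢 1 (τ : ℂ) / 𝕢 1 (M.map τ : ℂ) := by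
    rw [Function.Periodic.qParam, Function.Periodic.qParam, ← Complex.exp_sub, Tri.coe_map]
    congr 1
    field_simp
    push_cast
    ring
  rw [this]
  field_simp

theorem modelFun_ne_zero [NeZero r] (M : Tri r) (τ : ℍ) : modelFun r M τ ≠ 0 :=
  mul_ne_zero (Complex.exp_ne_zero _) (pow_ne_zero _ (div_ne_zero
    (eulerFun_ne_zero (norm_q_lt_one τ)) (eulerFun_ne_zero (norm_q_lt_one (M.map τ)))))

theorem continuous_modelFun [NeZero r] (M : Tri r) : Continuous (modelFun r M) := by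
  have hmap : Continuous fun τ : ℍ => (M.map τ : ℂ) := by
    simp only [Tri.coe_map]
    fun_prop
  have hE : ∀ g : ℍ → ℂ, Continuous g → (∀ τ, ‖g τ‖ < 1) → Continuous fun τ => eulerFun (g τ) :=
    fun g hg hlt => ModularForm.differentiableOn_tprod_one_sub_pow.continuousOn.comp_continuous hg
      fun τ => by simpa using hlt τ
  have hq : Continuous fun τ : ℍ => 𝕢 1 (τ : ℂ) := by
    unfold Function.Periodic.qParam; fun_prop
  have hq' : Continuous fun τ : ℍ => 𝕢 1 (M.map τ : ℂ) := by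
    unfold Function.Periodic.qParam; fun_prop
  unfold modelFun
  refine Continuous.mul ?_ (((hE _ hq norm_q_lt_one).div (hE _ hq' fun τ => norm_q_lt_one _)
    fun τ => eulerFun_ne_zero (norm_q_lt_one _)).pow _)
  have : Continuous fun τ : ℍ => ((τ : ℂ) - ((M.a : ℂ) * τ + M.b) / M.d) := by fun_prop
  fun_prop

/-- Two continuous nowhere vanishing functions with equal `m`-th powers differ by a constant. -/
theorem exists_const_of_pow_eq {f g : ℍ → ℂ} {m : ℕ} (hm : 0 < m) (hf : Continuous f)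
    (hg : Continuous g) (hg0 : ∀ τ, g τ ≠ 0) (h : ∀ τ, f τ ^ m = g τ ^ m) :
    ∃ c : ℂ, c ^ m = 1 ∧ ∀ τ, f τ = c * g τ := by
  have hfin : ({z : ℂ | z ^ m = 1}).Finite := by
    refine (Polynomial.finite_setOfPred_isRoot (p := Polynomial.X ^ m - 1)
      (Polynomial.X_pow_sub_C_ne_zero hm 1)).subset fun z hz => ?_
    simp [Polynomial.IsRoot, Set.mem_ofPred_eq.mp hz]
  have hmaps : ∀ τ, f τ / g τ ∈ {z : ℂ | z ^ m = 1} := fun τ => by
    rw [Set.mem_ofPred_eq, div_pow, h τ, div_self (pow_ne_zero _ (hg0 τ))]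
  refine ⟨f UpperHalfPlane.I / g UpperHalfPlane.I, hmaps _, fun τ => ?_⟩
  have := (isPreconnected_univ (α := ℍ)).constant_of_mapsTo hfin.isDiscrete
    (f := fun τ => f τ / g τ) ((hf.div hg hg0).continuousOn) (fun τ _ => hmaps τ)
    (Set.mem_univ τ) (Set.mem_univ UpperHalfPlane.I)
  rw [← this, div_mul_cancel₀ _ (hg0 τ)]

theorem discriminant_smul (γ : SL(2, ℤ)) (τ : ℍ) :
    Δ (γ • τ) = ((γ.1 1 0 : ℂ) * τ + γ.1 1 1) ^ 12 * Δ τ := by
  have h := congrFun (slash_eq_self CuspForm.discriminant γ) τ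
  rw [ModularForm.SL_slash_apply, CuspForm.coe_discriminant, ModularGroup.denom_apply] at h
  have hd : ((γ.1 1 0 : ℂ) * τ + γ.1 1 1) ≠ 0 := by
    have := denom_ne_zero (γ : GL (Fin 2) ℝ) τ
    rwa [ModularGroup.denom_apply] at this
  rw [← h, zpow_neg, zpow_ofNat]
  field_simp

theorem continuous_smul_SL (γ : SL(2, ℤ)) : Continuous fun τ : ℍ => γ • τ := by
  simp only [ModularGroup.sl_moeb]
  exact continuous_const_smul _

/-- The cusp data of `γ`: `diag(r,1) γ = γ' (a b; 0 d)`. -/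
theorem exists_cusp (hr : r = 4 ∨ r = 9) [NeZero r] (γ : SL(2, ℤ)) :
    ∃ (M : Tri r) (c : ℂ), M.a = Int.gcd ((r : ℤ) * γ.1 0 0) (γ.1 1 0) ∧
      (c ^ (r - 1) = (M.d : ℂ) ^ 12) ∧
      ∀ τ, uFun r (γ • τ) = c * modelFun r M τ := by
  obtain ⟨h1, h2, -, -⟩ := ((Tri.top : Tri r).exists_smul γ).choose_spec.choose_spec
  obtain ⟨hmap, hden⟩ := Tri.map_smul (Tri.top : Tri r) γ UpperHalfPlane.I
  set M := Tri.act γ (Tri.top : Tri r)
  set g := Tri.actMatrix γ (Tri.top : Tri r)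
  have h1' : g.1 0 0 * (M.a : ℤ) = (r : ℤ) * γ.1 0 0 := by
    rw [show g.1 0 0 * (M.a : ℤ) = _ from h1]; simp [Tri.top, Tri.mk, Tri.a, Tri.b]
  have h2' : g.1 1 0 * (M.a : ℤ) = γ.1 1 0 := by
    rw [show g.1 1 0 * (M.a : ℤ) = _ from h2]; simp [Tri.top, Tri.mk, Tri.d]
  have ha : M.a = Int.gcd ((r : ℤ) * γ.1 0 0) (γ.1 1 0) := by
    rw [← h1', ← h2', Int.gcd_mul_right, Int.natAbs_natCast]
    have : Int.gcd (g.1 0 0) (g.1 1 0) = 1 := by
      rw [← Int.isCoprime_iff_gcd_eq_one]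
      exact ⟨g.1 1 1, -(g.1 0 1), by
        have := g.2; rw [Matrix.det_fin_two] at this; linear_combination this⟩
    rw [this, one_mul]
  have hd : (M.d : ℂ) ^ 12 ≠ 0 := pow_ne_zero _ (by exact_mod_cast M.d_pos.ne')
  obtain ⟨z, hz⟩ := IsAlgClosed.exists_pow_nat_eq ((M.d : ℂ) ^ 12)
    (show 0 < r - 1 by rcases hr with rfl | rfl <;> norm_num)
  have hpow : ∀ τ, uFun r (γ • τ) ^ (r - 1) = (z * modelFun r M τ) ^ (r - 1) := by
    intro τ
    obtain ⟨hm, hde⟩ : (Tri.top : Tri r).map (γ • τ) = g • M.map τ ∧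
        ((Tri.top : Tri r).d : ℂ) * ((γ.1 1 0 : ℂ) * τ + γ.1 1 1) =
          ((g.1 1 0 : ℂ) * (M.map τ : ℂ) + g.1 1 1) * M.d :=
      Tri.map_smul (Tri.top : Tri r) γ τ
    rw [show ((Tri.top : Tri r).d : ℂ) = 1 by simp [Tri.top, Tri.mk, Tri.d], one_mul] at hde
    rw [mul_pow, hz, modelFun_pow hr, uFun_pow hr (γ • τ) ((Tri.top : Tri r).map (γ • τ))
      (coe_scale r (γ • τ)), hm, discriminant_smul γ, discriminant_smul g, hde, mul_pow]
    have hne : ((g.1 1 0 : ℂ) * (M.map τ : ℂ) + g.1 1 1) ≠ 0 := by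
      have := denom_ne_zero (g : GL (Fin 2) ℝ) (M.map τ)
      rwa [ModularGroup.denom_apply] at this
    field_simp
  have hz0 : z ≠ 0 := fun h => hd (by
    rw [← hz, h, zero_pow]; rcases hr with rfl | rfl <;> norm_num)
  obtain ⟨w, hw, hwf⟩ := exists_const_of_pow_eq
    (show 0 < r - 1 by rcases hr with rfl | rfl <;> norm_num)
    (mdiff_uFun.continuous.comp (continuous_smul_SL γ)) ((continuous_modelFun M).const_mul z)
    (fun τ => mul_ne_zero hz0 (modelFun_ne_zero M τ)) hpow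
  exact ⟨M, w * z, ha, by rw [mul_pow, hw, one_mul, hz], fun τ => (hwf τ).trans (mul_assoc _ _ _).symm⟩

end Fermat.Agent.Hauptmodul
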