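import Fermat.Agent.Hauptmodul.Invariance
import Fermat.Agent.ModularFunctionField.FamilyPoly
import Fermat.Agent.AtP.LambdaPNorm

/-!
# The conjugates `F(qτ)`, `F((τ+b)/q)` of a series

The triangular matrices of determinant `q` are indexed by `ℙ¹(𝔽_q)`; the symmetric functions of
the corresponding conjugates of a series have expansions with integral coefficients, and their
reduction modulo `q` is computed.
-/

set_option autoImplicit false

noncomputable section

open Filter Complex ModularCurve
open UpperHalfPlane hiding I
open scoped Topology MatrixGroups Manifold Polynomial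
open Fermat.Agent.ModularFunctionField

namespace Fermat.Agent.Hauptmodul

variable {q : ℕ} [hq : Fact q.Prime]

/-- `(1, b; 0, q)`. -/
def triAff (b : ZMod q) : Tri q :=
  Tri.mk 1 b.val q (one_mul q) b.val_lt (by simp)

/-- The top left entry of `triAff b` is `1`. -/
theorem triAff_a (b : ZMod q) : (triAff b).a = 1 := rfl

theorem triAff_b (b : ZMod q) : (triAff b).b = b.val := rfl

/-- The bottom right entry of `triAff b` is `q`. -/
theorem triAff_d (b : ZMod q) : (triAff b).d = q := rfl

theorem tri_eq_top_or_aff (M : Tri q) : M = Tri.top ∨ ∃ b, M = triAff b := by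
  have hd : M.d ∣ q := Dvd.intro_left _ M.a_mul_d
  rcases (Nat.dvd_prime hq.out).1 hd with h | h
  · left
    have ha : M.a = q := by simpa [h] using M.a_mul_d
    have hb : M.b = 0 := by have := M.b_lt; omega
    exact Tri.ext' ha hb h
  · right
    have ha : M.a = 1 := by
      have := M.a_mul_d; rw [h] at this
      exact (mul_left_eq_self₀.1 this).resolve_right hq.out.ne_zero
    refine ⟨(M.b : ZMod q), Tri.ext' ha ?_ h⟩
    rw [triAff_b, ZMod.val_natCast_of_lt]
    exact lt_of_lt_of_eq M.b_lt h

theorem triAff_ne_top (b : ZMod q) : triAff b ≠ Tri.top := fun h => by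
  have h1 : (triAff b).d = (Tri.top : Tri q).d := by rw [h]
  exact hq.out.one_lt.ne' (h1 : q = 1)

theorem triAff_injective : Function.Injective (triAff (q := q)) := fun b b' h => by
  have h1 : (triAff b).b = (triAff b').b := by rw [h]
  exact ZMod.val_injective q h1

/-- `Tri q` as `ℙ¹(𝔽_q)`. -/
def triEquiv : Option (ZMod q) ≃ Tri q :=
  Equiv.ofBijective (fun x => x.elim Tri.top triAff) (by
    constructor
    · rintro (_ | b) (_ | b') h
      · rfl
      · exact absurd h.symm (triAff_ne_top b')
      · exact absurd h (triAff_ne_top b)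
      · exact congrArg some (triAff_injective h)
    · intro M
      rcases tri_eq_top_or_aff M with rfl | ⟨b, rfl⟩
      · exact ⟨none, rfl⟩
      · exact ⟨some b, rfl⟩)

theorem prod_tri {A : Type*} [CommMonoid A] (g : Tri q → A) :
    ∏ M, g M = g Tri.top * ∏ b, g (triAff b) := by
  rw [← Equiv.prod_comp triEquiv g, Fintype.prod_option]
  rfl

/-- The conjugate at `Tri.top` of a series is its substitution `t ↦ t^(q²)`. -/
theorem rootSubst_top {R : Type*} [CommRing R] (u : Rˣ) (s : LaurentSeries R) :
    rootSubst u 1 (Tri.top : Tri q) s = qExpand R q (qExpand R q s) := by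
  show subst (u ^ (0 * q * 1)) (q * q * 1) s = _
  rw [subst_congr (v := 1) (l := q * q) (by simp) (mul_one _), subst_one, qExpand_qExpand]

/-- The conjugate at `triAff b` of a series is its twist by `u^b`. -/
theorem rootSubst_aff {R : Type*} [CommRing R] (u : Rˣ) (b : ZMod q) (s : LaurentSeries R) :
    rootSubst u 1 (triAff b) s = AtP.twistU (u ^ b.val) s := by
  show subst (u ^ (b.val * 1 * 1)) (1 * 1 * 1) s = _
  rw [subst_congr (v := u ^ b.val) (l := 1) (by rw [mul_one, mul_one]) rfl, subst_apply,
    qExpand_one_apply]
  ext n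
  rw [twist_coeff, AtP.twistU_coeff]

/-- The series of the product over the conjugates. -/
def familySeries (T F : LaurentSeries ℤ) : Polynomial (LaurentSeries ℤ) :=
  (Polynomial.X - Polynomial.C T) * AtP.normPoly q F

/-- If the conjugate at `∞` has series `T(t^q)` and the others are twists of `F`, the symmetric
functions have the series given by `familySeries`. -/
theorem hasExp_family (T F : LaurentSeries ℤ) (f : Tri q → ℍ → ℂ)
    (htop : HasExp q (f Tri.top) (qExpand ℂ q (coeffMap (Int.castRingHom ℂ) T)))
    (haff : ∀ b, HasExp q (f (triAff b))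
      (AtP.twistU (rootUnit q ^ b.val) (coeffMap (Int.castRingHom ℂ) F))) (k : ℕ) :
    HasExp q (fun τ => (∏ M, (Polynomial.X - Polynomial.C (f M τ))).coeff k)
      (coeffMap (Int.castRingHom ℂ) (qExpand ℤ q ((familySeries (q := q) T F).coeff k))) := by
  have hζ : IsPrimitiveRoot (rootUnit q : ℂ) q :=
    IsPrimitiveRoot.coe_units_iff.mpr (isPrimitiveRoot_rootUnit q)
  have h := hasExp_coeff_prod (Finset.univ : Finset (Tri q)) (F := f)
    (S := fun M => (triEquiv.symm M).elim (qExpand ℂ q (coeffMap (Int.castRingHom ℂ) T))
      fun b => AtP.twistU (rootUnit q ^ b.val) (coeffMap (Int.castRingHom ℂ) F))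
    (fun M _ => by
      obtain ⟨x, rfl⟩ := triEquiv.surjective M
      rw [Equiv.symm_apply_apply]
      cases x with
      | none => exact htop
      | some b => exact haff b) k
  refine h.congr_series ?_
  rw [coeffMap_qExpand', ← Polynomial.coeff_map (coeffMap (Int.castRingHom ℂ)),
    ← Polynomial.coeff_map (qExpand ℂ q), Polynomial.map_map]
  congr 1
  rw [prod_tri, familySeries, Polynomial.map_mul, AtP.normPoly_map hζ]
  congr 1
  · rw [show (Tri.top : Tri q) = triEquiv none from rfl, Equiv.symm_apply_apply]
    simp
  · refine Finset.prod_congr rfl fun b _ => ?_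
    rw [show triAff b = triEquiv (some b) from rfl, Equiv.symm_apply_apply]
    have hu : AtP.rootUnit hζ b = rootUnit q ^ b.val := Units.ext (by simp [AtP.rootUnit])
    rw [hu]
    rfl

/-- A permuted family has an invariant polynomial `∏ (X - f M)`. -/
theorem prod_invariant {m : ℕ} [NeZero m] (f : Tri m → ℍ → ℂ) (γ : SL(2, ℤ)) (τ : ℍ)
    (hperm : ∀ M, f M (γ • τ) = f (Tri.act γ M) τ) :
    ∏ M, (Polynomial.X - Polynomial.C (f M (γ • τ))) =
      ∏ M, (Polynomial.X - Polynomial.C (f M τ)) := by
  simp only [hperm]
  exact Equiv.prod_comp (Tri.perm γ) fun M => Polynomial.X - Polynomial.C (f M τ)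

/-- The conjugate polynomial modulo `q`. -/
theorem familySeries_mod (T F : LaurentSeries ℤ) :
    (familySeries (q := q) T F).map (coeffMap (Int.castRingHom (ZMod q))) =
      (Polynomial.X - Polynomial.C (coeffMap (Int.castRingHom (ZMod q)) T)) *
        (Polynomial.X ^ q - Polynomial.C (coeffMap (Int.castRingHom (ZMod q)) F)) := by
  rw [familySeries, Polynomial.map_mul, AtP.normPoly_congr, Polynomial.map_sub, Polynomial.map_X,
    Polynomial.map_C]

/-- `T` is a root of the conjugate polynomial. -/
theorem familySeries_eval (T F : LaurentSeries ℤ) :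
    (familySeries (q := q) T F).eval T = 0 := by simp [familySeries]

/-- The norm polynomial has degree at most `q`. -/
theorem natDegree_normPoly_le (F : LaurentSeries ℤ) : (AtP.normPoly q F).natDegree ≤ q := by
  rw [Polynomial.natDegree_le_iff_coeff_eq_zero]
  intro k hk
  rw [AtP.normPoly, Polynomial.finsetSum_coeff]
  refine Finset.sum_eq_zero fun i hi => ?_
  rw [Polynomial.coeff_monomial, if_neg]
  rw [Finset.mem_range] at hi
  omega

end Fermat.Agent.Hauptmodul
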