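import Fermat.Agent.Hauptmodul.Basic

/-!
# `u` is invariant under `Γ₀(r)` and bounded at the cusps inequivalent to `∞`
-/

set_option autoImplicit false

noncomputable section

open Filter Complex ModularCurve
open UpperHalfPlane hiding I
open scoped Topology MatrixGroups Manifold
open Fermat.Agent.ModularFunctionField

namespace Fermat.Agent.Hauptmodul

local notation "𝕢" => Function.Periodic.qParam

variable {r : ℕ}

theorem vadd_eq_T_zpow_smul (n : ℤ) (τ : ℍ) :
    ((n : ℝ) +ᵥ τ) = (ModularGroup.T ^ n) • τ := by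
  rw [UpperHalfPlane.modular_T_zpow_smul]

theorem qParam_eq_of_sub_int {z z' : ℂ} (n : ℤ) (h : z' = z + n) : 𝕢 1 z' = 𝕢 1 z := by
  rw [Function.Periodic.qParam, Function.Periodic.qParam, h,
    Complex.exp_eq_exp_iff_exists_int]
  exact ⟨n, by push_cast; ring⟩

theorem modelFun_periodic (hr : r = 4 ∨ r = 9) [NeZero r] (M : Tri r) (w : ℕ) {k l : ℤ}
    (hk : (w : ℤ) * M.a = k * M.d) (hl : (w : ℤ) - k = l * (r - 1 : ℕ)) (τ : ℍ) :
    modelFun r M ((w : ℝ) +ᵥ τ) = modelFun r M τ := by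
  have hd : (M.d : ℂ) ≠ 0 := by exact_mod_cast M.d_pos.ne'
  have hk' : (w : ℂ) * M.a = k * M.d := by exact_mod_cast hk
  have hl' : (w : ℂ) - k = l * ((r - 1 : ℕ) : ℂ) := by exact_mod_cast hl
  have hm0 : ((r - 1 : ℕ) : ℂ) ≠ 0 := by rcases hr with rfl | rfl <;> norm_num
  have hmap : (M.map ((w : ℝ) +ᵥ τ) : ℂ) = (M.map τ : ℂ) + k := by
    rw [Tri.coe_map, Tri.coe_map, coe_vadd]
    push_cast
    field_simp
    linear_combination hk'
  have hq : 𝕢 1 (((w : ℝ) +ᵥ τ : ℍ) : ℂ) = 𝕢 1 (τ : ℂ) :=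
    qParam_eq_of_sub_int (w : ℤ) (by rw [coe_vadd]; push_cast; ring)
  have hq' : 𝕢 1 (M.map ((w : ℝ) +ᵥ τ) : ℂ) = 𝕢 1 (M.map τ : ℂ) := qParam_eq_of_sub_int k hmap
  rw [modelFun, modelFun, hq, hq', ← Tri.coe_map, ← Tri.coe_map, hmap, coe_vadd]
  congr 1
  rw [Complex.exp_eq_exp_iff_exists_int]
  refine ⟨l, ?_⟩
  push_cast
  field_simp
  linear_combination hl'

theorem vadd_eq_pow_smul (w : ℕ) (τ : ℍ) : ((w : ℝ) +ᵥ τ) = (ModularGroup.T ^ w) • τ := by
  rw [← zpow_natCast, ← vadd_eq_T_zpow_smul]; norm_num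

/-- `u` is fixed by the parabolic element `γ T^w γ⁻¹` when the width condition holds. -/
theorem uFun_parabolic (hr : r = 4 ∨ r = 9) (γ : SL(2, ℤ)) (w : ℕ)
    (hw : ∀ a d : ℕ, a = Int.gcd ((r : ℤ) * γ.1 0 0) (γ.1 1 0) → a * d = r →
      ∃ k l : ℤ, (w : ℤ) * a = k * d ∧ (w : ℤ) - k = l * (r - 1 : ℕ)) (τ : ℍ) :
    uFun r ((γ * ModularGroup.T ^ w * γ⁻¹) • τ) = uFun r τ := by
  have := neZero_of_level hr
  obtain ⟨M, c, ha, -, hc⟩ := exists_cusp hr γ
  obtain ⟨k, l, hk, hl⟩ := hw M.a M.d ha M.a_mul_d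
  rw [mul_smul, mul_smul, hc, ← vadd_eq_pow_smul, modelFun_periodic hr M w hk hl, ← hc,
    smul_inv_smul]

/-- An element of `SL(2,ℤ)` from its entries. -/
def mkSL (a b c d : ℤ) (h : a * d - b * c = 1) : SL(2, ℤ) :=
  ⟨!![a, b; c, d], by rw [Matrix.det_fin_two_of, h]⟩

theorem mkSL_apply_zero (a b c d : ℤ) (h : a * d - b * c = 1) :
    (mkSL a b c d h).1 0 0 = a := rfl

/-- The lower left entry of `mkSL a b c d` is `c`. -/
theorem mkSL_apply_one (a b c d : ℤ) (h : a * d - b * c = 1) :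
    (mkSL a b c d h).1 1 0 = c := rfl

/-- The parabolic generators of `Γ₀(r)` other than `T`. -/
def gens (r : ℕ) : List SL(2, ℤ) :=
  if r = 4 then
    [mkSL 1 0 (-4) 1 (by norm_num), mkSL 1 0 4 1 (by norm_num)]
  else
    [mkSL 1 0 (-9) 1 (by norm_num), mkSL 1 0 9 1 (by norm_num),
     mkSL (-2) 1 (-9) 4 (by norm_num), mkSL 4 (-1) 9 (-2) (by norm_num),
     mkSL (-2) (-1) 9 4 (by norm_num), mkSL 4 1 (-9) (-2) (by norm_num)]

theorem invariant_inv {f : ℍ → ℂ} {g : SL(2, ℤ)} (h : ∀ τ, f (g • τ) = f τ) (τ : ℍ) :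
    f (g⁻¹ • τ) = f τ := by
  conv_rhs => rw [← smul_inv_smul g τ, h]

theorem uFun_gens (hr : r = 4 ∨ r = 9) : ∀ g ∈ gens r, ∀ τ : ℍ, uFun r (g • τ) = uFun r τ := by
  rcases hr with rfl | rfl
  · have hS : ∀ τ : ℍ, uFun 4 ((ModularGroup.S * ModularGroup.T ^ 4 * ModularGroup.S⁻¹) • τ) =
        uFun 4 τ := uFun_parabolic (Or.inl rfl) _ _ fun a d ha had => by
      rw [show Int.gcd ((4 : ℕ) * ModularGroup.S.1 0 0) (ModularGroup.S.1 1 0) = 1 by decide] at ha
      subst ha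
      exact ⟨1, 1, by omega, by norm_num⟩
    intro g hg
    simp only [gens, ↓reduceIte, List.mem_cons, List.not_mem_nil, or_false] at hg
    rcases hg with rfl | rfl
    · convert hS using 5; decide
    · convert invariant_inv hS using 5; decide
  · have hS : ∀ τ : ℍ, uFun 9 ((ModularGroup.S * ModularGroup.T ^ 9 * ModularGroup.S⁻¹) • τ) =
        uFun 9 τ := uFun_parabolic (Or.inr rfl) _ _ fun a d ha had => by
      rw [show Int.gcd ((9 : ℕ) * ModularGroup.S.1 0 0) (ModularGroup.S.1 1 0) = 1 by decide] at ha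
      subst ha
      exact ⟨1, 1, by omega, by norm_num⟩
    have hV : ∀ τ : ℍ, uFun 9 (((mkSL 1 0 3 1 (by norm_num)) * ModularGroup.T ^ 1 *
        (mkSL 1 0 3 1 (by norm_num))⁻¹) • τ) = uFun 9 τ :=
      uFun_parabolic (Or.inr rfl) _ _ fun a d ha had => by
        rw [show Int.gcd (((9 : ℕ) : ℤ) * (mkSL 1 0 3 1 (by norm_num)).1 0 0)
          ((mkSL 1 0 3 1 (by norm_num)).1 1 0) = 3 by decide] at ha
        subst ha
        exact ⟨1, 0, by omega, by norm_num⟩
    have hV' : ∀ τ : ℍ, uFun 9 (((mkSL 1 0 (-3) 1 (by norm_num)) * ModularGroup.T ^ 1 *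
        (mkSL 1 0 (-3) 1 (by norm_num))⁻¹) • τ) = uFun 9 τ :=
      uFun_parabolic (Or.inr rfl) _ _ fun a d ha had => by
        rw [show Int.gcd (((9 : ℕ) : ℤ) * (mkSL 1 0 (-3) 1 (by norm_num)).1 0 0)
          ((mkSL 1 0 (-3) 1 (by norm_num)).1 1 0) = 3 by decide] at ha
        subst ha
        exact ⟨1, 0, by omega, by norm_num⟩
    intro g hg
    simp only [gens, show (9 : ℕ) ≠ 4 by decide, if_false, List.mem_cons, List.not_mem_nil,
      or_false] at hg
    rcases hg with rfl | rfl | rfl | rfl | rfl | rfl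
    · convert hS using 5; decide
    · convert invariant_inv hS using 5; decide
    · convert hV using 5; decide
    · convert invariant_inv hV using 5; decide
    · convert invariant_inv hV' using 5; decide
    · convert hV' using 5; decide

/-- The descent step. -/
theorem exists_gen_lt (hr : r = 4 ∨ r = 9) {c d : ℤ} (hc : c ≠ 0) (hrc : (r : ℤ) ∣ c)
    (hd : 2 * |d| ≤ |c|) (hcop : IsCoprime c d) :
    ∃ g ∈ gens r, |c * g.1 0 0 + d * g.1 1 0| < |c| := by
  obtain ⟨m, rfl⟩ := hrc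
  have hd0 : d ≠ 0 := by
    rintro rfl
    rw [isCoprime_zero_right, Int.isUnit_iff] at hcop
    rcases hr with rfl | rfl <;> rcases hcop with h | h <;> omega
  have hp : ∀ p : ℤ, 1 < p → p ∣ (r : ℤ) * m → ¬ p ∣ d := fun p hp1 h1 h2 => by
    have := hcop.isUnit_of_dvd' h1 h2
    rw [Int.isUnit_iff] at this
    omega
  rcases hr with rfl | rfl
  · have h2 : ¬ (2 : ℤ) ∣ d := hp 2 one_lt_two ⟨2 * m, by push_cast; ring⟩
    simp only [gens, ↓reduceIte, List.mem_cons, List.not_mem_nil, or_false, exists_eq_or_imp,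
      exists_eq_left, mkSL_apply_zero, mkSL_apply_one]
    push_cast at *
    rcases abs_cases (4 * m) with ⟨h, hm⟩ | ⟨h, hm⟩ <;> rw [h] at hd ⊢ <;>
      rcases abs_cases d with ⟨h', hd'⟩ | ⟨h', hd'⟩ <;> rw [h'] at hd <;>
      simp only [abs_lt] <;> omega
  · have h3 : ¬ (3 : ℤ) ∣ d := hp 3 (by norm_num) ⟨3 * m, by push_cast; ring⟩
    simp only [gens, show (9 : ℕ) ≠ 4 by decide, if_false, List.mem_cons, List.not_mem_nil,
      or_false, exists_eq_or_imp, exists_eq_left, mkSL_apply_zero, mkSL_apply_one]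
    push_cast at *
    rcases abs_cases (9 * m) with ⟨h, hm⟩ | ⟨h, hm⟩ <;> rw [h] at hd ⊢ <;>
      rcases abs_cases d with ⟨h', hd'⟩ | ⟨h', hd'⟩ <;> rw [h'] at hd <;>
      simp only [abs_lt] <;> omega

theorem gens_mem (hr : r = 4 ∨ r = 9) : ∀ g ∈ gens r, (r : ℤ) ∣ g.1 1 0 := by
  rcases hr with rfl | rfl
  · intro g hg
    simp only [gens, ↓reduceIte, List.mem_cons, List.not_mem_nil, or_false] at hg
    rcases hg with rfl | rfl <;> norm_num [mkSL]
  · intro g hg
    simp only [gens, show (9 : ℕ) ≠ 4 by decide, if_false, List.mem_cons, List.not_mem_nil,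
      or_false] at hg
    rcases hg with rfl | rfl | rfl | rfl | rfl | rfl <;> norm_num [mkSL]

/-- `Γ₀(r)` is cut out by `r ∣ c`. -/
theorem mem_Gamma0_iff (γ : SL(2, ℤ)) :
    γ ∈ CongruenceSubgroup.Gamma0 r ↔ (r : ℤ) ∣ γ.1 1 0 := by
  rw [CongruenceSubgroup.Gamma0_mem, ZMod.intCast_zmod_eq_zero_iff_dvd]

/-- `u` is invariant under `Γ₀(r)`. -/
theorem uFun_smul (hr : r = 4 ∨ r = 9) (γ : SL(2, ℤ)) (hγ : γ ∈ CongruenceSubgroup.Gamma0 r)
    (τ : ℍ) : uFun r (γ • τ) = uFun r τ := by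
  rw [mem_Gamma0_iff] at hγ
  suffices h : ∀ (n : ℕ) (γ : SL(2, ℤ)), (γ.1 1 0).natAbs = n → (r : ℤ) ∣ γ.1 1 0 →
      ∀ τ : ℍ, uFun r (γ • τ) = uFun r τ from h _ γ rfl hγ τ
  clear hγ γ τ
  intro n
  induction n using Nat.strong_induction_on with
  | _ n ih =>
    intro γ hn hγ τ
    by_cases hc : γ.1 1 0 = 0
    · obtain ⟨m, hm⟩ := ModularGroup.exists_eq_T_zpow_of_c_eq_zero (g := γ) hc
      rw [hm, ← vadd_eq_T_zpow_smul, uFun_vadd_int]
    · set c := γ.1 1 0 with hcdef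
      obtain ⟨t, ht⟩ : ∃ t : ℤ, 2 * |γ.1 1 1 + t * c| ≤ |c| := by
        set d := γ.1 1 1
        refine ⟨-(d / c) - if 2 * (d % c) ≤ |c| then 0 else c.sign, ?_⟩
        have h1 := Int.emod_add_mul_ediv d c
        have h2 := Int.emod_nonneg d hc
        have h3 := Int.emod_lt_abs d hc
        have h4 : c.sign * c = |c| := by rw [Int.sign_mul_self_eq_abs]
        have e : d + (-(d / c) - if 2 * (d % c) ≤ |c| then 0 else c.sign) * c =
            if 2 * (d % c) ≤ |c| then d % c else d % c - |c| := by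
          split_ifs
          · linear_combination -h1
          · linear_combination -h1 - h4
        rw [e]
        split_ifs with hcase
        · rwa [abs_of_nonneg h2]
        · rw [abs_of_nonpos (by linarith)]; linarith
      set γ' := γ * ModularGroup.T ^ t with hγ'
      have hc' : γ'.1 1 0 = c := by
        rw [hγ', Matrix.SpecialLinearGroup.coe_mul, ModularGroup.coe_T_zpow, Matrix.mul_apply,
          Fin.sum_univ_two]
        simp [hcdef]
      have hd' : γ'.1 1 1 = γ.1 1 1 + t * c := by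
        rw [hγ', Matrix.SpecialLinearGroup.coe_mul, ModularGroup.coe_T_zpow, Matrix.mul_apply,
          Fin.sum_univ_two]
        simp [hcdef]; ring
      have hcop : IsCoprime (γ'.1 1 0) (γ'.1 1 1) := ⟨-(γ'.1 0 1), γ'.1 0 0, by
        have := γ'.2; rw [Matrix.det_fin_two] at this; linear_combination this⟩
      rw [hc', hd'] at hcop
      obtain ⟨g, hg, hlt⟩ := exists_gen_lt hr hc hγ ht hcop
      have key : (γ' * g).1 1 0 = c * g.1 0 0 + (γ.1 1 1 + t * c) * g.1 1 0 := by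
        rw [Matrix.SpecialLinearGroup.coe_mul, Matrix.mul_apply, Fin.sum_univ_two, hc', hd']
      have hlt' : ((γ' * g).1 1 0).natAbs < n := by
        rw [← hn, key]
        exact_mod_cast (show ((c * g.1 0 0 + (γ.1 1 1 + t * c) * g.1 1 0).natAbs : ℤ) < c.natAbs by
          simpa using hlt)
      have hmem : (r : ℤ) ∣ (γ' * g).1 1 0 := by
        rw [key]; exact dvd_add (hγ.mul_right _) ((gens_mem hr g hg).mul_left _)
      have h1 : γ • τ = (γ' * g) • (g⁻¹ • ((ModularGroup.T ^ (-t)) • τ)) := by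
        simp only [← mul_smul, hγ']; group
      rw [h1, ih _ hlt' _ rfl hmem, invariant_inv (uFun_gens hr g hg), ← vadd_eq_T_zpow_smul,
        uFun_vadd_int]

theorem tendsto_eulerFun_qParam {φ : ℍ → ℍ} (hφ : Tendsto φ atImInfty atImInfty) :
    Tendsto (fun τ => eulerFun (𝕢 1 (φ τ : ℂ))) atImInfty (𝓝 1) := by
  have h : ContinuousAt eulerFun 0 :=
    (ModularForm.differentiableOn_tprod_one_sub_pow.differentiableAt
      (Metric.ball_mem_nhds 0 one_pos)).continuousAt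
  have h0 : eulerFun 0 = 1 := by simp [eulerFun]
  have := (h.tendsto.comp ((qParam_tendsto_atImInfty (h := (1 : ℝ)) one_pos).comp hφ))
  rwa [h0] at this

/-- `u` is bounded at every cusp inequivalent to `∞`. -/
theorem isBounded_uFun_smul (hr : r = 4 ∨ r = 9) (γ : SL(2, ℤ))
    (hγ : γ ∉ CongruenceSubgroup.Gamma0 r) :
    IsBoundedAtImInfty fun τ => uFun r (γ • τ) := by
  have := neZero_of_level hr
  obtain ⟨M, c, ha, -, hc⟩ := exists_cusp hr γ
  have hne : M.a ≠ r := by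
    intro h
    refine hγ ((mem_Gamma0_iff γ).2 ?_)
    rw [← h, ha]
    exact Int.gcd_dvd_right _ _
  have had : M.a ≤ M.d := by
    have h := M.a_mul_d
    have h1 : M.a ≤ r := Nat.le_of_dvd (NeZero.pos r) (Dvd.intro _ h)
    by_contra hlt
    rcases hr with rfl | rfl <;>
      interval_cases hM : M.a <;> omega
  have hexp : IsBoundedAtImInfty fun τ : ℍ => Complex.exp (2 * Real.pi * I *
      ((τ : ℂ) - ((M.a : ℂ) * τ + M.b) / M.d) / ((r - 1 : ℕ) : ℂ)) := by
    rw [UpperHalfPlane.isBoundedAtImInfty_iff]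
    refine ⟨1, 0, fun τ _ => ?_⟩
    rw [Complex.norm_exp]
    refine Real.exp_le_one_iff.2 ?_
    rw [Complex.div_natCast_re]
    refine div_nonpos_of_nonpos_of_nonneg ?_ (Nat.cast_nonneg _)
    have h1 : (((M.a : ℂ) * τ + M.b) / M.d).im = M.a * τ.im / M.d := by
      rw [Complex.div_natCast_im]; simp
    simp only [Complex.mul_re, Complex.re_ofNat, Complex.ofReal_re, Complex.im_ofNat,
      Complex.ofReal_im, mul_zero, sub_zero, Complex.I_re, Complex.mul_im, zero_mul, add_zero,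
      Complex.I_im, mul_one, zero_sub, Complex.sub_im, h1, coe_im]
    have : (M.a : ℝ) * τ.im / M.d ≤ τ.im := by
      rw [div_le_iff₀ (by exact_mod_cast M.d_pos)]
      have : (M.a : ℝ) ≤ M.d := by exact_mod_cast had
      nlinarith [τ.im_pos]
    nlinarith [Real.pi_pos]
  have hlim := ((tendsto_eulerFun_qParam tendsto_id).div
    (tendsto_eulerFun_qParam (Tri.tendsto_map M)) one_ne_zero).pow (expo r)
  have h := (hexp.mul (hlim.isBigO_one ℝ)).const_mul_left c
  refine Asymptotics.IsBigO.trans (Asymptotics.IsBigO.congr_left h fun τ => ?_) (Asymptotics.isBigO_of_le _ fun τ => le_of_eq ?_)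
  · simp only [hc, modelFun]; rfl
  · rfl

end Fermat.Agent.Hauptmodul
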