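import Mathlib.Algebra.BigOperators.Fin
import Mathlib.RingTheory.PowerSeries.Basic

/-!
# Truncated integral power series as lists, for `decide`
-/

set_option autoImplicit false

namespace Fermat.Agent.Hauptmodul.LS

/-- Sum of coefficient lists. -/
def addL : List ℤ → List ℤ → List ℤ
  | [], b => b
  | a, [] => a
  | a :: as, b :: bs => (a + b) :: addL as bs

/-- Product of coefficient lists modulo `X^K`. -/
def mulL (K : ℕ) : List ℤ → List ℤ → List ℤ
  | [], _ => []
  | a :: as, b => (addL (b.map (a * ·)) (0 :: mulL K as b)).take K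

/-- Power modulo `X^K`. -/
def powL (K : ℕ) (l : List ℤ) : ℕ → List ℤ
  | 0 => [1]
  | n + 1 => mulL K (powL K l n) l

/-- `X ^ n`. -/
def xPowL (n : ℕ) : List ℤ := List.replicate n 0 ++ [1]

/-- `∏_{i<n} (1 - X^(i+1))` modulo `X^K`. -/
def etaL (K : ℕ) : ℕ → List ℤ
  | 0 => [1]
  | n + 1 => mulL K (etaL K n) (addL [1] ((xPowL (n + 1)).map (-1 * ·)))

/-- Homogeneous evaluation `∑ c_i W^i X^(d-i)` of a list of coefficients, highest first. -/
def homL (K : ℕ) (W : List ℤ) : List ℤ → List ℤ → ℕ → List ℤ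
  | [], S, _ => S
  | c :: cs, S, i => homL K W cs (addL (mulL K S W) ((xPowL i).map (c * ·))) (i + 1)

/-- Substitution `X ↦ X^r`. -/
def expandL (K r : ℕ) (l : List ℤ) : List ℤ :=
  (List.range K).map fun n => if r ∣ n then l.getD (n / r) 0 else 0

end Fermat.Agent.Hauptmodul.LS
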