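import Fermat.Agent.Hauptmodul.Principle
import Fermat.Agent.Hauptmodul.Conjugates

/-!
# The modular equation of prime degree `q ∤ r` for the Hauptmodul `u`, and Kronecker's congruence
-/

set_option autoImplicit false

noncomputable section

open Filter Complex ModularCurve
open UpperHalfPlane hiding I
open scoped Topology MatrixGroups Manifold Polynomial
open Fermat.Agent.ModularFunctionField

namespace Fermat.Agent.Hauptmodul

variable {r : ℕ}

/-- Evaluation of a polynomial at the series `u`. -/
def atUC (R : Type*) [CommRing R] (r : ℕ) [NeZero r] : R[X] →+* LaurentSeries R :=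
  Polynomial.eval₂RingHom HahnSeries.C (uC R r)

/-- `atUC` fixes the constants. -/
theorem atUC_C [NeZero r] {R : Type*} [CommRing R] (c : R) :
    atUC R r (Polynomial.C c) = HahnSeries.C c :=
  Polynomial.eval₂_C _ _

/-- `atUC` sends `X` to the series of `u`. -/
theorem atUC_X [NeZero r] {R : Type*} [CommRing R] : atUC R r Polynomial.X = uC R r :=
  Polynomial.eval₂_X _ _

theorem coeffMap_atUC [NeZero r] {R S : Type*} [CommRing R] [CommRing S] (f : R →+* S) (P : R[X]) :
    coeffMap f (atUC R r P) = atUC S r (P.map f) := by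
  refine RingHom.congr_fun (f := (coeffMap f).comp (atUC R r))
    (g := (atUC S r).comp (Polynomial.mapRingHom f)) ?_ P
  refine Polynomial.ringHom_ext (fun c => ?_) ?_
  · simp [atUC_C]
  · simp [atUC_X, coeffMap_uC]

theorem coeff_atUC_natDegree [NeZero r] {R : Type*} [CommRing R] (P : R[X]) :
    (atUC R r P).coeff (-(P.natDegree : ℤ)) = P.leadingCoeff := by
  rw [atUC, Polynomial.coe_eval₂RingHom, Polynomial.eval₂_eq_sum_range, HahnSeries.coeff_sum,
    Finset.sum_range_succ, Finset.sum_eq_zero, zero_add, HahnSeries.C_mul_eq_smul,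
    HahnSeries.coeff_smul,
    (coeff_pow_neg (uC_coeff_neg_one R r) (fun n hn => uC_coeff_of_lt R r hn) P.natDegree).1,
    smul_eq_mul, mul_one]
  · rfl
  · intro i hi
    rw [Finset.mem_range] at hi
    rw [HahnSeries.C_mul_eq_smul, HahnSeries.coeff_smul,
      (coeff_pow_neg (uC_coeff_neg_one R r) (fun n hn => uC_coeff_of_lt R r hn) i).2 _ (by omega),
      smul_zero]

/-- `u` is transcendental over the coefficients. -/
theorem atUC_injective [NeZero r] {R : Type*} [CommRing R] : Function.Injective (atUC R r) := by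
  rw [injective_iff_map_eq_zero]
  intro P hP
  have h := coeff_atUC_natDegree (r := r) P
  rw [hP, HahnSeries.coeff_zero] at h
  exact Polynomial.leadingCoeff_eq_zero.mp h.symm

/-- Evaluation of an integral polynomial at the series `u` over `R`. -/
def atU (R : Type*) [CommRing R] (r : ℕ) [NeZero r] : ℤ[X] →+* LaurentSeries R :=
  (atUC R r).comp (Polynomial.mapRingHom (Int.castRingHom R))

theorem atU_apply [NeZero r] (R : Type*) [CommRing R] (P : ℤ[X]) :
    atU R r P = P.eval₂ (Int.castRingHom _) (uC R r) := by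
  rw [atU, RingHom.comp_apply, Polynomial.coe_mapRingHom, atUC, Polynomial.coe_eval₂RingHom,
    Polynomial.eval₂_map]
  exact congrArg (fun φ => Polynomial.eval₂ φ (uC R r) P) (RingHom.ext_int _ _)

/-- `atU` sends `X` to the series of `u`. -/
theorem atU_X [NeZero r] (R : Type*) [CommRing R] : atU R r Polynomial.X = uC R r := by
  simp [atU, atUC_X]

/-- `atU` fixes the constants. -/
theorem atU_C [NeZero r] (R : Type*) [CommRing R] (c : ℤ) :
    atU R r (Polynomial.C c) = HahnSeries.C (c : R) := by
  simp [atU]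

/-- `atU` commutes with change of coefficients. -/
theorem coeffMap_atU [NeZero r] {R S : Type*} [CommRing R] [CommRing S] (f : R →+* S) (P : ℤ[X]) :
    coeffMap f (atU R r P) = atU S r P := by
  rw [atU, atU, RingHom.comp_apply, RingHom.comp_apply, coeffMap_atUC, Polynomial.coe_mapRingHom,
    Polynomial.coe_mapRingHom, Polynomial.map_map]
  exact congrArg (fun φ => atUC S r (P.map φ)) (RingHom.ext_int _ _)

theorem isBounded_coeff_prod {ι : Type*} (I : Finset ι) {F : ι → ℍ → ℂ}
    (h : ∀ i ∈ I, IsBoundedAtImInfty (F i)) (k : ℕ) :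
    IsBoundedAtImInfty fun τ => (∏ i ∈ I, (Polynomial.X - Polynomial.C (F i τ))).coeff k := by
  classical
  induction I using Finset.induction_on generalizing k with
  | empty =>
    simp only [Finset.prod_empty]
    exact Filter.const_boundedAtFilter _ _
  | insert a I ha ih =>
    simp only [Finset.prod_insert ha, Polynomial.coeff_mul]
    suffices key : ∀ s : Finset (ℕ × ℕ), IsBoundedAtImInfty fun τ => ∑ p ∈ s,
        (Polynomial.X - Polynomial.C (F a τ)).coeff p.1 *
          (∏ i ∈ I, (Polynomial.X - Polynomial.C (F i τ))).coeff p.2 from key _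
    intro s
    induction s using Finset.induction_on with
    | empty =>
      simp only [Finset.sum_empty]
      exact Filter.const_boundedAtFilter _ _
    | insert p s hp ihs =>
      simp only [Finset.sum_insert hp]
      refine Filter.BoundedAtFilter.add (Filter.BoundedAtFilter.mul ?_
        (ih (fun i hi => h i (Finset.mem_insert_of_mem hi)) _)) ihs
      simp only [Polynomial.coeff_sub, Polynomial.coeff_X, Polynomial.coeff_C]
      rcases eq_or_ne p.1 0 with hp | hp
      · simp only [hp, if_true]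
        exact (Filter.const_boundedAtFilter _ _).sub (h a (Finset.mem_insert_self _ _))
      · simp only [if_neg hp]
        exact Filter.const_boundedAtFilter _ _

variable {q : ℕ} [hq : Fact q.Prime]

theorem actMatrix_mem_iff (hqr : ¬ q ∣ r) (γ : SL(2, ℤ)) (M : Tri q) :
    Tri.actMatrix γ M ∈ CongruenceSubgroup.Gamma0 r ↔ γ ∈ CongruenceSubgroup.Gamma0 r := by
  obtain ⟨-, h2, -, -⟩ := (M.exists_smul γ).choose_spec.choose_spec
  change (Tri.actMatrix γ M).1 1 0 * ((Tri.act γ M).a : ℤ) = _ at h2
  have hco : q.Coprime r := (Nat.Prime.coprime_iff_not_dvd hq.out).2 hqr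
  have ha : IsCoprime (r : ℤ) ((Tri.act γ M).a : ℤ) := by
    rw [Int.isCoprime_iff_nat_coprime]
    simpa using (hco.coprime_dvd_left (Dvd.intro _ (Tri.act γ M).a_mul_d)).symm
  have hd : IsCoprime (r : ℤ) (M.d : ℤ) := by
    rw [Int.isCoprime_iff_nat_coprime]
    simpa using (hco.coprime_dvd_left (Dvd.intro_left _ M.a_mul_d)).symm
  rw [mem_Gamma0_iff, mem_Gamma0_iff]
  constructor
  · intro h
    exact hd.dvd_of_dvd_mul_left (h2 ▸ h.mul_right _)
  · intro h
    exact ha.dvd_of_dvd_mul_right (h2 ▸ h.mul_left _)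

variable [NeZero r]

/-- The series of `∏_M (Y - u(Mτ))`. -/
def qFamily (q r : ℕ) [Fact q.Prime] [NeZero r] : Polynomial (LaurentSeries ℤ) :=
  familySeries (q := q) (qExpand ℤ q (uC ℤ r)) (uC ℤ r)

theorem hasExp_qFamily (k : ℕ) :
    HasExp q (fun τ => (∏ M : Tri q, (Polynomial.X - Polynomial.C (uFun r (M.map τ)))).coeff k)
      (coeffMap (Int.castRingHom ℂ) (qExpand ℤ q ((qFamily q r).coeff k))) := by
  refine hasExp_family (qExpand ℤ q (uC ℤ r)) (uC ℤ r) (fun M τ => uFun r (M.map τ)) ?_
    (fun b => ?_) k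
  · refine (hasExp_comp_map 1 (mul_one q) Tri.top hasExp_uFun).congr_series ?_
    rw [rootSubst_top, coeffMap_qExpand', coeffMap_uC]
  · refine (hasExp_comp_map 1 (mul_one q) (triAff b) hasExp_uFun).congr_series ?_
    rw [rootSubst_aff, coeffMap_uC]

theorem exists_kronCoeff (hr : r = 4 ∨ r = 9) (hqr : ¬ q ∣ r) (k : ℕ) :
    ∃ P : ℤ[X], atU ℤ r P = (qFamily q r).coeff k ∧
      ∀ τ, (∏ M : Tri q, (Polynomial.X - Polynomial.C (uFun r (M.map τ)))).coeff k =
        (P.map (Int.castRingHom ℂ)).eval (uFun r τ) := by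
  obtain ⟨P, hP, hPτ⟩ := exists_polynomial hr (Int.castRingHom ℂ) Int.cast_injective
    (f := fun τ => (∏ M : Tri q, (Polynomial.X - Polynomial.C (uFun r (M.map τ)))).coeff k)
    (fun γ hγ τ => by
      rw [prod_invariant (fun M τ => uFun r (M.map τ)) γ τ fun M => by
        rw [(M.map_smul γ τ).1, uFun_smul hr _ ((actMatrix_mem_iff hqr γ M).2 hγ)]])
    (mdiff_coeff_prod _ (fun M _ => M.mdiff_comp mdiff_uFun) k)
    (fun γ hγ => isBounded_coeff_prod _ (F := fun (M : Tri q) τ => uFun r (M.map (γ • τ))) (fun M _ => by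
      simp only [fun τ => (M.map_smul γ τ).1]
      exact ((isBounded_uFun_smul hr _ (mt (actMatrix_mem_iff hqr γ M).1 hγ)).comp_tendsto
        (Tri.act γ M).tendsto_map).congr_right fun τ => rfl) k)
    (hasExp_qFamily k)
  refine ⟨P, qExpand_injective q ?_, hPτ⟩
  rw [hP, atU_apply, Polynomial.hom_eval₂, uT]
  exact congrArg (fun φ => Polynomial.eval₂ φ _ P) (RingHom.ext_int _ _)

/-- The modular polynomial of degree `q` for `u`: `Φ(u(τ), u(qτ)) = 0`. -/
def kronPoly (hr : r = 4 ∨ r = 9) (hqr : ¬ q ∣ r) : Polynomial ℤ[X] :=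
  Polynomial.X ^ (q + 1) + ∑ k ∈ Finset.range (q + 1),
    Polynomial.monomial k (exists_kronCoeff hr hqr k).choose

variable (hr : r = 4 ∨ r = 9) (hqr : ¬ q ∣ r)

theorem qFamily_monic : (qFamily q r).Monic ∧ (qFamily q r).natDegree = q + 1 := by
  have hd := natDegree_normPoly_le (q := q) (uC ℤ r)
  have hc : (AtP.normPoly q (uC ℤ r)).coeff q = 1 := by
    rw [AtP.coeff_normPoly]
    have hm : (AtP.conjProd (p := q) (uC ℤ r)).Monic :=
      Polynomial.monic_prod_of_monic _ _ fun b _ => Polynomial.monic_X_sub_C _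
    have hd : (AtP.conjProd (p := q) (uC ℤ r)).natDegree = q := by
      rw [AtP.conjProd, Polynomial.natDegree_finsetProd_X_sub_C_eq_card, Finset.card_univ,
        ZMod.card]
    rw [show (AtP.conjProd (p := q) (uC ℤ r)).coeff q = 1 by
      simpa [hd] using hm.coeff_natDegree]
    ext m
    rw [AtP.descend_coeff]
    rcases eq_or_ne m 0 with rfl | hm0
    · simp [AddMonoidAlgebra.one_def]
    · have : ((q : ℤ) * m) ≠ 0 := mul_ne_zero (by exact_mod_cast hq.out.ne_zero) hm0
      simp [HahnSeries.coeff_one, hm0, this]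
  have hm : (AtP.normPoly q (uC ℤ r)).Monic :=
    Polynomial.monic_of_natDegree_le_of_coeff_eq_one q hd hc
  refine ⟨(Polynomial.monic_X_sub_C _).mul hm, ?_⟩
  rw [qFamily, familySeries, (Polynomial.monic_X_sub_C _).natDegree_mul hm,
    Polynomial.natDegree_X_sub_C,
    Polynomial.natDegree_eq_of_le_of_coeff_ne_zero hd (by simp [hc]), add_comm]

theorem kronPoly_map_atU_int : (kronPoly hr hqr).map (atU ℤ r) = qFamily q r := by
  obtain ⟨hm, hd⟩ := qFamily_monic (q := q) (r := r)
  ext1 k
  rw [Polynomial.coeff_map, kronPoly, Polynomial.coeff_add, Polynomial.coeff_X_pow,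
    Polynomial.finsetSum_coeff]
  simp only [Polynomial.coeff_monomial, Finset.sum_ite_eq', Finset.mem_range]
  rcases lt_trichotomy k (q + 1) with hk | rfl | hk
  · rw [if_neg hk.ne, if_pos hk, zero_add, (exists_kronCoeff hr hqr k).choose_spec.1]
  · rw [if_pos rfl, if_neg (lt_irrefl _), add_zero, map_one, ← hd, hm.coeff_natDegree]
  · rw [if_neg hk.ne', if_neg (not_lt.2 hk.le), add_zero, map_zero,
      Polynomial.coeff_eq_zero_of_natDegree_lt (hd ▸ hk)]

/-- `Φ(u(τ), u(qτ)) = 0`. -/
theorem kronPoly_root (R : Type*) [CommRing R] :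
    (kronPoly hr hqr).eval₂ (atU R r) (qExpand R q (uC R r)) = 0 := by
  have h := congrArg (coeffMap (Int.castRingHom R))
    (familySeries_eval (q := q) (qExpand ℤ q (uC ℤ r)) (uC ℤ r))
  rw [← qFamily, ← kronPoly_map_atU_int hr hqr, Polynomial.eval_map, Polynomial.hom_eval₂,
    map_zero, coeffMap_qExpand', coeffMap_uC] at h
  rwa [show (coeffMap (Int.castRingHom R)).comp (atU ℤ r) = atU R r from
    RingHom.ext fun P => coeffMap_atU _ P] at h

/-- Kronecker's congruence. -/
theorem kronPoly_mod :
    (kronPoly hr hqr).map (Polynomial.mapRingHom (Int.castRingHom (ZMod q))) =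
      (Polynomial.X - Polynomial.C (Polynomial.X ^ q)) *
        (Polynomial.X ^ q - Polynomial.C Polynomial.X) := by
  refine Polynomial.map_injective (atUC (ZMod q) r) atUC_injective ?_
  have h := congrArg (Polynomial.map (coeffMap (Int.castRingHom (ZMod q))))
    (kronPoly_map_atU_int hr hqr)
  rw [qFamily, familySeries_mod, Polynomial.map_map, coeffMap_qExpand', coeffMap_uC,
    ← AtP.pow_eq_qExpand] at h
  rw [Polynomial.map_map, Polynomial.map_mul, Polynomial.map_sub, Polynomial.map_sub,
    Polynomial.map_pow, Polynomial.map_X, Polynomial.map_C, Polynomial.map_C, map_pow, atUC_X,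
    ← h]
  congr 1
  exact RingHom.ext fun P => (coeffMap_atU (Int.castRingHom (ZMod q)) P).symm

theorem exists_kronRem :
    ∃ H : Polynomial ℤ[X], kronPoly hr hqr =
      (Polynomial.X - Polynomial.C (Polynomial.X ^ q)) *
        (Polynomial.X ^ q - Polynomial.C Polynomial.X) + Polynomial.C (Polynomial.C (q : ℤ)) * H := by
  suffices h : Polynomial.C (Polynomial.C (q : ℤ)) ∣ kronPoly hr hqr -
      (Polynomial.X - Polynomial.C (Polynomial.X ^ q)) *
        (Polynomial.X ^ q - Polynomial.C Polynomial.X) by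
    obtain ⟨H, hH⟩ := h
    exact ⟨H, by rw [← hH]; ring⟩
  rw [Polynomial.C_dvd_iff_dvd_coeff]
  intro i
  rw [Polynomial.C_dvd_iff_dvd_coeff]
  intro j
  rw [← ZMod.intCast_zmod_eq_zero_iff_dvd]
  have h := congrArg (fun P => (Polynomial.coeff P i).coeff j) (kronPoly_mod hr hqr)
  simp only [Polynomial.coeff_map, Polynomial.coe_mapRingHom] at h
  rw [Polynomial.coeff_sub, Polynomial.coeff_sub, Int.cast_sub, sub_eq_zero]
  refine Eq.trans (by simpa using h) ?_
  conv_rhs => rw [← eq_intCast (Int.castRingHom (ZMod q)), ← Polynomial.coeff_map,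
    ← Polynomial.coe_mapRingHom, ← Polynomial.coeff_map]
  simp

/-- The remainder in Kronecker's congruence. -/
def kronRem : Polynomial ℤ[X] := (exists_kronRem hr hqr).choose

/-- Kronecker's congruence with its remainder. -/
theorem kronPoly_eq :
    kronPoly hr hqr = (Polynomial.X - Polynomial.C (Polynomial.X ^ q)) *
      (Polynomial.X ^ q - Polynomial.C Polynomial.X) +
        Polynomial.C (Polynomial.C (q : ℤ)) * kronRem hr hqr :=
  (exists_kronRem hr hqr).choose_spec

end Fermat.Agent.Hauptmodul
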